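/-
S32 / Carayol bookkeeping (helper25): **the determinant of `ρ` at complex conjugation is `-1`**,
for a representation `ρ : GaloisRepAdic R` whose Frobenius characteristic polynomials are
`X² - π(T_ℓ) X + ℓ` (`ℓ ∉ S`), over a local ring `R` with `p ∈ 𝔪_R`, `𝔪_R`-adically separated.

* `det_eq_intCast_of_cyclo_eq_intCast` : `χ_cyc(g) = z` (an integer) `⇒ det ρ(g) = z`
  (Frobenius-power density, exactly the argument of `S34Assembly.det_eq_one_of_cyclo_eq_one`);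
* `det_complexConjugation` : `det ρ(c) = -1`;
* `det_mul_self_complexConjugation`, `complexConjugation_mul_self'` : the shapes consumed by
  `CHCore`/`AnnBridge`/`Witness` (`hc : c * c = 1`, `hdet : det (ρ c) = -1`).
-/
import Mathlib
import Fermat.Prelude.Def_GaloisRep_ComplexConjugation
import Fermat.Agent.N4.FrobDensity.CycloConj
import Fermat.Agent.N4F.Adic.S34Assembly

set_option autoImplicit false
set_option linter.style.haveILetI false
set_option linter.unusedSectionVars false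

open Polynomial

namespace Fermat.Agent.S32.Carayol.DetConj

open Fermat.Agent.N4F.Adic Fermat.Agent.N4F.Adic.S31Lattice Fermat.Agent.N4F.Adic.S31Trace
  Fermat.Agent.N4F.Adic.S31Assembly Fermat.Agent.N4F.Adic.S34Assembly
  Fermat.Agent.N4.FrobDensity Fermat.Agent.N4F.Tors.Occurrence CuspForm

local notation "Qbar" => AlgebraicClosure ℚ
local notation "Γ" => (AlgebraicClosure ℚ ≃ₐ[ℚ] AlgebraicClosure ℚ)

local instance isAlgebraicQbar_DetConj : Algebra.IsAlgebraic ℚ (AlgebraicClosure ℚ) :=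
  AlgebraicClosure.isAlgebraic ℚ
local instance isAlgClosureQbar_DetConj : IsAlgClosure ℚ (AlgebraicClosure ℚ) :=
  ⟨inferInstance, inferInstance⟩
local instance normalQbar_DetConj : Normal ℚ (AlgebraicClosure ℚ) :=
  IsAlgClosure.normal ℚ (AlgebraicClosure ℚ)

section Main

variable {p N : ℕ} [Fact p.Prime] [NeZero N] (S : Finset ℕ)
  {R : Type} [CommRing R] [IsLocalRing R] [IsNoetherianRing R]
  (hpS : p ∈ S) (hNS : ∀ q : ℕ, q.Prime → q ∣ N → q ∈ S)
  (π : heckeAlgebra N 2 (↑S : Set ℕ) →+* R) (ρ : GaloisRepAdic R)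
  (hfrob : ∀ (ℓ : ℕ) (hℓ : ℓ.Prime) (hℓN : ¬ ℓ ∣ N) (hℓS : ℓ ∉ (↑S : Set ℕ)),
    ∀ A : ValuationSubring Qbar, A.LiesOverPrime ℓ → ∀ σ : Γ, A.IsFrobeniusAt σ ℓ →
      LinearMap.charpoly (ρ.ρ σ) = X ^ 2 - C (π (heckeAlgebra.T hℓ hℓN hℓS)) * X + C ((ℓ : R)))

include hpS hNS hfrob in
/-- `χ_cyc(g) = z ∈ ℤ ⇒ det ρ(g) = z`. -/
theorem det_eq_intCast_of_cyclo_eq_intCast (hpR : (p : R) ∈ IsLocalRing.maximalIdeal R) (g : Γ)
    (z : ℤ) (hg : ((cycloCharAdic p g : ℤ_[p]ˣ) : ℤ_[p]) = (z : ℤ_[p])) :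
    LinearMap.det (ρ.ρ g) = (z : R) := by
  rw [← sub_eq_zero]
  refine eq_zero_of_forall_mem_pow _ fun n => ?_
  obtain ⟨L, hfd, hn, h₂, h₃⟩ := exists_normal_level_of_pred
    (fun σ => ((cycloCharAdic p σ : ℤ_[p]ˣ) : ℤ_[p]) - 1 ∈ Ideal.span {(p : ℤ_[p]) ^ n})
    (fun σ => ρ.ρ σ - 1 ∈ smallEnd (V := ρ.V) (IsLocalRing.maximalIdeal R ^ n))
    (cycloCharAdic_continuous p n)
    (by
      obtain ⟨L, hL, h⟩ := ρ.isAdicContinuous n
      exact ⟨L, hL, fun σ hσ v => by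
        rw [LinearMap.sub_apply, Module.End.one_apply]
        exact h σ hσ v⟩)
  obtain ⟨l, hl, hlS, A, hlA, φ, hφ, m, hm⟩ := exists_isFrobeniusAt_pow_eq L g S
  have hlp : l ≠ p := fun h => hlS (h ▸ hpS)
  have hlN : ¬ l ∣ N := fun h => hlS (hNS l hl h)
  have hlS' : l ∉ (↑S : Set ℕ) := fun h => hlS (Finset.mem_coe.1 h)
  -- determinants
  have h4 := det_sub_det_mem _ _ _ (sub_mem_smallEnd_of_restrict_eq L _ ρ.ρ h₃ hm)
  have hdetφ : LinearMap.det (ρ.ρ φ) = (l : R) := by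
    rw [LinearMap.det_eq_sign_charpoly_coeff, ρ.finrank_eq, hfrob l hl hlN hlS' A hlA φ hφ]
    simp [coeff_X, coeff_C]
  rw [map_pow, map_pow, hdetφ] at h4
  -- the cyclotomic character
  have hker : AlgEquiv.restrictNormalHom L ((φ ^ m)⁻¹ * g) = 1 := by
    rw [map_mul, map_inv, hm, inv_mul_cancel]
  have h5 := h₂ _ hker
  have hχ : ((cycloCharAdic p φ : ℤ_[p]ˣ) : ℤ_[p]) = (l : ℤ_[p]) :=
    cycloCharAdic_frob p hl hlp hlA hφ
  rw [map_mul, map_inv, map_pow] at h5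
  have h6 : (z : ℤ_[p]) - (l : ℤ_[p]) ^ m ∈ Ideal.span {(p : ℤ_[p]) ^ n} := by
    have h7 : (z : ℤ_[p]) - (l : ℤ_[p]) ^ m
        = ((l : ℤ_[p]) ^ m) *
          ((((cycloCharAdic p φ ^ m)⁻¹ * cycloCharAdic p g : ℤ_[p]ˣ) : ℤ_[p]) - 1) := by
      rw [mul_sub, mul_one, Units.val_mul, ← mul_assoc, ← hχ, ← Units.val_pow_eq_pow_val,
        ← Units.val_mul, mul_inv_cancel, Units.val_one, one_mul, hg]
    rw [h7]
    exact Ideal.mul_mem_left _ _ h5
  have h8 : ((p : ℤ) ^ n) ∣ (z - (l : ℤ) ^ m) := by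
    rw [Ideal.mem_span_singleton] at h6
    have h9 : ((z - (l : ℤ) ^ m : ℤ) : ℤ_[p]) = (z : ℤ_[p]) - (l : ℤ_[p]) ^ m := by
      push_cast; rfl
    rw [← h9, PadicInt.pow_p_dvd_int_iff] at h6
    exact h6
  obtain ⟨c, hc⟩ := h8
  have h10 : (z : R) - (l : R) ^ m ∈ IsLocalRing.maximalIdeal R ^ n := by
    have h11 : (z : R) - (l : R) ^ m = ((z - (l : ℤ) ^ m : ℤ) : R) := by push_cast; rfl
    rw [h11, hc]
    push_cast
    exact Ideal.mul_mem_right _ _ (Ideal.pow_mem_pow hpR n)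
  have h12 : LinearMap.det (ρ.ρ g) - (z : R)
      = (LinearMap.det (ρ.ρ g) - (l : R) ^ m) - ((z : R) - (l : R) ^ m) := by ring
  rw [h12]
  exact Ideal.sub_mem _ h4 h10

include hpS hNS hfrob in
/-- **`det ρ(c) = -1`** for the complex conjugation `c`. -/
theorem det_complexConjugation (hpR : (p : R) ∈ IsLocalRing.maximalIdeal R) :
    LinearMap.det (ρ.ρ complexConjugation) = -1 := by
  have h := det_eq_intCast_of_cyclo_eq_intCast S hpS hNS π ρ hfrob hpR complexConjugation (-1)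
    (by rw [cycloCharAdic_complexConjugation]; simp)
  simpa using h

end Main

end Fermat.Agent.S32.Carayol.DetConj
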