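/-
S32 / Carayol bookkeeping (helper27): **commutative algebra of the finite levels `T ⧸ I`.**

`R` a local ring, `I` an ideal with `Finite (R ⧸ I)`:
* `isLocalRing_quotient` : `I ≠ ⊤ → IsLocalRing (R ⧸ I)`;
* `exists_pow_maximalIdeal_le` : `∃ n, 𝔪 ^ n ≤ I`;
* `exists_pow_mem_of_mem_maximalIdeal` : `x ∈ 𝔪 → ∃ n, x ^ n ∈ I`; in particular `(p : R) ^ n ∈ I`;
* `isUnit_two_of_odd` : `p` odd, `(p : R) ∈ 𝔪` ⇒ `2` is a unit;
* `subsingleton_level` : `I = ⊤ ⇒ Subsingleton (M ⧸ I • ⊤)`;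
* `natCast_mem_maximalIdeal_of_isLocalHom` : `(p : 𝒪) ∈ 𝔪_𝒪` and `𝒪 → R` local ⇒ `(p : R) ∈ 𝔪_R`.
-/
import Mathlib

set_option autoImplicit false
set_option linter.unusedSectionVars false

namespace Fermat.Agent.S32.Carayol.FiniteLevel

open IsLocalRing

section

variable {R : Type*} [CommRing R] [IsLocalRing R] (I : Ideal R)

/-- A proper quotient of a local ring is local. -/
theorem isLocalRing_quotient (hI : I ≠ ⊤) : IsLocalRing (R ⧸ I) :=
  haveI : Nontrivial (R ⧸ I) := Ideal.Quotient.nontrivial_iff.mpr hI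
  IsLocalRing.of_surjective' (Ideal.Quotient.mk I) Ideal.Quotient.mk_surjective

/-- If `R ⧸ I` is finite, a power of the maximal ideal is contained in `I`. -/
theorem exists_pow_maximalIdeal_le [Finite (R ⧸ I)] : ∃ n : ℕ, maximalIdeal R ^ n ≤ I := by
  by_cases hI : I = ⊤
  · exact ⟨0, by rw [hI]; exact le_top⟩
  have : Nontrivial (R ⧸ I) := Ideal.Quotient.nontrivial_iff.mpr hI
  have : IsLocalRing (R ⧸ I) := isLocalRing_quotient I hI
  have : IsLocalHom (Ideal.Quotient.mk I) :=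
    IsLocalHom.of_surjective (Ideal.Quotient.mk I) Ideal.Quotient.mk_surjective
  have hnil : IsNilpotent (maximalIdeal (R ⧸ I)) := by
    have h := IsArtinianRing.isNilpotent_jacobson_bot (R := R ⧸ I)
    rwa [IsLocalRing.jacobson_eq_maximalIdeal ⊥ bot_ne_top] at h
  obtain ⟨n, hn⟩ := hnil
  refine ⟨n, ?_⟩
  have h1 : Ideal.map (Ideal.Quotient.mk I) (maximalIdeal R ^ n) ≤ ⊥ := by
    rw [Ideal.map_pow]
    calc Ideal.map (Ideal.Quotient.mk I) (maximalIdeal R) ^ n
        ≤ maximalIdeal (R ⧸ I) ^ n :=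
          Ideal.pow_right_mono (IsLocalRing.map_maximalIdeal_le (Ideal.Quotient.mk I)) n
      _ = ⊥ := by rw [hn]; rfl
  rw [Ideal.map_le_iff_le_comap] at h1
  intro x hx
  have := h1 hx
  rw [Ideal.mem_comap, Ideal.mem_bot] at this
  exact Ideal.Quotient.eq_zero_iff_mem.mp this

/-- If `R ⧸ I` is finite, every element of the maximal ideal is nilpotent modulo `I`. -/
theorem exists_pow_mem_of_mem_maximalIdeal [Finite (R ⧸ I)] {x : R} (hx : x ∈ maximalIdeal R) :
    ∃ n : ℕ, x ^ n ∈ I := by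
  obtain ⟨n, hn⟩ := exists_pow_maximalIdeal_le I
  exact ⟨n, hn (Ideal.pow_mem_pow hx n)⟩

/-- In particular for the residue characteristic. -/
theorem exists_natCast_pow_mem [Finite (R ⧸ I)] {p : ℕ} (hp : (p : R) ∈ maximalIdeal R) :
    ∃ n : ℕ, (p : R) ^ n ∈ I :=
  exists_pow_mem_of_mem_maximalIdeal I hp

omit [IsLocalRing R] in
/-- The levels of the unit ideal are trivial. -/
theorem subsingleton_level {M : Type*} [AddCommGroup M] [Module R M] (hI : I = ⊤) :
    Subsingleton (M ⧸ (I • (⊤ : Submodule R M))) := by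
  have h : I • (⊤ : Submodule R M) = ⊤ := by
    rw [hI, Submodule.top_smul]
  rw [h]
  exact Submodule.Quotient.subsingleton_iff.mpr rfl

end

section

variable {R : Type*} [CommRing R] [IsLocalRing R]

/-- If the odd number `p` lies in the maximal ideal then `2` is a unit. -/
theorem isUnit_two_of_odd {p : ℕ} (hodd : Odd p) (hp : (p : R) ∈ maximalIdeal R) :
    IsUnit (2 : R) := by
  by_contra h2
  have h2m : (2 : R) ∈ maximalIdeal R := (IsLocalRing.mem_maximalIdeal _).mpr h2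
  obtain ⟨k, hk⟩ := hodd
  have h1 : (1 : R) = (p : R) - 2 * (k : R) := by
    rw [hk]; push_cast; ring
  have : (1 : R) ∈ maximalIdeal R := by
    rw [h1]
    exact Ideal.sub_mem _ hp (Ideal.mul_mem_right _ _ h2m)
  exact (Ideal.ne_top_iff_one _).mp (IsLocalRing.maximalIdeal.isMaximal R).ne_top this

/-- The residue characteristic of the base is in the maximal ideal of a local algebra. -/
theorem natCast_mem_maximalIdeal_of_isLocalHom {𝒪 : Type*} [CommRing 𝒪] [IsLocalRing 𝒪]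
    [Algebra 𝒪 R] [IsLocalHom (algebraMap 𝒪 R)] {p : ℕ} (hp : (p : 𝒪) ∈ maximalIdeal 𝒪) :
    (p : R) ∈ maximalIdeal R := by
  have h := IsLocalRing.map_maximalIdeal_le (algebraMap 𝒪 R) (Ideal.mem_map_of_mem _ hp)
  rwa [map_natCast] at h

/-- A prime different from `2` is odd. -/
theorem odd_of_prime_ne_two {p : ℕ} (hp : p.Prime) (hp2 : p ≠ 2) : Odd p :=
  hp.odd_of_ne_two hp2

end

end Fermat.Agent.S32.Carayol.FiniteLevel
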