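/-
S32 / Carayol bookkeeping (helper27): **the abstract Cayley–Hamilton core.**

`A` a commutative ring with `2` invertible, `X` a FAITHFUL `A`-module with an `A`-linear action `act`
of a group `Γ` satisfying the Cayley–Hamilton identity
`act g * act g - t g • act g + d g • 1 = 0` for functions `t : Γ → A`, `d : Γ →* Aˣ`, an element
`c ∈ Γ` with `c * c = 1`, `d c = -1` ("complex conjugation"), and a witness of irreducibility
`g₀ h₀` with `t (g₀ h₀) - t (g₀ c h₀) + t (g₀ h₀ c) - t (g₀ c h₀ c)` a unit.

Then (`tau_eq_zero_of_ev_eq_zero`) every formal sum `a = ∑ aᵢ gᵢ` acting as `0` on `X` has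
`∑ aᵢ t (gᵢ h) = 0` for every `h`, and consequently (`rho_eq_zero_of_ev_eq_zero`) it is killed by every
matrix representation `ρ' : Γ →* M₂(T')` with `tr ρ' g = Φ (t g)` whose image spans `M₂(T')`.
-/
import Mathlib

set_option autoImplicit false

namespace Fermat.Agent.S32.Carayol.CHCore

open Module

section Basic

variable {A : Type*} [CommRing A] {X : Type*} [AddCommGroup X] [Module A X]
  {Γ : Type*} [Group Γ]
  (act : Γ →* Module.End A X) (t : Γ → A) (d : Γ →* Aˣ)

/-- The Cayley–Hamilton identity for every group element. -/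
def IsCH : Prop :=
  ∀ g : Γ, act g * act g - t g • act g + ((d g : Aˣ) : A) • (1 : Module.End A X) = 0

/-- Faithfulness of the module. -/
def IsFaithful (A : Type*) [CommRing A] (X : Type*) [AddCommGroup X] [Module A X] : Prop :=
  ∀ s : A, (∀ x : X, s • x = 0) → s = 0

variable {act t d}

theorem act_mul_inv (g : Γ) : act g * act g⁻¹ = 1 := by
  rw [← map_mul, mul_inv_cancel, map_one]

theorem act_inv_mul (g : Γ) : act g⁻¹ * act g = 1 := by
  rw [← map_mul, inv_mul_cancel, map_one]

/-- `act g + d g • act g⁻¹ = t g • 1`. -/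
theorem ch_inv (h : IsCH act t d) (g : Γ) :
    act g + ((d g : Aˣ) : A) • act g⁻¹ = t g • (1 : Module.End A X) := by
  have h1 := h g
  have h2 : (act g * act g - t g • act g + ((d g : Aˣ) : A) • (1 : Module.End A X)) * act g⁻¹
      = 0 := by rw [h1, zero_mul]
  rw [add_mul, sub_mul, mul_assoc, act_mul_inv, mul_one, smul_mul_assoc, act_mul_inv,
    smul_mul_assoc, one_mul] at h2
  rw [← sub_eq_zero, ← h2]
  abel

/-- `d g • act g⁻¹ = t g • 1 - act g`. -/
theorem smul_act_inv (h : IsCH act t d) (g : Γ) :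
    ((d g : Aˣ) : A) • act g⁻¹ = t g • (1 : Module.End A X) - act g := by
  rw [← ch_inv h g]; abel

/-- **The polarised Cayley–Hamilton identity.** -/
theorem polar (h : IsCH act t d) (g k : Γ) :
    act g * act k + act k * act g
      = t g • act k + t k • act g + (t (g * k) - t g * t k) • (1 : Module.End A X) := by
  have h1 := ch_inv h (g * k)
  have h2 : ((d (g * k) : Aˣ) : A) • act (g * k)⁻¹
      = (((d k : Aˣ) : A) • act k⁻¹) * (((d g : Aˣ) : A) • act g⁻¹) := by
    rw [mul_inv_rev, map_mul, map_mul, Units.val_mul, smul_mul_smul_comm, mul_comm]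
  rw [h2, smul_act_inv h, smul_act_inv h, map_mul] at h1
  have h3 : (t k • (1 : Module.End A X) - act k) * (t g • (1 : Module.End A X) - act g)
      = (t g * t k) • (1 : Module.End A X) - t k • act g - t g • act k + act k * act g := by
    rw [sub_mul, mul_sub, mul_sub, smul_mul_smul_comm, mul_one, smul_mul_assoc, one_mul,
      mul_smul_comm, mul_one, mul_comm (t k) (t g)]
    abel
  rw [h3] at h1
  have h4 : act g * act k + act k * act g
      = (act g * act k + ((t g * t k) • (1 : Module.End A X) - t k • act g - t g • act k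
        + act k * act g)) - (t g * t k) • (1 : Module.End A X) + t k • act g + t g • act k := by
    abel
  rw [h4, h1, sub_smul]
  abel

/-! ### Consequences of faithfulness -/

theorem eq_of_smul_one_eq (hf : IsFaithful A X) {s s' : A}
    (h : s • (1 : Module.End A X) = s' • (1 : Module.End A X)) : s = s' := by
  rw [← sub_eq_zero]
  refine hf _ fun x => ?_
  have h1 := congrArg (fun E : Module.End A X => E x) h
  simp only [LinearMap.smul_apply, Module.End.one_apply] at h1
  rw [sub_smul, h1, sub_self]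

theorem t_one (hf : IsFaithful A X) (h : IsCH act t d) : t 1 = 2 := by
  refine eq_of_smul_one_eq hf ?_
  rw [← ch_inv h 1, inv_one, map_one, map_one, Units.val_one, one_smul, two_smul]

theorem t_conj (hf : IsFaithful A X) (h : IsCH act t d) (k g : Γ) : t (k * g * k⁻¹) = t g := by
  refine eq_of_smul_one_eq hf ?_
  rw [← ch_inv h (k * g * k⁻¹)]
  have h1 : (k * g * k⁻¹)⁻¹ = k * g⁻¹ * k⁻¹ := by group
  have h2 : d (k * g * k⁻¹) = d g := by
    rw [map_mul, map_mul, map_inv, mul_comm (d k), mul_assoc, mul_inv_cancel, mul_one]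
  have h3 : act (k * g * k⁻¹) + ((d g : Aˣ) : A) • act (k * g⁻¹ * k⁻¹)
      = act k * (act g + ((d g : Aˣ) : A) • act g⁻¹) * act k⁻¹ := by
    rw [map_mul, map_mul, map_mul, map_mul, mul_add, add_mul, mul_smul_comm, smul_mul_assoc]
  rw [h1, h2, h3, ch_inv h g, mul_smul_comm, mul_one, smul_mul_assoc, act_mul_inv]

theorem t_mul_comm (hf : IsFaithful A X) (h : IsCH act t d) (g k : Γ) : t (g * k) = t (k * g) := by
  have h1 := t_conj hf h k (g * k)
  have h2 : k * (g * k) * k⁻¹ = k * g := by group
  rw [h2] at h1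
  exact h1.symm

theorem t_of_invol (hf : IsFaithful A X) (h : IsCH act t d) {c : Γ} (hc : c * c = 1)
    (hdc : d c = -1) : t c = 0 := by
  refine eq_of_smul_one_eq hf ?_
  have hci : c⁻¹ = c := inv_eq_of_mul_eq_one_right hc
  rw [← ch_inv h c, hci, hdc, Units.val_neg, Units.val_one, neg_one_smul, zero_smul, add_neg_cancel]

end Basic

/-! ### Formal sums -/

section Formal

variable {A : Type*} [CommRing A] {X : Type*} [AddCommGroup X] [Module A X]
  {Γ : Type*} [Group Γ]
  (act : Γ →* Module.End A X) (t : Γ → A) (d : Γ →* Aˣ)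

/-- Evaluation of a formal sum `∑ aᵢ gᵢ` on `X`. -/
noncomputable def ev : (Γ →₀ A) →ₗ[A] Module.End A X :=
  Finsupp.linearCombination A (fun g => act g)

/-- The formal trace of `a · k`: `∑ aᵢ t (gᵢ k)`. -/
noncomputable def tau (k : Γ) : (Γ →₀ A) →ₗ[A] A :=
  Finsupp.linearCombination A (fun g => t (g * k))

@[simp] theorem ev_single (g : Γ) (r : A) : ev act (Finsupp.single g r) = r • act g := by
  rw [ev, Finsupp.linearCombination_single]

@[simp] theorem tau_single (k g : Γ) (r : A) : tau t k (Finsupp.single g r) = r * t (g * k) := by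
  rw [tau, Finsupp.linearCombination_single, smul_eq_mul]

/-- Right translation of a formal sum by a group element. -/
noncomputable def rtrans (k : Γ) : (Γ →₀ A) →ₗ[A] (Γ →₀ A) :=
  Finsupp.lmapDomain A A (fun g => g * k)

@[simp] theorem rtrans_single (k g : Γ) (r : A) :
    rtrans (A := A) k (Finsupp.single g r) = Finsupp.single (g * k) r := by
  rw [rtrans, Finsupp.lmapDomain_apply, Finsupp.mapDomain_single]

theorem ev_rtrans (k : Γ) (a : Γ →₀ A) : ev act (rtrans k a) = ev act a * act k := by
  have h : (ev act).comp (rtrans (A := A) k) = (LinearMap.mulRight A (act k)).comp (ev act) := by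
    refine Finsupp.lhom_ext fun g r => ?_
    simp only [LinearMap.comp_apply, rtrans_single, ev_single, LinearMap.mulRight_apply, map_mul,
      smul_mul_assoc]
  exact LinearMap.congr_fun h a

theorem tau_rtrans (k k' : Γ) (a : Γ →₀ A) : tau t k' (rtrans k a) = tau t (k * k') a := by
  have h : (tau t k').comp (rtrans (A := A) k) = tau t (k * k') := by
    refine Finsupp.lhom_ext fun g r => ?_
    simp only [LinearMap.comp_apply, rtrans_single, tau_single, mul_assoc]
  exact LinearMap.congr_fun h a

variable {act t d}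

/-- **The polarised identity for a formal sum and a group element.** -/
theorem polar_formal (h : IsCH act t d) (a : Γ →₀ A) (k : Γ) :
    ev act a * act k + act k * ev act a
      = tau t 1 a • act k + t k • ev act a
        + (tau t k a - tau t 1 a * t k) • (1 : Module.End A X) := by
  have hl : (LinearMap.mulRight A (act k)).comp (ev act) + (LinearMap.mulLeft A (act k)).comp (ev act)
      = (tau t 1).smulRight (act k) + t k • ev act
        + (tau t k - t k • tau t 1).smulRight (1 : Module.End A X) := by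
    refine Finsupp.lhom_ext fun g r => ?_
    simp only [LinearMap.add_apply, LinearMap.comp_apply, ev_single, LinearMap.mulRight_apply,
      LinearMap.mulLeft_apply, LinearMap.smulRight_apply, tau_single, LinearMap.smul_apply,
      LinearMap.sub_apply, mul_one, smul_mul_assoc, mul_smul_comm, smul_eq_mul]
    rw [← smul_add, polar h g k, smul_add, smul_add, smul_smul, smul_smul, smul_smul, smul_smul]
    congr 2
    · rw [mul_comm]
    · ring
  have := LinearMap.congr_fun hl a
  simp only [LinearMap.add_apply, LinearMap.comp_apply, LinearMap.mulRight_apply,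
    LinearMap.mulLeft_apply, LinearMap.smulRight_apply, LinearMap.smul_apply,
    LinearMap.sub_apply, smul_eq_mul] at this
  rw [this, mul_comm (t k)]

/-! ### The two idempotents of the involution -/

section Invol

variable {c : Γ}

theorem act_invol (hc : c * c = 1) : act c * act c = 1 := by
  rw [← map_mul, hc, map_one]

/-- `x c + c x = τ₁ c + τ_c` for `x = ev a`. -/
theorem ev_anticomm (hf : IsFaithful A X) (h : IsCH act t d) (hc : c * c = 1) (hdc : d c = -1)
    (a : Γ →₀ A) :
    ev act a * act c + act c * ev act a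
      = tau t 1 a • act c + tau t c a • (1 : Module.End A X) := by
  rw [polar_formal h a c, t_of_invol hf h hc hdc, zero_smul, add_zero, mul_zero, sub_zero]

/-- `x + c x c = τ₁ + τ_c c`. -/
theorem ev_add_conj (hf : IsFaithful A X) (h : IsCH act t d) (hc : c * c = 1) (hdc : d c = -1)
    (a : Γ →₀ A) :
    ev act a + act c * ev act a * act c
      = tau t 1 a • (1 : Module.End A X) + tau t c a • act c := by
  have h1 := congrArg (fun E : Module.End A X => E * act c) (ev_anticomm hf h hc hdc a)
  simp only [add_mul, mul_assoc, act_invol hc, mul_one, smul_mul_assoc, one_mul] at h1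
  rw [← h1, mul_assoc]

/-- `(1 + c) x (1 + c) = (τ₁ + τ_c) (1 + c)`. -/
theorem plus_ev_plus (hf : IsFaithful A X) (h : IsCH act t d) (hc : c * c = 1) (hdc : d c = -1)
    (a : Γ →₀ A) :
    (1 + act c) * ev act a * (1 + act c)
      = (tau t 1 a + tau t c a) • ((1 : Module.End A X) + act c) := by
  have h1 := ev_anticomm hf h hc hdc a
  have h2 := ev_add_conj hf h hc hdc a
  have h3 : (1 + act c) * ev act a * (1 + act c)
      = (ev act a + act c * ev act a * act c) + (ev act a * act c + act c * ev act a) := by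
    noncomm_ring
  rw [h3, h1, h2, add_smul, smul_add, smul_add]
  abel

/-- `(1 - c) x (1 - c) = (τ₁ - τ_c) (1 - c)`. -/
theorem minus_ev_minus (hf : IsFaithful A X) (h : IsCH act t d) (hc : c * c = 1) (hdc : d c = -1)
    (a : Γ →₀ A) :
    (1 - act c) * ev act a * (1 - act c)
      = (tau t 1 a - tau t c a) • ((1 : Module.End A X) - act c) := by
  have h1 := ev_anticomm hf h hc hdc a
  have h2 := ev_add_conj hf h hc hdc a
  have h3 : (1 - act c) * ev act a * (1 - act c)
      = (ev act a + act c * ev act a * act c) - (ev act a * act c + act c * ev act a) := by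
    noncomm_ring
  rw [h3, h1, h2, sub_smul, smul_sub, smul_sub]
  abel

theorem plus_mul_plus (hc : c * c = 1) :
    ((1 : Module.End A X) + act c) * (1 + act c) = (2 : A) • ((1 : Module.End A X) + act c) := by
  have h1 : ((1 : Module.End A X) + act c) * (1 + act c)
      = 1 + act c * act c + (act c + act c) := by noncomm_ring
  rw [h1, act_invol hc, two_smul]
  abel

theorem minus_mul_minus (hc : c * c = 1) :
    ((1 : Module.End A X) - act c) * (1 - act c) = (2 : A) • ((1 : Module.End A X) - act c) := by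
  have h1 : ((1 : Module.End A X) - act c) * (1 - act c)
      = 1 + act c * act c - (act c + act c) := by noncomm_ring
  rw [h1, act_invol hc, two_smul]
  abel

/-- `(1 - c) h₀ (1 + c) · (1 + c) g₀ (1 - c) = 2 β' (1 - c)`. -/
theorem lower_mul_upper (hf : IsFaithful A X) (h : IsCH act t d) (hc : c * c = 1)
    (hdc : d c = -1) (g₀ h₀ : Γ) :
    ((1 - act c) * act h₀ * (1 + act c)) * ((1 + act c) * act g₀ * (1 - act c))
      = (2 * (t (h₀ * g₀) + t (h₀ * c * g₀) - (t (h₀ * g₀ * c) + t (h₀ * c * g₀ * c))))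
        • ((1 : Module.End A X) - act c) := by
  have h1 : ((1 - act c) * act h₀ * (1 + act c)) * ((1 + act c) * act g₀ * (1 - act c))
      = (1 - act c) * (act h₀ * ((1 + act c) * (1 + act c)) * act g₀) * (1 - act c) := by
    noncomm_ring
  have h2 : act h₀ * ((2 : A) • ((1 : Module.End A X) + act c)) * act g₀
      = (2 : A) • ev act (Finsupp.single (h₀ * g₀) (1 : A) + Finsupp.single (h₀ * c * g₀) 1) := by
    rw [map_add, ev_single, ev_single, one_smul, one_smul, map_mul, map_mul, map_mul,
      mul_smul_comm, smul_mul_assoc, mul_add, add_mul, mul_one]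
  rw [h1, plus_mul_plus hc, h2, mul_smul_comm, smul_mul_assoc, minus_ev_minus hf h hc hdc,
    smul_smul]
  congr 2
  simp only [map_add, tau_single, one_mul, mul_one]

/-- `(1 + c) g₀ (1 - c) · (1 - c) h₀ (1 + c) = 2 β (1 + c)`. -/
theorem upper_mul_lower (hf : IsFaithful A X) (h : IsCH act t d) (hc : c * c = 1)
    (hdc : d c = -1) (g₀ h₀ : Γ) :
    ((1 + act c) * act g₀ * (1 - act c)) * ((1 - act c) * act h₀ * (1 + act c))
      = (2 * (t (g₀ * h₀) - t (g₀ * c * h₀) + (t (g₀ * h₀ * c) - t (g₀ * c * h₀ * c))))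
        • ((1 : Module.End A X) + act c) := by
  have h1 : ((1 + act c) * act g₀ * (1 - act c)) * ((1 - act c) * act h₀ * (1 + act c))
      = (1 + act c) * (act g₀ * ((1 - act c) * (1 - act c)) * act h₀) * (1 + act c) := by
    noncomm_ring
  have h2 : act g₀ * ((2 : A) • ((1 : Module.End A X) - act c)) * act h₀
      = (2 : A) • ev act (Finsupp.single (g₀ * h₀) (1 : A) - Finsupp.single (g₀ * c * h₀) 1) := by
    rw [map_sub, ev_single, ev_single, one_smul, one_smul, map_mul, map_mul, map_mul,
      mul_smul_comm, smul_mul_assoc, mul_sub, sub_mul, mul_one]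
  rw [h1, minus_mul_minus hc, h2, mul_smul_comm, smul_mul_assoc, plus_ev_plus hf h hc hdc,
    smul_smul]
  congr 2
  simp only [map_sub, tau_single, one_mul, mul_one]

/-- The irreducibility witness. -/
def beta (t : Γ → A) (c g₀ h₀ : Γ) : A :=
  t (g₀ * h₀) - t (g₀ * c * h₀) + (t (g₀ * h₀ * c) - t (g₀ * c * h₀ * c))

theorem beta_symm (hf : IsFaithful A X) (h : IsCH act t d) (g₀ h₀ : Γ) :
    t (h₀ * g₀) + t (h₀ * c * g₀) - (t (h₀ * g₀ * c) + t (h₀ * c * g₀ * c)) = beta t c g₀ h₀ := by
  have e1 : t (h₀ * g₀) = t (g₀ * h₀) := t_mul_comm hf h h₀ g₀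
  have e2 : t (h₀ * c * g₀) = t (g₀ * h₀ * c) := by
    rw [t_mul_comm hf h (h₀ * c) g₀, mul_assoc]
  have e3 : t (h₀ * g₀ * c) = t (g₀ * c * h₀) := by
    rw [mul_assoc, t_mul_comm hf h h₀ (g₀ * c)]
  have e4 : t (h₀ * c * g₀ * c) = t (g₀ * c * h₀ * c) := by
    have : h₀ * c * g₀ * c = h₀ * (c * g₀ * c) := by group
    rw [this, t_mul_comm hf h h₀ (c * g₀ * c)]
    have : c * g₀ * c * h₀ = c * (g₀ * c * h₀) := by group
    rw [this, t_mul_comm hf h c (g₀ * c * h₀)]
  rw [e1, e2, e3, e4, beta]
  ring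

variable (act) in
/-- A scalar killing `1 + c` is zero. -/
theorem eq_zero_of_smul_plus (hf : IsFaithful A X) (h : IsCH act t d) (hc : c * c = 1)
    (hdc : d c = -1) (h2 : IsUnit (2 : A)) {g₀ h₀ : Γ} (hβ : IsUnit (beta t c g₀ h₀)) {s : A}
    (hs : s • ((1 : Module.End A X) + act c) = 0) : s = 0 := by
  have h1 : s • ((1 : Module.End A X) - act c) = 0 := by
    have h3 := lower_mul_upper hf h hc hdc g₀ h₀
    rw [beta_symm hf h g₀ h₀] at h3
    have h4 : s • (((1 - act c) * act h₀ * (1 + act c)) * ((1 + act c) * act g₀ * (1 - act c)))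
        = 0 := by
      rw [← smul_mul_assoc, ← mul_smul_comm, hs, mul_zero, zero_mul]
    rw [h3, smul_comm] at h4
    exact (IsUnit.smul_eq_zero (h2.mul hβ)).1 h4
  have h5 : s • ((2 : A) • (1 : Module.End A X)) = 0 := by
    have : (2 : A) • (1 : Module.End A X) = (1 + act c) + (1 - act c) := by
      rw [two_smul]; abel
    rw [this, smul_add, hs, h1, add_zero]
  rw [smul_comm] at h5
  have h6 := (IsUnit.smul_eq_zero h2).1 h5
  exact eq_of_smul_one_eq hf (by rw [h6, zero_smul])

variable (act) in
/-- A scalar killing `1 - c` is zero. -/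
theorem eq_zero_of_smul_minus (hf : IsFaithful A X) (h : IsCH act t d) (hc : c * c = 1)
    (hdc : d c = -1) (h2 : IsUnit (2 : A)) {g₀ h₀ : Γ} (hβ : IsUnit (beta t c g₀ h₀)) {s : A}
    (hs : s • ((1 : Module.End A X) - act c) = 0) : s = 0 := by
  refine eq_zero_of_smul_plus act hf h hc hdc h2 hβ ?_
  have h3 := upper_mul_lower hf h hc hdc g₀ h₀
  have h4 : s • (((1 + act c) * act g₀ * (1 - act c)) * ((1 - act c) * act h₀ * (1 + act c)))
      = 0 := by
    rw [← smul_mul_assoc, ← mul_smul_comm, hs, mul_zero, zero_mul]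
  rw [h3, smul_comm] at h4
  exact (IsUnit.smul_eq_zero (h2.mul hβ)).1 h4

/-- **Main step**: a formal sum acting as `0` has formal trace `0`. -/
theorem tau_one_eq_zero (hf : IsFaithful A X) (h : IsCH act t d) (hc : c * c = 1)
    (hdc : d c = -1) (h2 : IsUnit (2 : A)) {g₀ h₀ : Γ} (hβ : IsUnit (beta t c g₀ h₀))
    (a : Γ →₀ A) (ha : ev act a = 0) : tau t 1 a = 0 := by
  have h1 := plus_ev_plus hf h hc hdc a
  have h3 := minus_ev_minus hf h hc hdc a
  rw [ha, mul_zero, zero_mul] at h1 h3
  have e1 := eq_zero_of_smul_plus act hf h hc hdc h2 hβ h1.symm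
  have e2 := eq_zero_of_smul_minus act hf h hc hdc h2 hβ h3.symm
  have e3 : (2 : A) * tau t 1 a = 0 := by linear_combination e1 + e2
  exact (IsUnit.mul_right_eq_zero h2).1 e3

/-- **A formal sum acting as `0` on `X` has `∑ aᵢ t (gᵢ k) = 0` for every `k`.** -/
theorem tau_eq_zero_of_ev_eq_zero (hf : IsFaithful A X) (h : IsCH act t d) (hc : c * c = 1)
    (hdc : d c = -1) (h2 : IsUnit (2 : A)) {g₀ h₀ : Γ} (hβ : IsUnit (beta t c g₀ h₀))
    (a : Γ →₀ A) (ha : ev act a = 0) (k : Γ) : tau t k a = 0 := by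
  have h1 : ev act (rtrans k a) = 0 := by rw [ev_rtrans, ha, zero_mul]
  have h3 := tau_one_eq_zero hf h hc hdc h2 hβ (rtrans k a) h1
  rwa [tau_rtrans, mul_one] at h3

end Invol

end Formal

/-! ### The matrix side -/

section Mat

variable {A : Type*} [CommRing A] {Γ : Type*} [Group Γ]
  {T' : Type*} [CommRing T'] {n : Type*} [Fintype n] [DecidableEq n]
  (Φ : A →+* T') (ρ' : Γ →* Matrix n n T')

/-- Evaluation of a formal sum through `Φ` and `ρ'`: `∑ Φ(aᵢ) ρ'(gᵢ)`. -/
noncomputable def evRho (a : Γ →₀ A) : Matrix n n T' := a.sum fun g r => Φ r • ρ' g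

theorem evRho_zero : evRho Φ ρ' 0 = 0 := by
  rw [evRho, Finsupp.sum_zero_index]

theorem evRho_add (a b : Γ →₀ A) : evRho Φ ρ' (a + b) = evRho Φ ρ' a + evRho Φ ρ' b := by
  rw [evRho, evRho, evRho, Finsupp.sum_add_index']
  · intro g; rw [map_zero, zero_smul]
  · intro g r r'; rw [map_add, add_smul]

theorem evRho_single (g : Γ) (r : A) : evRho Φ ρ' (Finsupp.single g r) = Φ r • ρ' g := by
  rw [evRho, Finsupp.sum_single_index]
  rw [map_zero, zero_smul]

variable {Φ ρ'}

/-- `tr (evRho a · ρ' k) = Φ (∑ aᵢ t (gᵢ k))`. -/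
theorem trace_evRho_mul {t : Γ → A} (htr : ∀ g, (ρ' g).trace = Φ (t g)) (a : Γ →₀ A) (k : Γ) :
    (evRho Φ ρ' a * ρ' k).trace = Φ (tau t k a) := by
  induction a using Finsupp.induction_linear with
  | zero => rw [evRho_zero, zero_mul, Matrix.trace_zero, map_zero, map_zero]
  | add a b ha hb => rw [evRho_add, add_mul, Matrix.trace_add, ha, hb, map_add, map_add]
  | single g r =>
    rw [evRho_single, tau_single, Matrix.smul_mul, Matrix.trace_smul, ← map_mul, htr, smul_eq_mul,
      map_mul]

/-- If `tr (M · ρ' k) = 0` for all `k` and the `ρ' k` span, then `M = 0`. -/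
theorem eq_zero_of_trace_mul_eq_zero (hspan : Submodule.span T' (Set.range ρ') = ⊤)
    (M : Matrix n n T') (hM : ∀ k, (M * ρ' k).trace = 0) : M = 0 := by
  rw [Matrix.ext_iff_trace_mul_right]
  intro Y
  rw [zero_mul, Matrix.trace_zero]
  have hY : Y ∈ Submodule.span T' (Set.range ρ') := by rw [hspan]; trivial
  induction hY using Submodule.span_induction with
  | mem Y hY => obtain ⟨k, rfl⟩ := hY; exact hM k
  | zero => rw [mul_zero, Matrix.trace_zero]
  | add Y Z _ _ hY hZ => rw [mul_add, Matrix.trace_add, hY, hZ, add_zero]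
  | smul r Y _ hY => rw [Matrix.mul_smul, Matrix.trace_smul, hY, smul_zero]

end Mat

/-! ### The main theorem -/

section Main

variable {A : Type*} [CommRing A] {X : Type*} [AddCommGroup X] [Module A X]
  {Γ : Type*} [Group Γ]
  {act : Γ →* Module.End A X} {t : Γ → A} {d : Γ →* Aˣ}
  {T' : Type*} [CommRing T'] {n : Type*} [Fintype n] [DecidableEq n]
  {Φ : A →+* T'} {ρ' : Γ →* Matrix n n T'}

/-- **The Cayley–Hamilton core.**  A formal sum `∑ aᵢ gᵢ` acting as `0` on the faithful
Cayley–Hamilton module `X` is killed by every matrix representation `ρ'` whose traces are `Φ ∘ t`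
and whose image spans the matrix algebra. -/
theorem evRho_eq_zero_of_ev_eq_zero (hf : IsFaithful A X) (h : IsCH act t d) {c : Γ}
    (hc : c * c = 1) (hdc : d c = -1) (h2 : IsUnit (2 : A)) {g₀ h₀ : Γ}
    (hβ : IsUnit (beta t c g₀ h₀)) (htr : ∀ g, (ρ' g).trace = Φ (t g))
    (hspan : Submodule.span T' (Set.range ρ') = ⊤) (a : Γ →₀ A) (ha : ev act a = 0) :
    evRho Φ ρ' a = 0 := by
  refine eq_zero_of_trace_mul_eq_zero hspan _ fun k => ?_
  rw [trace_evRho_mul htr, tau_eq_zero_of_ev_eq_zero hf h hc hdc h2 hβ a ha k, map_zero]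

end Main

end Fermat.Agent.S32.Carayol.CHCore
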