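/-
S32 / Carayol bookkeeping (helper27): **from an annihilator inclusion to an equivariant subquotient.**

`G` a group acting additively on abelian groups `Z` and `M` (actions given as plain functions, as in
`S19/Abs/Defs.lean`), `Z` and `M` finite.  If every formal sum `a = ∑ nᵢ gᵢ ∈ ℤ[G]` killing `Z` kills `M`,
then `M` is an equivariant quotient of a `G`-stable subgroup of a finite power of `Z`
(`exists_subquotient`, with index type `M × Z`; `exists_subquotient_fin` with index type `Fin r`).

Proof: `ζ := (z)_{z ∈ Z} ∈ Z^Z`; `N₀ := ℤ[G] ζ ⊆ Z^Z`; for `m ∈ M` the map `a ζ ↦ a m` is well defined on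
`N₀` by the hypothesis; sum over `m ∈ M`.
-/
import Mathlib

set_option autoImplicit false
set_option linter.unusedSectionVars false

namespace Fermat.Agent.S32.Carayol.RegEmbed

open Finsupp

/-- An additive action of a group on an abelian group, as a plain function. -/
structure IsAddAct {G : Type*} [Group G] {Z : Type*} [AddCommGroup Z] (act : G → Z → Z) : Prop where
  one : ∀ z, act 1 z = z
  mul : ∀ σ τ z, act (σ * τ) z = act σ (act τ z)
  add : ∀ σ z z', act σ (z + z') = act σ z + act σ z'

namespace IsAddAct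

variable {G : Type*} [Group G] {Z : Type*} [AddCommGroup Z] {act : G → Z → Z}

/-- The action of one element as an additive map. -/
def hom (h : IsAddAct act) (σ : G) : Z →+ Z where
  toFun := act σ
  map_zero' := by
    have := h.add σ 0 0
    rw [add_zero] at this
    exact left_eq_add.mp this
  map_add' := h.add σ

@[simp] theorem hom_apply (h : IsAddAct act) (σ : G) (z : Z) : h.hom σ z = act σ z := rfl

end IsAddAct

section Main

variable {G : Type*} [Group G] {Z M : Type*} [AddCommGroup Z] [AddCommGroup M]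
  {actZ : G → Z → Z} {actM : G → M → M}

/-- The action of a formal sum `∑ nᵢ gᵢ` on an element. -/
noncomputable def fsum (act : G → Z → Z) (z : Z) : (G →₀ ℤ) →+ Z :=
  (Finsupp.liftAddHom (fun g : G => (zmultiplesHom Z (act g z))))

theorem fsum_single (act : G → Z → Z) (z : Z) (g : G) (n : ℤ) :
    fsum act z (Finsupp.single g n) = n • act g z := by
  rw [fsum, Finsupp.liftAddHom_apply_single, zmultiplesHom_apply]

/-- Left translation of a formal sum. -/
noncomputable def ltrans (σ : G) : (G →₀ ℤ) →+ (G →₀ ℤ) :=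
  Finsupp.mapDomain.addMonoidHom (fun g => σ * g)

theorem ltrans_single (σ g : G) (n : ℤ) :
    ltrans σ (Finsupp.single g n) = Finsupp.single (σ * g) n := by
  rw [ltrans, Finsupp.mapDomain.addMonoidHom_apply, Finsupp.mapDomain_single]

theorem act_fsum (hZ : IsAddAct actZ) (σ : G) (z : Z) (a : G →₀ ℤ) :
    actZ σ (fsum actZ z a) = fsum actZ z (ltrans σ a) := by
  have h : (hZ.hom σ).comp (fsum actZ z) = (fsum actZ z).comp (ltrans σ) := by
    refine Finsupp.addHom_ext fun g n => ?_
    rw [AddMonoidHom.comp_apply, AddMonoidHom.comp_apply, fsum_single, ltrans_single, fsum_single,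
      map_zsmul, IsAddAct.hom_apply, hZ.mul]
  exact DFunLike.congr_fun h a

/-- The map `a ↦ (a z)_z` from formal sums to `Z → Z`. -/
noncomputable def fsumAll (act : G → Z → Z) : (G →₀ ℤ) →+ (Z → Z) :=
  AddMonoidHom.pi fun z => fsum act z

@[simp] theorem fsumAll_apply (act : G → Z → Z) (a : G →₀ ℤ) (z : Z) :
    fsumAll act a z = fsum act z a := rfl

variable (actZ actM) in
/-- The annihilator inclusion. -/
def AnnIncl : Prop :=
  ∀ a : G →₀ ℤ, (∀ z : Z, fsum actZ z a = 0) → ∀ m : M, fsum actM m a = 0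

/-- The subgroup `ℤ[G] ζ ⊆ Z → Z`. -/
noncomputable def orbitSpan (act : G → Z → Z) : AddSubgroup (Z → Z) := (fsumAll act).range

theorem orbitSpan_stable (hZ : IsAddAct actZ) (σ : G) (y : Z → Z) (hy : y ∈ orbitSpan actZ) :
    (fun z => actZ σ (y z)) ∈ orbitSpan actZ := by
  obtain ⟨a, rfl⟩ := hy
  refine ⟨ltrans σ a, ?_⟩
  funext z
  rw [fsumAll_apply, fsumAll_apply, act_fsum hZ]

/-- For `m : M`, the map `a ζ ↦ a m` on `ℤ[G] ζ`. -/
theorem exists_orbitHom (hann : AnnIncl actZ actM) (m : M) :
    ∃ f : orbitSpan actZ →+ M, ∀ a : G →₀ ℤ, f ⟨fsumAll actZ a, a, rfl⟩ = fsum actM m a := by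
  have hker : (fsumAll actZ).ker ≤ (fsum actM m).ker := by
    intro a ha
    rw [AddMonoidHom.mem_ker] at ha ⊢
    refine hann a (fun z => ?_) m
    have := congrFun ha z
    rwa [fsumAll_apply] at this
  -- lift through the quotient by the kernel
  let q : (G →₀ ℤ) ⧸ (fsumAll actZ).ker →+ M := QuotientAddGroup.lift _ (fsum actM m) hker
  let e : (G →₀ ℤ) ⧸ (fsumAll actZ).ker ≃+ orbitSpan actZ :=
    QuotientAddGroup.quotientKerEquivRange (fsumAll actZ)
  refine ⟨q.comp e.symm.toAddMonoidHom, fun a => ?_⟩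
  have h1 : e (QuotientAddGroup.mk a) = ⟨fsumAll actZ a, a, rfl⟩ := rfl
  rw [AddMonoidHom.comp_apply, ← h1]
  simp only [AddEquiv.coe_toAddMonoidHom, AddEquiv.symm_apply_apply]
  rfl

theorem orbitHom_equivariant (hZ : IsAddAct actZ) (hM : IsAddAct actM) (m : M)
    (f : orbitSpan actZ →+ M)
    (hf : ∀ a : G →₀ ℤ, f ⟨fsumAll actZ a, a, rfl⟩ = fsum actM m a) (σ : G)
    (y : orbitSpan actZ) :
    f ⟨fun z => actZ σ (y.1 z), orbitSpan_stable hZ σ y.1 y.2⟩ = actM σ (f y) := by
  obtain ⟨y, a, rfl⟩ := y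
  have h1 : (⟨fun z => actZ σ (fsumAll actZ a z), orbitSpan_stable hZ σ _ ⟨a, rfl⟩⟩ :
      orbitSpan actZ) = ⟨fsumAll actZ (ltrans σ a), ltrans σ a, rfl⟩ := by
    apply Subtype.ext
    funext z
    change actZ σ (fsumAll actZ a z) = fsumAll actZ (ltrans σ a) z
    rw [fsumAll_apply, fsumAll_apply, act_fsum hZ]
  rw [h1, hf, hf, act_fsum hM]

/-- **The subquotient statement**, index type `M` (outer) and `Z` (inner). -/
theorem exists_subquotient [Finite M] (hZ : IsAddAct actZ) (hM : IsAddAct actM)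
    (hann : AnnIncl actZ actM) :
    ∃ (N : AddSubgroup (M → Z → Z))
      (hN : ∀ (σ : G) (y : M → Z → Z), y ∈ N → (fun m z => actZ σ (y m z)) ∈ N)
      (f : N →+ M), Function.Surjective f ∧
        ∀ (σ : G) (y : N), f ⟨fun m z => actZ σ (y.1 m z), hN σ y.1 y.2⟩ = actM σ (f y) := by
  classical
  have : Fintype M := Fintype.ofFinite M
  choose fm hfm using fun m : M => exists_orbitHom hann m
  let N : AddSubgroup (M → Z → Z) := AddSubgroup.pi Set.univ fun _ => orbitSpan actZ
  have hmem : ∀ y : M → Z → Z, y ∈ N ↔ ∀ m, y m ∈ orbitSpan actZ := by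
    intro y
    rw [AddSubgroup.mem_pi]
    exact ⟨fun h m => h m (Set.mem_univ m), fun h m _ => h m⟩
  have hN : ∀ (σ : G) (y : M → Z → Z), y ∈ N → (fun m z => actZ σ (y m z)) ∈ N := by
    intro σ y hy
    rw [hmem] at hy ⊢
    exact fun m => orbitSpan_stable hZ σ (y m) (hy m)
  let pr : ∀ m : M, N →+ orbitSpan actZ := fun m =>
    { toFun := fun y => ⟨y.1 m, (hmem y.1).1 y.2 m⟩
      map_zero' := rfl
      map_add' := fun _ _ => rfl }
  let f : N →+ M := ∑ m : M, (fm m).comp (pr m)
  have hf : ∀ y : N, f y = ∑ m : M, fm m (pr m y) := by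
    intro y
    simp only [f, AddMonoidHom.finsetSum_apply, AddMonoidHom.comp_apply]
  refine ⟨N, hN, f, ?_, ?_⟩
  · -- surjectivity
    intro m₀
    let ζ : Z → Z := fsumAll actZ (Finsupp.single 1 1)
    have hζ : ζ ∈ orbitSpan actZ := ⟨_, rfl⟩
    have hy : (Pi.single m₀ ζ : M → Z → Z) ∈ N := by
      rw [hmem]
      intro m
      by_cases h : m = m₀
      · subst h; rw [Pi.single_eq_same]; exact hζ
      · rw [Pi.single_eq_of_ne h]; exact (orbitSpan actZ).zero_mem
    refine ⟨⟨_, hy⟩, ?_⟩
    rw [hf, Finset.sum_eq_single m₀]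
    · have h1 : pr m₀ ⟨_, hy⟩ = ⟨fsumAll actZ (Finsupp.single 1 1), _, rfl⟩ := by
        apply Subtype.ext
        change (Pi.single m₀ ζ : M → Z → Z) m₀ = _
        rw [Pi.single_eq_same]
      rw [h1, hfm, fsum_single, one_smul, hM.one]
    · intro m _ hm
      have h1 : pr m ⟨_, hy⟩ = 0 := by
        apply Subtype.ext
        change (Pi.single m₀ ζ : M → Z → Z) m = _
        rw [Pi.single_eq_of_ne hm]
        rfl
      rw [h1, map_zero]
    · intro h; exact absurd (Finset.mem_univ m₀) h
  · -- equivariance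
    intro σ y
    rw [hf, hf]
    have h1 : actM σ (∑ m : M, fm m (pr m y)) = ∑ m : M, actM σ (fm m (pr m y)) := by
      change hM.hom σ (∑ m : M, fm m (pr m y)) = _
      rw [map_sum]
      rfl
    rw [h1]
    refine Finset.sum_congr rfl fun m _ => ?_
    exact orbitHom_equivariant hZ hM m (fm m) (hfm m) σ (pr m y)

/-- The **subquotient data**: a `G`-stable subgroup `N` of `ι → Z` (coordinatewise action) with an
equivariant surjection onto `M`. -/
def HasSubquotient (actZ : G → Z → Z) (actM : G → M → M) (ι : Type*) : Prop :=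
  ∃ (N : AddSubgroup (ι → Z))
    (hN : ∀ (σ : G) (y : ι → Z), y ∈ N → (fun i => actZ σ (y i)) ∈ N)
    (f : N →+ M), Function.Surjective f ∧
      ∀ (σ : G) (y : N), f ⟨fun i => actZ σ (y.1 i), hN σ y.1 y.2⟩ = actM σ (f y)

/-- Re-indexing the subquotient data along a bijection of index types. -/
theorem HasSubquotient.reindex {ι κ : Type*} (e : ι ≃ κ) (h : HasSubquotient actZ actM ι) :
    HasSubquotient actZ actM κ := by
  obtain ⟨N, hN, f, hsurj, hequiv⟩ := h
  -- `E y i = y (e i)`
  let E : (κ → Z) →+ (ι → Z) :=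
    { toFun := fun y i => y (e i)
      map_zero' := rfl
      map_add' := fun _ _ => rfl }
  let N' : AddSubgroup (κ → Z) := N.comap E
  have hN' : ∀ (σ : G) (y : κ → Z), y ∈ N' → (fun k => actZ σ (y k)) ∈ N' := by
    intro σ y hy
    exact hN σ (E y) hy
  let r : N' →+ N :=
    { toFun := fun y => ⟨E y.1, y.2⟩
      map_zero' := rfl
      map_add' := fun _ _ => rfl }
  refine ⟨N', hN', f.comp r, ?_, ?_⟩
  · intro m
    obtain ⟨y, rfl⟩ := hsurj m
    have hy' : (fun k => y.1 (e.symm k)) ∈ N' := by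
      change E (fun k => y.1 (e.symm k)) ∈ N
      have : E (fun k => y.1 (e.symm k)) = y.1 := by
        funext i
        change y.1 (e.symm (e i)) = y.1 i
        rw [Equiv.symm_apply_apply]
      rw [this]
      exact y.2
    refine ⟨⟨_, hy'⟩, ?_⟩
    rw [AddMonoidHom.comp_apply]
    congr 1
    apply Subtype.ext
    funext i
    change y.1 (e.symm (e i)) = y.1 i
    rw [Equiv.symm_apply_apply]
  · intro σ y
    rw [AddMonoidHom.comp_apply, AddMonoidHom.comp_apply]
    exact hequiv σ (r y)

/-- `exists_subquotient` in curried form: index type `M × Z`. -/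
theorem hasSubquotient_prod [Finite M] (hZ : IsAddAct actZ) (hM : IsAddAct actM)
    (hann : AnnIncl actZ actM) : HasSubquotient actZ actM (M × Z) := by
  obtain ⟨N, hN, f, hsurj, hequiv⟩ := exists_subquotient hZ hM hann
  let E : (M × Z → Z) →+ (M → Z → Z) :=
    { toFun := fun y m z => y (m, z)
      map_zero' := rfl
      map_add' := fun _ _ => rfl }
  let N' : AddSubgroup (M × Z → Z) := N.comap E
  have hN' : ∀ (σ : G) (y : M × Z → Z), y ∈ N' → (fun k => actZ σ (y k)) ∈ N' := by
    intro σ y hy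
    exact hN σ (E y) hy
  let r : N' →+ N :=
    { toFun := fun y => ⟨E y.1, y.2⟩
      map_zero' := rfl
      map_add' := fun _ _ => rfl }
  refine ⟨N', hN', f.comp r, ?_, ?_⟩
  · intro m
    obtain ⟨y, rfl⟩ := hsurj m
    have hy' : (fun k : M × Z => y.1 k.1 k.2) ∈ N' := y.2
    exact ⟨⟨_, hy'⟩, rfl⟩
  · intro σ y
    rw [AddMonoidHom.comp_apply, AddMonoidHom.comp_apply]
    exact hequiv σ (r y)

/-- **The subquotient statement with index type `Fin r`**: if every formal sum killing the finite
group `Z` kills the finite group `M`, then `M` is an equivariant quotient of a `G`-stable subgroup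
of `Z ^ r`. -/
theorem exists_subquotient_fin [Finite Z] [Finite M] (hZ : IsAddAct actZ) (hM : IsAddAct actM)
    (hann : AnnIncl actZ actM) : ∃ r : ℕ, HasSubquotient actZ actM (Fin r) := by
  classical
  have : Fintype (M × Z) := Fintype.ofFinite _
  exact ⟨Fintype.card (M × Z), (hasSubquotient_prod hZ hM hann).reindex (Fintype.equivFin (M × Z))⟩

/-- The subquotient data as an equivariant isomorphism `N ⧸ K ≃+ M` with `K ≤ N ≤ Z ^ r` stable. -/
theorem exists_quotient_equiv [Finite Z] [Finite M] (hZ : IsAddAct actZ) (hM : IsAddAct actM)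
    (hann : AnnIncl actZ actM) :
    ∃ (r : ℕ) (N : AddSubgroup (Fin r → Z))
      (hN : ∀ (σ : G) (y : Fin r → Z), y ∈ N → (fun i => actZ σ (y i)) ∈ N)
      (K : AddSubgroup N)
      (_ : ∀ (σ : G) (y : N), y ∈ K → (⟨fun i => actZ σ (y.1 i), hN σ y.1 y.2⟩ : N) ∈ K)
      (e : N ⧸ K ≃+ M),
      ∀ (σ : G) (y : N),
        e (QuotientAddGroup.mk ⟨fun i => actZ σ (y.1 i), hN σ y.1 y.2⟩) =
          actM σ (e (QuotientAddGroup.mk y)) := by
  obtain ⟨r, N, hN, f, hsurj, hequiv⟩ := exists_subquotient_fin hZ hM hann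
  refine ⟨r, N, hN, f.ker, ?_, QuotientAddGroup.quotientKerEquivOfSurjective f hsurj, ?_⟩
  · intro σ y hy
    rw [AddMonoidHom.mem_ker] at hy ⊢
    rw [hequiv, hy]
    exact (hM.hom σ).map_zero
  · intro σ y
    exact hequiv σ y

end Main

section Transfer

universe u v

variable {G : Type v} [Group G] {Z M : Type u} [AddCommGroup Z] [AddCommGroup M]
  {actZ : G → Z → Z} {actM : G → M → M}

/-- **Transfer principle.**  Any property `P` of (finite abelian groups with an additive `G`-action)
that is stable under finite powers, stable subgroups, quotients by stable subgroups and equivariant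
isomorphisms passes from `Z` to `M` as soon as every formal sum killing `Z` kills `M`.
(The four stability hypotheses are stated in the shape of `S19/Base/Stability`.) -/
theorem transfer [Finite Z] [Finite M] (hZ : IsAddAct actZ) (hM : IsAddAct actM)
    (hann : AnnIncl actZ actM)
    (P : ∀ (X : Type u) [AddCommGroup X], (G → X → X) → Prop)
    (hpi : ∀ r : ℕ, P Z actZ → P (Fin r → Z) (fun σ y i => actZ σ (y i)))
    (hsub : ∀ (X : Type u) [AddCommGroup X] [Finite X] (act : G → X → X), IsAddAct act →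
      ∀ (N : AddSubgroup X) (hN : ∀ σ, ∀ y ∈ N, act σ y ∈ N),
        P X act → P N (fun σ y => ⟨act σ y.1, hN σ y.1 y.2⟩))
    (hquot : ∀ (X : Type u) [AddCommGroup X] [Finite X] (act : G → X → X), IsAddAct act →
      ∀ (K : AddSubgroup X) (_ : ∀ σ, ∀ y ∈ K, act σ y ∈ K) (actQ : G → X ⧸ K → X ⧸ K),
        (∀ σ y, actQ σ (QuotientAddGroup.mk y) = QuotientAddGroup.mk (act σ y)) →
        P X act → P (X ⧸ K) actQ)
    (hequiv : ∀ (X Y : Type u) [AddCommGroup X] [AddCommGroup Y] (act : G → X → X)
      (act' : G → Y → Y) (e : X ≃+ Y), (∀ σ y, e (act σ y) = act' σ (e y)) →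
        P X act → P Y act')
    (h : P Z actZ) : P M actM := by
  obtain ⟨r, N, hN, K, hK, e, he⟩ := exists_quotient_equiv hZ hM hann
  -- the power
  have h1 : P (Fin r → Z) (fun σ y i => actZ σ (y i)) := hpi r h
  have hact1 : IsAddAct (fun (σ : G) (y : Fin r → Z) (i : Fin r) => actZ σ (y i)) :=
    { one := fun y => funext fun i => hZ.one (y i)
      mul := fun σ τ y => funext fun i => hZ.mul σ τ (y i)
      add := fun σ y y' => funext fun i => hZ.add σ (y i) (y' i) }
  -- the subgroup
  have h2 : P N (fun σ y => ⟨fun i => actZ σ (y.1 i), hN σ y.1 y.2⟩) :=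
    hsub (Fin r → Z) _ hact1 N hN h1
  have hact2 : IsAddAct (fun (σ : G) (y : N) => (⟨fun i => actZ σ (y.1 i), hN σ y.1 y.2⟩ : N)) :=
    { one := fun y => Subtype.ext (hact1.one y.1)
      mul := fun σ τ y => Subtype.ext (hact1.mul σ τ y.1)
      add := fun σ y y' => Subtype.ext (hact1.add σ y.1 y'.1) }
  -- the quotient, with the action transported from `M`
  let actQ : G → N ⧸ K → N ⧸ K := fun σ q => e.symm (actM σ (e q))
  have hQ : ∀ (σ : G) (y : N), actQ σ (QuotientAddGroup.mk y) =
      QuotientAddGroup.mk (⟨fun i => actZ σ (y.1 i), hN σ y.1 y.2⟩ : N) := by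
    intro σ y
    change e.symm (actM σ (e (QuotientAddGroup.mk y))) = _
    rw [← he, AddEquiv.symm_apply_apply]
  have h3 : P (N ⧸ K) actQ := hquot N _ hact2 K hK actQ hQ h2
  -- the isomorphism
  refine hequiv (N ⧸ K) M actQ actM e (fun σ q => ?_) h3
  change e (e.symm (actM σ (e q))) = _
  rw [AddEquiv.apply_symm_apply]

end Transfer

end Fermat.Agent.S32.Carayol.RegEmbed
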