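/-
S32 / Carayol bookkeeping (helper27): **bridge `CHCore` ⇒ `RegEmbed`.**

The Cayley–Hamilton core (`CHCore.evRho_eq_zero_of_ev_eq_zero`) is stated with `A`-coefficient formal
sums and a matrix representation; `RegEmbed` consumes an annihilator inclusion with `ℤ`-coefficient
formal sums and plain actions.  This file translates:

* `annIncl_mulVec`: matrix representation `ρ' : Γ →* Matrix n n T'` acting on `n → T'` by `mulVec`;
* `annIncl_end`: representation `ρV : Γ →* Module.End T' V'` on a module with a finite basis,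
  with `LinearMap.trace` and span hypotheses stated for endomorphisms.
-/
import Mathlib
import Fermat.Agent.S32.Carayol.CHCore
import Fermat.Agent.S32.Carayol.RegEmbed

set_option autoImplicit false
set_option linter.unusedSectionVars false

namespace Fermat.Agent.S32.Carayol.AnnBridge

open Fermat.Agent.S32.Carayol

section

variable {A : Type*} [CommRing A] {X : Type*} [AddCommGroup X] [Module A X]
  {Γ : Type*} [Group Γ]
  {act : Γ →* Module.End A X} {t : Γ → A} {d : Γ →* Aˣ}
  {T' : Type*} [CommRing T']

/-- Integer formal sums as `A`-coefficient formal sums. -/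
noncomputable def castSum (A : Type*) [CommRing A] (Γ : Type*) : (Γ →₀ ℤ) →+ (Γ →₀ A) :=
  Finsupp.mapRange.addMonoidHom (Int.castAddHom A)

theorem castSum_single (g : Γ) (k : ℤ) :
    castSum A Γ (Finsupp.single g k) = Finsupp.single g (k : A) := by
  rw [castSum, Finsupp.mapRange.addMonoidHom_apply, Finsupp.mapRange_single]
  rfl

/-- The action of a module representation as a plain function is an additive action. -/
theorem isAddAct_end (act : Γ →* Module.End A X) :
    RegEmbed.IsAddAct (fun (g : Γ) (x : X) => act g x) where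
  one := fun z => by simp
  mul := fun σ τ z => by simp
  add := fun σ z z' => map_add _ _ _

/-- `fsum` for the action through `act` is evaluation of `ev act` at the cast formal sum. -/
theorem fsum_eq_ev (act : Γ →* Module.End A X) (x : X) (a : Γ →₀ ℤ) :
    RegEmbed.fsum (fun (g : Γ) (x : X) => act g x) x a = CHCore.ev act (castSum A Γ a) x := by
  have h : RegEmbed.fsum (fun (g : Γ) (x : X) => act g x) x =
      ((LinearMap.applyₗ x : Module.End A X →ₗ[A] X).toAddMonoidHom.comp
        (CHCore.ev act).toAddMonoidHom).comp (castSum A Γ) := by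
    refine Finsupp.addHom_ext fun g k => ?_
    rw [RegEmbed.fsum_single, AddMonoidHom.comp_apply, AddMonoidHom.comp_apply, castSum_single]
    change k • act g x = (CHCore.ev act (Finsupp.single g (k : A))) x
    rw [CHCore.ev, Finsupp.linearCombination_single, LinearMap.smul_apply, Int.cast_smul_eq_zsmul]
  rw [h]
  rfl

variable {n : Type*} [Fintype n] [DecidableEq n] {Φ : A →+* T'} {ρ' : Γ →* Matrix n n T'}

/-- The `mulVec` action of a matrix representation is an additive action. -/
theorem isAddAct_mulVec (ρ' : Γ →* Matrix n n T') :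
    RegEmbed.IsAddAct (fun (g : Γ) (v : n → T') => (ρ' g).mulVec v) where
  one := fun z => by simp
  mul := fun σ τ z => by simp [Matrix.mulVec_mulVec]
  add := fun σ z z' => Matrix.mulVec_add _ _ _

/-- `fsum` for the `mulVec` action is `mulVec` by `evRho` of the cast formal sum. -/
theorem fsum_eq_evRho (Φ : A →+* T') (ρ' : Γ →* Matrix n n T') (v : n → T') (a : Γ →₀ ℤ) :
    RegEmbed.fsum (fun (g : Γ) (v : n → T') => (ρ' g).mulVec v) v a =
      (CHCore.evRho Φ ρ' (castSum A Γ a)).mulVec v := by
  induction a using Finsupp.induction_linear with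
  | zero => rw [map_zero, map_zero, CHCore.evRho_zero, Matrix.zero_mulVec]
  | add a b ha hb => rw [map_add, map_add, CHCore.evRho_add, Matrix.add_mulVec, ha, hb]
  | single g k =>
    rw [RegEmbed.fsum_single, castSum_single, CHCore.evRho_single, map_intCast, Matrix.smul_mulVec,
      Int.cast_smul_eq_zsmul]

/-- **Annihilator inclusion, matrix form.**  Under the hypotheses of the Cayley–Hamilton core, every
integral formal sum killing `X` kills `n → T'` (action by `mulVec` through `ρ'`). -/
theorem annIncl_mulVec (hf : CHCore.IsFaithful A X) (h : CHCore.IsCH act t d) {c : Γ}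
    (hc : c * c = 1) (hdc : d c = -1) (h2 : IsUnit (2 : A)) {g₀ h₀ : Γ}
    (hβ : IsUnit (CHCore.beta t c g₀ h₀)) (htr : ∀ g, (ρ' g).trace = Φ (t g))
    (hspan : Submodule.span T' (Set.range ρ') = ⊤) :
    RegEmbed.AnnIncl (fun (g : Γ) (x : X) => act g x)
      (fun (g : Γ) (v : n → T') => (ρ' g).mulVec v) := by
  intro a ha v
  have h0 : CHCore.ev act (castSum A Γ a) = 0 := by
    refine LinearMap.ext fun x => ?_
    rw [← fsum_eq_ev, ha x, LinearMap.zero_apply]
  rw [fsum_eq_evRho Φ ρ',
    CHCore.evRho_eq_zero_of_ev_eq_zero hf h hc hdc h2 hβ htr hspan _ h0, Matrix.zero_mulVec]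

end

section EndForm

variable {A : Type*} [CommRing A] {X : Type*} [AddCommGroup X] [Module A X]
  {Γ : Type*} [Group Γ]
  {act : Γ →* Module.End A X} {t : Γ → A} {d : Γ →* Aˣ}
  {T' : Type*} [CommRing T'] {V' : Type*} [AddCommGroup V'] [Module T' V']
  {n : Type*} [Fintype n] [DecidableEq n]

/-- The matrix representation attached to `ρV` and a basis. -/
noncomputable def matRep (b : Module.Basis n T' V') (ρV : Γ →* Module.End T' V') :
    Γ →* Matrix n n T' :=
  ((LinearMap.toMatrixAlgEquiv b : Module.End T' V' ≃ₐ[T'] Matrix n n T') :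
    Module.End T' V' →* Matrix n n T').comp ρV

theorem matRep_apply (b : Module.Basis n T' V') (ρV : Γ →* Module.End T' V') (g : Γ) :
    matRep b ρV g = LinearMap.toMatrix b b (ρV g) := rfl

theorem matRep_mulVec (b : Module.Basis n T' V') (ρV : Γ →* Module.End T' V') (g : Γ) (v : V') :
    (matRep b ρV g).mulVec (b.repr v) = b.repr (ρV g v) := by
  rw [matRep_apply, LinearMap.toMatrix_mulVec_repr]

/-- **Annihilator inclusion, endomorphism form.** -/
theorem annIncl_end (hf : CHCore.IsFaithful A X) (h : CHCore.IsCH act t d) {c : Γ}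
    (hc : c * c = 1) (hdc : d c = -1) (h2 : IsUnit (2 : A)) {g₀ h₀ : Γ}
    (hβ : IsUnit (CHCore.beta t c g₀ h₀)) (b : Module.Basis n T' V') {Φ : A →+* T'}
    {ρV : Γ →* Module.End T' V'}
    (htr : ∀ g, LinearMap.trace T' V' (ρV g) = Φ (t g))
    (hspan : Submodule.span T' (Set.range ρV) = ⊤) :
    RegEmbed.AnnIncl (fun (g : Γ) (x : X) => act g x) (fun (g : Γ) (v : V') => ρV g v) := by
  have htr' : ∀ g, (matRep b ρV g).trace = Φ (t g) := by
    intro g
    rw [matRep_apply, ← LinearMap.trace_eq_matrix_trace T' b, htr]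
  have hspan' : Submodule.span T' (Set.range (matRep b ρV)) = ⊤ := by
    have h1 : Set.range (matRep b ρV) =
        ((LinearMap.toMatrix b b : Module.End T' V' ≃ₗ[T'] Matrix n n T').toLinearMap :
          Module.End T' V' →ₗ[T'] Matrix n n T') '' Set.range ρV := by
      ext M
      constructor
      · rintro ⟨g, rfl⟩
        exact ⟨ρV g, ⟨g, rfl⟩, rfl⟩
      · rintro ⟨_, ⟨g, rfl⟩, rfl⟩
        exact ⟨g, rfl⟩
    rw [h1, Submodule.span_image, hspan, Submodule.map_top, LinearEquiv.range]
  have hmain := annIncl_mulVec hf h hc hdc h2 hβ htr' hspan'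
  intro a ha v
  have h3 := hmain a ha (b.repr v)
  -- transport along `b.repr`
  have h4 : ∀ a : Γ →₀ ℤ, RegEmbed.fsum (fun (g : Γ) (w : n → T') => (matRep b ρV g).mulVec w)
      (b.repr v) a = b.repr (RegEmbed.fsum (fun (g : Γ) (v : V') => ρV g v) v a) := by
    intro a
    induction a using Finsupp.induction_linear with
    | zero => rw [map_zero, map_zero, map_zero]; rfl
    | add a b' ha hb => rw [map_add, map_add, map_add, ha, hb]; rfl
    | single g k =>
      rw [RegEmbed.fsum_single, RegEmbed.fsum_single, matRep_mulVec, map_zsmul]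
      rfl
  rw [h4] at h3
  have h5 : (b.repr (RegEmbed.fsum (fun (g : Γ) (v : V') => ρV g v) v a) : n → T') = 0 := h3
  have h6 : b.repr (RegEmbed.fsum (fun (g : Γ) (v : V') => ρV g v) v a) = 0 := by
    ext i
    exact congrFun h5 i
  exact (LinearEquiv.map_eq_zero_iff _).mp h6

end EndForm

end Fermat.Agent.S32.Carayol.AnnBridge
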