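/-
S32 / Carayol bookkeeping (helper29): **the finite local factor**.

`R₀` a commutative ring acting on a FINITE module `X₀`, `φ : R₀ →+* T'` a ring homomorphism to a
local ring such that every `r` killing `X₀` has `φ r = 0`.  Put

* `nilSub X₀ φ := {x | ∃ s, IsUnit (φ s) ∧ s • x = 0}`,  `X := X₀ ⧸ nilSub X₀ φ`,
* `A := R₀ ⧸ Module.annihilator R₀ X`.

Then `A` is a LOCAL ring acting FAITHFULLY on `X`, `φ` factors through a LOCAL homomorphism
`Φ : A →+* T'`, and every `R₀`-linear endomorphism of `X₀` descends to an `A`-linear endomorphism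
of `X`.  No Artinian decomposition, no idempotent lifting, no localisation: the only input is that
an injective self-map of a finite set is bijective of finite order.
-/
import Mathlib

set_option autoImplicit false

namespace Fermat.Agent.S32.Carayol.LocalFactor

open Module

section Defs

variable {R₀ : Type*} [CommRing R₀] (X₀ : Type*) [AddCommGroup X₀] [Module R₀ X₀]
  {T' : Type*} [CommRing T'] (φ : R₀ →+* T')

/-- The elements of `X₀` killed by some `s` with `φ s` a unit. -/
def nilSub : Submodule R₀ X₀ where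
  carrier := {x | ∃ s : R₀, IsUnit (φ s) ∧ s • x = 0}
  zero_mem' := ⟨1, by rw [map_one]; exact isUnit_one, smul_zero _⟩
  add_mem' := by
    rintro x y ⟨s, hs, hx⟩ ⟨s', hs', hy⟩
    refine ⟨s' * s, by rw [map_mul]; exact hs'.mul hs, ?_⟩
    rw [smul_add, mul_smul, hx, smul_zero, zero_add, mul_comm, mul_smul, hy, smul_zero]
  smul_mem' := by
    rintro r x ⟨s, hs, hx⟩
    exact ⟨s, hs, by rw [smul_comm, hx, smul_zero]⟩

theorem mem_nilSub {x : X₀} : x ∈ nilSub X₀ φ ↔ ∃ s : R₀, IsUnit (φ s) ∧ s • x = 0 := Iff.rfl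

/-- The module `X := X₀ ⧸ nilSub`. -/
abbrev X : Type _ := X₀ ⧸ nilSub X₀ φ

/-- The ring `A := R₀ ⧸ Ann X`. -/
abbrev A : Type _ := R₀ ⧸ Module.annihilator R₀ (X X₀ φ)

/-- The `A`-module structure of `X`. -/
@[instance_reducible]
def moduleAX : Module (A X₀ φ) (X X₀ φ) := Module.quotientAnnihilator

attribute [local instance] moduleAX

instance finiteX [Finite X₀] : Finite (X X₀ φ) :=
  Finite.of_surjective _ (nilSub X₀ φ).mkQ_surjective

theorem mkA_smul (r : R₀) (x : X X₀ φ) :
    (Ideal.Quotient.mk (Module.annihilator R₀ (X X₀ φ)) r : A X₀ φ) • x = r • x := rfl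

theorem mkA_eq_zero {r : R₀} :
    (Ideal.Quotient.mk (Module.annihilator R₀ (X X₀ φ)) r : A X₀ φ) = 0 ↔
      ∀ x : X X₀ φ, r • x = 0 := by
  rw [Ideal.Quotient.eq_zero_iff_mem, Module.mem_annihilator]

/-- `X` is a faithful `A`-module. -/
theorem faithful (a : A X₀ φ) (ha : ∀ x : X X₀ φ, a • x = 0) : a = 0 := by
  obtain ⟨r, rfl⟩ := Ideal.Quotient.mk_surjective a
  rw [mkA_eq_zero]
  intro x
  rw [← mkA_smul]
  exact ha x

variable {X₀ φ}

/-- Elements `s` with `φ s` a unit act injectively on `X`. -/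
theorem smul_injective_of_isUnit {s : R₀} (hs : IsUnit (φ s)) :
    Function.Injective fun x : X X₀ φ => s • x := by
  have h0 : ∀ x : X X₀ φ, s • x = 0 → x = 0 := by
    intro x hx
    obtain ⟨x₀, rfl⟩ := (nilSub X₀ φ).mkQ_surjective x
    rw [Submodule.mkQ_apply, ← Submodule.Quotient.mk_smul, Submodule.Quotient.mk_eq_zero] at hx
    obtain ⟨s', hs', h⟩ := hx
    rw [Submodule.mkQ_apply, Submodule.Quotient.mk_eq_zero]
    exact ⟨s' * s, by rw [map_mul]; exact hs'.mul hs, by rw [mul_smul, h]⟩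
  intro x y hxy
  have h1 : s • (x - y) = 0 := by rw [smul_sub]; exact sub_eq_zero.mpr hxy
  exact sub_eq_zero.mp (h0 _ h1)

/-- On the finite module `X`, an element `s` with `φ s` a unit has a power acting as the
identity. -/
theorem exists_pow_smul_eq [Finite X₀] {s : R₀} (hs : IsUnit (φ s)) :
    ∃ k : ℕ, 0 < k ∧ ∀ x : X X₀ φ, s ^ k • x = x := by
  classical
  have hbij : Function.Bijective fun x : X X₀ φ => s • x :=
    Finite.injective_iff_bijective.mp (smul_injective_of_isUnit hs)
  set e : Equiv.Perm (X X₀ φ) := Equiv.ofBijective _ hbij with he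
  have hfin : IsOfFinOrder e := isOfFinOrder_of_finite e
  obtain ⟨k, hk, hek⟩ := hfin.exists_pow_eq_one
  refine ⟨k, hk, fun x => ?_⟩
  have h1 : ∀ (n : ℕ) (x : X X₀ φ), (e ^ n) x = s ^ n • x := by
    intro n
    induction n with
    | zero => intro x; simp
    | succ n ih =>
      intro x
      rw [pow_succ, Equiv.Perm.mul_apply, ih, pow_succ, mul_smul]
      rfl
  rw [← h1, hek]
  rfl

/-- Elements `s` with `φ s` a unit are units of `A`. -/
theorem isUnit_mk_of_isUnit [Finite X₀] {s : R₀} (hs : IsUnit (φ s)) :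
    IsUnit (Ideal.Quotient.mk (Module.annihilator R₀ (X X₀ φ)) s : A X₀ φ) := by
  obtain ⟨k, hk, h⟩ := exists_pow_smul_eq (X₀ := X₀) hs
  have h1 : (Ideal.Quotient.mk (Module.annihilator R₀ (X X₀ φ)) s : A X₀ φ) ^ k = 1 := by
    rw [← map_pow, ← sub_eq_zero, ← map_one (Ideal.Quotient.mk (Module.annihilator R₀ (X X₀ φ))),
      ← map_sub, mkA_eq_zero]
    intro x
    rw [sub_smul, one_smul, h, sub_self]
  exact IsUnit.of_pow_eq_one h1 hk.ne'

/-- The annihilator of `X` is contained in the kernel of `φ`. -/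
theorem annihilator_le_ker [Finite X₀] [Nontrivial T']
    (hker : ∀ r : R₀, (∀ x : X₀, r • x = 0) → φ r = 0) {r : R₀}
    (hr : r ∈ Module.annihilator R₀ (X X₀ φ)) : φ r = 0 := by
  classical
  have : Fintype X₀ := Fintype.ofFinite X₀
  rw [Module.mem_annihilator] at hr
  have h1 : ∀ x : X₀, ∃ s : R₀, IsUnit (φ s) ∧ s • (r • x) = 0 := by
    intro x
    have h2 := hr ((nilSub X₀ φ).mkQ x)
    rw [Submodule.mkQ_apply, ← Submodule.Quotient.mk_smul, Submodule.Quotient.mk_eq_zero] at h2
    exact h2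
  choose sx hsx hsx' using h1
  set s : R₀ := ∏ x : X₀, sx x with hs
  have hsu : IsUnit (φ s) := by
    rw [hs, map_prod]
    exact (Finset.univ.prod_induction (fun x => φ (sx x)) IsUnit (fun _ _ ha hb => ha.mul hb)
      isUnit_one fun x _ => hsx x)
  have h3 : φ (s * r) = 0 := by
    apply hker
    intro x
    rw [mul_smul, hs, ← Finset.mul_prod_erase Finset.univ sx (Finset.mem_univ x), mul_comm,
      mul_smul, hsx' x, smul_zero]
  rw [map_mul] at h3
  exact (hsu.mul_right_eq_zero).mp h3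

/-- The induced homomorphism `Φ : A →+* T'`. -/
def Phi [Finite X₀] [Nontrivial T'] (hker : ∀ r : R₀, (∀ x : X₀, r • x = 0) → φ r = 0) :
    A X₀ φ →+* T' :=
  Ideal.Quotient.lift (Module.annihilator R₀ (X X₀ φ)) φ fun _ hr => annihilator_le_ker hker hr

@[simp]
theorem Phi_mk [Finite X₀] [Nontrivial T']
    (hker : ∀ r : R₀, (∀ x : X₀, r • x = 0) → φ r = 0) (r : R₀) :
    Phi hker (Ideal.Quotient.mk (Module.annihilator R₀ (X X₀ φ)) r : A X₀ φ) = φ r :=
  Ideal.Quotient.lift_mk _ _ _

theorem isUnit_iff_isUnit_Phi [Finite X₀] [Nontrivial T']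
    (hker : ∀ r : R₀, (∀ x : X₀, r • x = 0) → φ r = 0) (a : A X₀ φ) :
    IsUnit a ↔ IsUnit (Phi hker a) := by
  refine ⟨fun h => h.map (Phi hker), fun h => ?_⟩
  obtain ⟨r, rfl⟩ := Ideal.Quotient.mk_surjective a
  rw [Phi_mk] at h
  exact isUnit_mk_of_isUnit h

theorem nontrivial_A [Finite X₀] [Nontrivial T']
    (hker : ∀ r : R₀, (∀ x : X₀, r • x = 0) → φ r = 0) : Nontrivial (A X₀ φ) := by
  refine ⟨⟨0, 1, fun h => ?_⟩⟩
  have h1 := congrArg (Phi hker) h
  rw [map_zero, map_one] at h1
  exact zero_ne_one h1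

theorem isLocalRing_A [Finite X₀] [IsLocalRing T']
    (hker : ∀ r : R₀, (∀ x : X₀, r • x = 0) → φ r = 0) : IsLocalRing (A X₀ φ) := by
  have := nontrivial_A hker
  refine IsLocalRing.of_isUnit_or_isUnit_one_sub_self fun a => ?_
  rw [isUnit_iff_isUnit_Phi hker, isUnit_iff_isUnit_Phi hker (1 - a), map_sub, map_one]
  exact IsLocalRing.isUnit_or_isUnit_one_sub_self _

theorem isLocalHom_Phi [Finite X₀] [Nontrivial T']
    (hker : ∀ r : R₀, (∀ x : X₀, r • x = 0) → φ r = 0) : IsLocalHom (Phi hker) :=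
  ⟨fun a ha => (isUnit_iff_isUnit_Phi hker a).mpr ha⟩

/-! ### Descent of commuting endomorphisms -/

/-- An `R₀`-linear endomorphism of `X₀` descends to an `A`-linear endomorphism of `X`. -/
def descend (f : Module.End R₀ X₀) : Module.End (A X₀ φ) (X X₀ φ) where
  toFun := Submodule.mapQ (nilSub X₀ φ) (nilSub X₀ φ) f (by
    rintro x ⟨s, hs, hx⟩
    exact ⟨s, hs, by rw [← map_smul, hx, map_zero]⟩)
  map_add' := map_add _
  map_smul' := by
    intro a x
    obtain ⟨r, rfl⟩ := Ideal.Quotient.mk_surjective a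
    rw [RingHom.id_apply, mkA_smul, mkA_smul, map_smul]

@[simp]
theorem descend_mk (f : Module.End R₀ X₀) (x : X₀) :
    descend (φ := φ) f ((nilSub X₀ φ).mkQ x) = (nilSub X₀ φ).mkQ (f x) := rfl

theorem descend_one : descend (φ := φ) (1 : Module.End R₀ X₀) = 1 := by
  refine LinearMap.ext fun x => ?_
  obtain ⟨x₀, rfl⟩ := (nilSub X₀ φ).mkQ_surjective x
  rw [descend_mk]
  rfl

theorem descend_mul (f g : Module.End R₀ X₀) :
    descend (φ := φ) (f * g) = descend f * descend g := by
  refine LinearMap.ext fun x => ?_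
  obtain ⟨x₀, rfl⟩ := (nilSub X₀ φ).mkQ_surjective x
  rw [Module.End.mul_apply, descend_mk, descend_mk, descend_mk]
  rfl

theorem descend_add (f g : Module.End R₀ X₀) :
    descend (φ := φ) (f + g) = descend f + descend g := by
  refine LinearMap.ext fun x => ?_
  obtain ⟨x₀, rfl⟩ := (nilSub X₀ φ).mkQ_surjective x
  rw [LinearMap.add_apply, descend_mk, descend_mk, descend_mk, LinearMap.add_apply, map_add]

theorem descend_smul (r : R₀) (f : Module.End R₀ X₀) :
    descend (φ := φ) (r • f) =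
      (Ideal.Quotient.mk (Module.annihilator R₀ (X X₀ φ)) r : A X₀ φ) • descend f := by
  refine LinearMap.ext fun x => ?_
  obtain ⟨x₀, rfl⟩ := (nilSub X₀ φ).mkQ_surjective x
  rw [LinearMap.smul_apply, descend_mk, descend_mk, LinearMap.smul_apply, map_smul, mkA_smul]

theorem descend_zero : descend (φ := φ) (0 : Module.End R₀ X₀) = 0 := by
  refine LinearMap.ext fun x => ?_
  obtain ⟨x₀, rfl⟩ := (nilSub X₀ φ).mkQ_surjective x
  rw [descend_mk, LinearMap.zero_apply, LinearMap.zero_apply, map_zero]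

/-- The descent as a ring homomorphism. -/
def descendHom : Module.End R₀ X₀ →+* Module.End (A X₀ φ) (X X₀ φ) where
  toFun := descend
  map_one' := descend_one
  map_mul' := descend_mul
  map_zero' := descend_zero
  map_add' := descend_add

@[simp]
theorem descendHom_apply (f : Module.End R₀ X₀) : descendHom (φ := φ) f = descend f := rfl

theorem descendHom_mk (f : Module.End R₀ X₀) (x : X₀) :
    descendHom (φ := φ) f ((nilSub X₀ φ).mkQ x) = (nilSub X₀ φ).mkQ (f x) := rfl

theorem descendHom_smul (r : R₀) (f : Module.End R₀ X₀) :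
    descendHom (φ := φ) (r • f) =
      (Ideal.Quotient.mk (Module.annihilator R₀ (X X₀ φ)) r : A X₀ φ) • descendHom f :=
  descend_smul r f

/-- Scalars of `R₀` acting on `X₀` descend to the corresponding scalars of `A`. -/
theorem descendHom_smul_one (r : R₀) :
    descendHom (φ := φ) (r • (1 : Module.End R₀ X₀)) =
      (Ideal.Quotient.mk (Module.annihilator R₀ (X X₀ φ)) r : A X₀ φ) •
        (1 : Module.End (A X₀ φ) (X X₀ φ)) := by
  rw [descendHom_smul, map_one]

end Defs

end Fermat.Agent.S32.Carayol.LocalFactor
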