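/-
S32 / Carayol bookkeeping (helper29): **the abstract annihilator inclusion.**

`R₀` a commutative ring acting on a FINITE module `X₀`, a group `Γ` acting `R₀`-linearly on `X₀`
(`gal`), `φ : R₀ →+* T'` a ring homomorphism to a local ring killing every `r` which kills `X₀`,
functions `P δ : Γ → R₀` with

* `gal g + δ g • gal g⁻¹ = P g • 1` on `X₀` (Cayley–Hamilton in Eichler–Shimura form),
* `δ` multiplicative as operators on `X₀`, `δ c = -1` for an involution `c`,

and a matrix representation `ρ' : Γ →* Mₙ(T')` with `tr ρ'(g) = φ (P g)`, spanning image and an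
irreducibility witness.  Then every integral formal sum `∑ nᵢ gᵢ` killing `X₀` kills `T'ⁿ`
(`annIncl_mulVec`).  This is `LocalFactor` (pass to the local factor `A`, `X` at `φ`) followed by
the Cayley–Hamilton core `AnnBridge.annIncl_mulVec`.

Also: three general lemmas on `RegEmbed.AnnIncl` (`annIncl_trans`, `annIncl_of_surjective`,
`annIncl_of_injective`).
-/
import Mathlib
import Fermat.Agent.S32.Carayol.LocalFactor
import Fermat.Agent.S32.Carayol.AnnBridge

set_option autoImplicit false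
set_option linter.unusedSectionVars false

namespace Fermat.Agent.S32.Carayol.Abstract

open Fermat.Agent.S32.Carayol Fermat.Agent.S32.Carayol.LocalFactor

/-! ### General lemmas on annihilator inclusions -/

section AnnIncl

variable {G : Type*} [Group G] {Z M M' : Type*} [AddCommGroup Z] [AddCommGroup M]
  [AddCommGroup M'] {actZ : G → Z → Z} {actM : G → M → M} {actM' : G → M' → M'}

theorem annIncl_trans (h₁ : RegEmbed.AnnIncl actZ actM) (h₂ : RegEmbed.AnnIncl actM actM') :
    RegEmbed.AnnIncl actZ actM' :=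
  fun a ha => h₂ a (h₁ a ha)

/-- An equivariant additive map intertwines the formal sums. -/
theorem map_fsum (f : Z →+ M) (hf : ∀ σ z, f (actZ σ z) = actM σ (f z)) (z : Z) (a : G →₀ ℤ) :
    f (RegEmbed.fsum actZ z a) = RegEmbed.fsum actM (f z) a := by
  have h : f.comp (RegEmbed.fsum actZ z) = RegEmbed.fsum actM (f z) := by
    refine Finsupp.addHom_ext fun g k => ?_
    rw [AddMonoidHom.comp_apply, RegEmbed.fsum_single, RegEmbed.fsum_single, map_zsmul, hf]
  exact DFunLike.congr_fun h a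

/-- An equivariant quotient is killed by whatever kills the source. -/
theorem annIncl_of_surjective (f : Z →+ M) (hf : ∀ σ z, f (actZ σ z) = actM σ (f z))
    (hsurj : Function.Surjective f) : RegEmbed.AnnIncl actZ actM := by
  intro a ha m
  obtain ⟨z, rfl⟩ := hsurj m
  rw [← map_fsum f hf, ha z, map_zero]

/-- An equivariant subobject is killed by whatever kills the ambient object. -/
theorem annIncl_of_injective (j : M →+ Z) (hj : ∀ σ m, j (actM σ m) = actZ σ (j m))
    (hinj : Function.Injective j) : RegEmbed.AnnIncl actZ actM := by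
  intro a ha m
  apply hinj
  rw [map_fsum j hj, ha (j m), map_zero]

end AnnIncl

/-! ### The local factor with its Galois action -/

section Main

attribute [local instance] LocalFactor.moduleAX

variable {Γ : Type*} [Group Γ] {R₀ : Type*} [CommRing R₀] {X₀ : Type*} [AddCommGroup X₀]
  [Module R₀ X₀] [Finite X₀] {T' : Type*} [CommRing T'] [IsLocalRing T'] {φ : R₀ →+* T'}

/-- Elements of `R₀` acting in the same way on `X₀` have the same class in `A`. -/
theorem mk_eq_mk_of_smul_eq {r r' : R₀} (h : ∀ x : X₀, r • x = r' • x) :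
    (Ideal.Quotient.mk (Module.annihilator R₀ (X X₀ φ)) r : A X₀ φ) =
      Ideal.Quotient.mk (Module.annihilator R₀ (X X₀ φ)) r' := by
  rw [← sub_eq_zero, ← map_sub, mkA_eq_zero]
  intro x
  obtain ⟨x₀, rfl⟩ := (nilSub X₀ φ).mkQ_surjective x
  rw [← map_smul, sub_smul, h x₀, sub_self, map_zero]

variable (gal : Γ →* Module.End R₀ X₀) (P δ : Γ → R₀)

/-- The Galois action on the local factor. -/
def actX : Γ →* Module.End (A X₀ φ) (X X₀ φ) :=
  ((descendHom (φ := φ) : Module.End R₀ X₀ →+* Module.End (A X₀ φ) (X X₀ φ)) :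
    Module.End R₀ X₀ →* Module.End (A X₀ φ) (X X₀ φ)).comp gal

theorem actX_mk (g : Γ) (x : X₀) :
    actX (φ := φ) gal g ((nilSub X₀ φ).mkQ x) = (nilSub X₀ φ).mkQ (gal g x) := rfl

/-- The trace function with values in `A`. -/
def tA (g : Γ) : A X₀ φ := Ideal.Quotient.mk (Module.annihilator R₀ (X X₀ φ)) (P g)

variable {δ}

/-- The determinant character with values in `Aˣ`. -/
def dA (hδ1 : ∀ x : X₀, δ 1 • x = x) (hδmul : ∀ g h (x : X₀), δ (g * h) • x = δ g • δ h • x) :
    Γ →* (A X₀ φ)ˣ :=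
  MonoidHom.toHomUnits
    { toFun := fun g => (Ideal.Quotient.mk (Module.annihilator R₀ (X X₀ φ)) (δ g) : A X₀ φ)
      map_one' := by
        rw [← map_one (Ideal.Quotient.mk (Module.annihilator R₀ (X X₀ φ)))]
        exact mk_eq_mk_of_smul_eq fun x => by rw [hδ1, one_smul]
      map_mul' := fun g h => by
        rw [← map_mul]
        exact mk_eq_mk_of_smul_eq fun x => by rw [hδmul, mul_smul] }

theorem coe_dA (hδ1 : ∀ x : X₀, δ 1 • x = x)
    (hδmul : ∀ g h (x : X₀), δ (g * h) • x = δ g • δ h • x) (g : Γ) :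
    ((dA (φ := φ) hδ1 hδmul g : (A X₀ φ)ˣ) : A X₀ φ) =
      Ideal.Quotient.mk (Module.annihilator R₀ (X X₀ φ)) (δ g) := rfl

variable {gal P}

/-- The Cayley–Hamilton identity on the local factor. -/
theorem isCH (hδ1 : ∀ x : X₀, δ 1 • x = x)
    (hδmul : ∀ g h (x : X₀), δ (g * h) • x = δ g • δ h • x)
    (hCH : ∀ g, gal g + δ g • gal g⁻¹ = P g • (1 : Module.End R₀ X₀)) :
    CHCore.IsCH (actX (φ := φ) gal) (tA (X₀ := X₀) (φ := φ) P) (dA (φ := φ) hδ1 hδmul) := by
  intro g
  have h1 : actX (φ := φ) gal g + (Ideal.Quotient.mk (Module.annihilator R₀ (X X₀ φ)) (δ g) :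
      A X₀ φ) • actX (φ := φ) gal g⁻¹ = tA (X₀ := X₀) (φ := φ) P g •
        (1 : Module.End (A X₀ φ) (X X₀ φ)) := by
    have h2 := congrArg (descendHom (φ := φ)) (hCH g)
    rw [map_add, descendHom_smul, descendHom_smul_one] at h2
    exact h2
  have h3 : actX (φ := φ) gal g⁻¹ * actX (φ := φ) gal g = 1 := by
    rw [← map_mul, inv_mul_cancel, map_one]
  have h4 := congrArg (fun E => E * actX (φ := φ) gal g) h1
  simp only [add_mul, smul_mul_assoc, h3, one_mul] at h4
  rw [coe_dA, ← h4]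
  abel

end Main

/-! ### The annihilator inclusion -/

section Final

attribute [local instance] LocalFactor.moduleAX

variable {Γ : Type*} [Group Γ] {R₀ : Type*} [CommRing R₀] {X₀ : Type*} [AddCommGroup X₀]
  [Module R₀ X₀] [Finite X₀] {T' : Type*} [CommRing T'] [IsLocalRing T'] {φ : R₀ →+* T'}
  {gal : Γ →* Module.End R₀ X₀} {P δ : Γ → R₀}
  {n : Type*} [Fintype n] [DecidableEq n] {ρ' : Γ →* Matrix n n T'}

/-- **The abstract annihilator inclusion.** -/
theorem annIncl_mulVec (hker : ∀ r : R₀, (∀ x : X₀, r • x = 0) → φ r = 0)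
    (hCH : ∀ g, gal g + δ g • gal g⁻¹ = P g • (1 : Module.End R₀ X₀))
    (hδ1 : ∀ x : X₀, δ 1 • x = x) (hδmul : ∀ g h (x : X₀), δ (g * h) • x = δ g • δ h • x)
    {c : Γ} (hc : c * c = 1) (hδc : ∀ x : X₀, δ c • x = -x) (h2 : IsUnit (φ 2))
    (htr : ∀ g, (ρ' g).trace = φ (P g)) (hspan : Submodule.span T' (Set.range ρ') = ⊤)
    {g₀ h₀ : Γ} (hβ : IsUnit (CHCore.beta (fun g => φ (P g)) c g₀ h₀)) :
    RegEmbed.AnnIncl (fun (g : Γ) (x : X₀) => gal g x)
      (fun (g : Γ) (v : n → T') => (ρ' g).mulVec v) := by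
  -- from `X₀` to its quotient `X`
  have hquot : RegEmbed.AnnIncl (fun (g : Γ) (x : X₀) => gal g x)
      (fun (g : Γ) (x : X X₀ φ) => actX (φ := φ) gal g x) :=
    annIncl_of_surjective ((nilSub X₀ φ).mkQ : X₀ →ₗ[R₀] X X₀ φ).toAddMonoidHom
      (fun σ z => rfl) (nilSub X₀ φ).mkQ_surjective
  refine annIncl_trans hquot ?_
  -- the Cayley–Hamilton core
  have hf : CHCore.IsFaithful (A X₀ φ) (X X₀ φ) := faithful X₀ φ
  have hdc : dA (φ := φ) hδ1 hδmul c = -1 := by
    apply Units.ext
    rw [coe_dA, Units.val_neg, Units.val_one,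
      ← map_one (Ideal.Quotient.mk (Module.annihilator R₀ (X X₀ φ))), ← map_neg]
    exact mk_eq_mk_of_smul_eq fun x => by rw [hδc, neg_smul, one_smul]
  have h2A : IsUnit (2 : A X₀ φ) := by
    have h3 : (2 : A X₀ φ) = Ideal.Quotient.mk (Module.annihilator R₀ (X X₀ φ)) 2 := by
      rw [map_ofNat]
    rw [h3]
    exact isUnit_mk_of_isUnit h2
  have hβA : IsUnit (CHCore.beta (tA (X₀ := X₀) (φ := φ) P) c g₀ h₀) := by
    rw [isUnit_iff_isUnit_Phi hker]
    have h3 : Phi hker (CHCore.beta (tA (X₀ := X₀) (φ := φ) P) c g₀ h₀)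
        = CHCore.beta (fun g => φ (P g)) c g₀ h₀ := by
      unfold CHCore.beta tA
      rw [map_add, map_sub, map_sub, Phi_mk, Phi_mk, Phi_mk, Phi_mk]
    rw [h3]
    exact hβ
  have htr' : ∀ g, (ρ' g).trace = Phi hker (tA (X₀ := X₀) (φ := φ) P g) := by
    intro g
    rw [htr g]
    exact (Phi_mk hker (P g)).symm
  exact AnnBridge.annIncl_mulVec hf (isCH hδ1 hδmul hCH) hc hdc h2A hβA htr' hspan

end Final

end Fermat.Agent.S32.Carayol.Abstract
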