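/-
S32 / Carayol bookkeeping (helper27): **the unit witness for the Cayley–Hamilton core.**

`T'` a local ring with `2` a unit, `ρ' : Γ →* M₂(T')` whose image spans `M₂(T')`, `c : Γ` with
`det ρ'(c) = -1`.  Then there are `g₀ h₀ : Γ` with
`tr (ρ'(g₀) (1 - ρ'(c)) ρ'(h₀) (1 + ρ'(c)))` a unit of `T'` (`exists_isUnit_trace`).
Hence if `Φ : A →+* T'` reflects units and `tr ρ' = Φ ∘ t`, the element `CHCore.beta t c g₀ h₀` is a unit
of `A` (`exists_isUnit_beta`).  Endomorphism form: `exists_isUnit_beta_end`.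

Proof: otherwise, by bilinearity and the span hypothesis, `tr (G (1 - C) H (1 + C)) ∈ 𝔪` for ALL matrices
`G H`; with elementary matrices: `(1 - C) i l * (1 + C) m j ∈ 𝔪` for all indices, so `C ≡ 1` or `C ≡ -1`
modulo `𝔪`, so `det C ≡ 1`, so `2 ∈ 𝔪`.
-/
import Mathlib
import Fermat.Agent.S32.Carayol.CHCore

set_option autoImplicit false
set_option linter.unusedSectionVars false

namespace Fermat.Agent.S32.Carayol.Witness

open Fermat.Agent.S32.Carayol Matrix

section

variable {T' : Type*} [CommRing T'] {Γ : Type*} [Group Γ]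

/-- The bilinear expression `tr (G (1 - C) H (1 + C))`. -/
def wit (C G H : Matrix (Fin 2) (Fin 2) T') : T' := (G * (1 - C) * H * (1 + C)).trace

theorem wit_add_left (C G G' H : Matrix (Fin 2) (Fin 2) T') :
    wit C (G + G') H = wit C G H + wit C G' H := by
  simp only [wit, add_mul, Matrix.trace_add]

theorem wit_smul_left (C G H : Matrix (Fin 2) (Fin 2) T') (r : T') :
    wit C (r • G) H = r * wit C G H := by
  simp only [wit, Matrix.smul_mul, Matrix.trace_smul, smul_eq_mul]

theorem wit_add_right (C G H H' : Matrix (Fin 2) (Fin 2) T') :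
    wit C G (H + H') = wit C G H + wit C G H' := by
  simp only [wit, mul_add, add_mul, Matrix.trace_add]
  abel

theorem wit_smul_right (C G H : Matrix (Fin 2) (Fin 2) T') (r : T') :
    wit C G (r • H) = r * wit C G H := by
  simp only [wit, Matrix.mul_smul, Matrix.smul_mul, Matrix.trace_smul, smul_eq_mul]

/-- `tr (E_{ji} (1 - C) E_{lm} (1 + C)) = (1 - C)_{il} (1 + C)_{mj}`. -/
theorem wit_single (C : Matrix (Fin 2) (Fin 2) T') (i j l m : Fin 2) :
    wit C (Matrix.single j i 1) (Matrix.single l m 1) = (1 - C) i l * (1 + C) m j := by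
  rw [wit, Matrix.mul_assoc, Matrix.mul_assoc, Matrix.trace_single_mul]
  rw [Matrix.mul_apply]
  simp only [one_smul]
  rw [Finset.sum_eq_single l]
  · congr 1
    rw [Matrix.mul_apply, Finset.sum_eq_single m]
    · rw [Matrix.single_apply_same, one_mul]
    · intro b _ hb
      rw [Matrix.single_apply_of_col_ne _ _ hb.symm, zero_mul]
    · intro h; exact absurd (Finset.mem_univ m) h
  · intro b _ hb
    rw [Matrix.mul_apply]
    have : ∀ x, (Matrix.single l m (1 : T')) b x = 0 := fun x =>
      Matrix.single_apply_of_row_ne hb.symm _ _ _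
    simp only [this, zero_mul, Finset.sum_const_zero, mul_zero]
  · intro h; exact absurd (Finset.mem_univ l) h

variable [IsLocalRing T']

/-- Bilinear extension: if the witness is a non-unit on the image of `ρ'`, it is a non-unit on all
pairs of matrices. -/
theorem wit_mem_of_span {ρ' : Γ →* Matrix (Fin 2) (Fin 2) T'}
    (hspan : Submodule.span T' (Set.range ρ') = ⊤) (C : Matrix (Fin 2) (Fin 2) T')
    (h : ∀ g h : Γ, wit C (ρ' g) (ρ' h) ∈ IsLocalRing.maximalIdeal T')
    (G H : Matrix (Fin 2) (Fin 2) T') : wit C G H ∈ IsLocalRing.maximalIdeal T' := by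
  -- first in the left variable, for `H` in the image
  have h1 : ∀ (k : Γ) (G : Matrix (Fin 2) (Fin 2) T'),
      wit C G (ρ' k) ∈ IsLocalRing.maximalIdeal T' := by
    intro k G
    have hG : G ∈ Submodule.span T' (Set.range ρ') := by rw [hspan]; trivial
    induction hG using Submodule.span_induction with
    | mem x hx =>
      obtain ⟨g, rfl⟩ := hx
      exact h g k
    | zero =>
      have : wit C (0 : Matrix (Fin 2) (Fin 2) T') (ρ' k) = 0 := by
        simp only [wit, zero_mul, Matrix.trace_zero]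
      rw [this]; exact Ideal.zero_mem _
    | add x y _ _ hx hy => rw [wit_add_left]; exact Ideal.add_mem _ hx hy
    | smul r x _ hx => rw [wit_smul_left]; exact Ideal.mul_mem_left _ _ hx
  have hH : H ∈ Submodule.span T' (Set.range ρ') := by rw [hspan]; trivial
  induction hH using Submodule.span_induction with
  | mem x hx =>
    obtain ⟨k, rfl⟩ := hx
    exact h1 k G
  | zero =>
    have : wit C G (0 : Matrix (Fin 2) (Fin 2) T') = 0 := by
      simp only [wit, mul_zero, zero_mul, Matrix.trace_zero]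
    rw [this]; exact Ideal.zero_mem _
  | add x y _ _ hx hy => rw [wit_add_right]; exact Ideal.add_mem _ hx hy
  | smul r x _ hx => rw [wit_smul_right]; exact Ideal.mul_mem_left _ _ hx

/-- A `2 × 2` matrix over a local ring with `2` a unit which is congruent to `1` or to `-1` modulo the
maximal ideal does not have determinant `-1`. -/
theorem det_ne_neg_one_of_congr (h2 : IsUnit (2 : T')) (C : Matrix (Fin 2) (Fin 2) T')
    (hC : (∀ i l, (1 - C) i l ∈ IsLocalRing.maximalIdeal T') ∨
      (∀ m j, (1 + C) m j ∈ IsLocalRing.maximalIdeal T')) : C.det ≠ -1 := by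
  intro hdet
  set π := Ideal.Quotient.mk (IsLocalRing.maximalIdeal T') with hπ
  have hdet' : (π.mapMatrix C).det = -1 := by
    rw [← RingHom.map_det, hdet, map_neg, map_one]
  have key : (π.mapMatrix C).det = 1 := by
    rcases hC with hC | hC
    · have : π.mapMatrix C = 1 := by
        have h0 : π.mapMatrix (1 - C) = 0 := by
          ext i l
          rw [RingHom.mapMatrix_apply, Matrix.map_apply, Matrix.zero_apply]
          exact Ideal.Quotient.eq_zero_iff_mem.mpr (hC i l)
        rw [map_sub, map_one, sub_eq_zero] at h0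
        exact h0.symm
      rw [this, Matrix.det_one]
    · have : π.mapMatrix C = -1 := by
        have h0 : π.mapMatrix (1 + C) = 0 := by
          ext i l
          rw [RingHom.mapMatrix_apply, Matrix.map_apply, Matrix.zero_apply]
          exact Ideal.Quotient.eq_zero_iff_mem.mpr (hC i l)
        rw [map_add, map_one] at h0
        exact (neg_eq_of_add_eq_zero_right h0).symm
      rw [this, Matrix.det_neg, Matrix.det_one, Fintype.card_fin]
      norm_num
  rw [key] at hdet'
  -- `1 = -1` in the residue field, so `2 ∈ 𝔪`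
  have h3 : π (2 : T') = 0 := by
    have : (2 : T' ⧸ IsLocalRing.maximalIdeal T') = 0 := by
      have h4 : (1 : T' ⧸ IsLocalRing.maximalIdeal T') + 1 = 0 := by
        nth_rewrite 1 [hdet']
        exact neg_add_cancel 1
      rw [← h4]; norm_num
    rw [map_ofNat]; exact this
  have h4 : (2 : T') ∈ IsLocalRing.maximalIdeal T' := Ideal.Quotient.eq_zero_iff_mem.mp h3
  exact (IsLocalRing.mem_maximalIdeal _).mp h4 h2

/-- **The unit witness, trace form.** -/
theorem exists_isUnit_wit (h2 : IsUnit (2 : T')) {ρ' : Γ →* Matrix (Fin 2) (Fin 2) T'}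
    (hspan : Submodule.span T' (Set.range ρ') = ⊤) {c : Γ} (hdet : (ρ' c).det = -1) :
    ∃ g₀ h₀ : Γ, IsUnit (wit (ρ' c) (ρ' g₀) (ρ' h₀)) := by
  by_contra hcon
  push Not at hcon
  have h : ∀ g h : Γ, wit (ρ' c) (ρ' g) (ρ' h) ∈ IsLocalRing.maximalIdeal T' :=
    fun g h => (IsLocalRing.mem_maximalIdeal _).mpr (hcon g h)
  have hall := wit_mem_of_span hspan (ρ' c) h
  have hent : ∀ i j l m : Fin 2,
      (1 - ρ' c) i l * (1 + ρ' c) m j ∈ IsLocalRing.maximalIdeal T' := by
    intro i j l m
    rw [← wit_single]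
    exact hall _ _
  refine det_ne_neg_one_of_congr h2 (ρ' c) ?_ hdet
  by_cases hA : ∀ i l, (1 - ρ' c) i l ∈ IsLocalRing.maximalIdeal T'
  · exact Or.inl hA
  · right
    push Not at hA
    obtain ⟨i, l, hil⟩ := hA
    intro m j
    have hu : IsUnit ((1 - ρ' c) i l) := by
      by_contra hnu
      exact hil ((IsLocalRing.mem_maximalIdeal _).mpr hnu)
    have := hent i j l m
    exact ((IsLocalRing.maximalIdeal.isMaximal T').isPrime.mem_or_mem this).resolve_left
      (fun hmem => (IsLocalRing.mem_maximalIdeal _).mp hmem hu)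

/-- The witness as the alternating sum of four traces. -/
theorem wit_eq (ρ' : Γ →* Matrix (Fin 2) (Fin 2) T') (c g₀ h₀ : Γ) :
    wit (ρ' c) (ρ' g₀) (ρ' h₀) =
      (ρ' (g₀ * h₀)).trace - (ρ' (g₀ * c * h₀)).trace +
        ((ρ' (g₀ * h₀ * c)).trace - (ρ' (g₀ * c * h₀ * c)).trace) := by
  simp only [wit, map_mul]
  rw [← Matrix.trace_sub, ← Matrix.trace_sub, ← Matrix.trace_add]
  congr 1
  noncomm_ring

variable {A : Type*} [CommRing A]

/-- **The unit witness**: `CHCore.beta t c g₀ h₀` is a unit of `A` for suitable `g₀ h₀`. -/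
theorem exists_isUnit_beta (h2 : IsUnit (2 : T')) {ρ' : Γ →* Matrix (Fin 2) (Fin 2) T'}
    (hspan : Submodule.span T' (Set.range ρ') = ⊤) {c : Γ} (hdet : (ρ' c).det = -1)
    {Φ : A →+* T'} (hΦ : ∀ a : A, IsUnit (Φ a) → IsUnit a) {t : Γ → A}
    (htr : ∀ g, (ρ' g).trace = Φ (t g)) :
    ∃ g₀ h₀ : Γ, IsUnit (CHCore.beta t c g₀ h₀) := by
  obtain ⟨g₀, h₀, hu⟩ := exists_isUnit_wit h2 hspan hdet
  refine ⟨g₀, h₀, hΦ _ ?_⟩
  rw [wit_eq] at hu
  rw [CHCore.beta]
  simpa only [map_add, map_sub, htr] using hu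

end

section EndForm

variable {T' : Type*} [CommRing T'] [IsLocalRing T'] {Γ : Type*} [Group Γ]
  {V' : Type*} [AddCommGroup V'] [Module T' V'] {A : Type*} [CommRing A]

/-- **The unit witness, endomorphism form.** -/
theorem exists_isUnit_beta_end (h2 : IsUnit (2 : T')) (b : Module.Basis (Fin 2) T' V')
    {ρV : Γ →* Module.End T' V'}
    (hspan : Submodule.span T' (Set.range ρV) = ⊤) {c : Γ} (hdet : LinearMap.det (ρV c) = -1)
    {Φ : A →+* T'} (hΦ : ∀ a : A, IsUnit (Φ a) → IsUnit a) {t : Γ → A}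
    (htr : ∀ g, LinearMap.trace T' V' (ρV g) = Φ (t g)) :
    ∃ g₀ h₀ : Γ, IsUnit (CHCore.beta t c g₀ h₀) := by
  let ρ' : Γ →* Matrix (Fin 2) (Fin 2) T' :=
    ((LinearMap.toMatrixAlgEquiv b : Module.End T' V' ≃ₐ[T'] Matrix (Fin 2) (Fin 2) T') :
      Module.End T' V' →* Matrix (Fin 2) (Fin 2) T').comp ρV
  have hρ' : ∀ g, ρ' g = LinearMap.toMatrix b b (ρV g) := fun g => rfl
  have htr' : ∀ g, (ρ' g).trace = Φ (t g) := by
    intro g
    rw [hρ', ← LinearMap.trace_eq_matrix_trace T' b, htr]
  have hspan' : Submodule.span T' (Set.range ρ') = ⊤ := by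
    have h1 : Set.range ρ' =
        ((LinearMap.toMatrix b b : Module.End T' V' ≃ₗ[T'] Matrix (Fin 2) (Fin 2) T').toLinearMap :
          Module.End T' V' →ₗ[T'] Matrix (Fin 2) (Fin 2) T') '' Set.range ρV := by
      ext M
      constructor
      · rintro ⟨g, rfl⟩
        exact ⟨ρV g, ⟨g, rfl⟩, rfl⟩
      · rintro ⟨_, ⟨g, rfl⟩, rfl⟩
        exact ⟨g, rfl⟩
    rw [h1, Submodule.span_image, hspan, Submodule.map_top, LinearEquiv.range]
  have hdet' : (ρ' c).det = -1 := by
    rw [hρ', LinearMap.det_toMatrix, hdet]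
  exact exists_isUnit_beta h2 hspan' hdet' hΦ htr'

end EndForm

end Fermat.Agent.S32.Carayol.Witness
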