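/-
S32 / Carayol bookkeeping (helper27): **End-form twin of `Abstract.annIncl_mulVec`, with the unit
witness built in.**

Same data as `Abstract.lean` (helper29): `R₀` acting on the finite `X₀`, `gal : Γ →* End_{R₀} X₀`,
`φ : R₀ →+* T'` (`T'` local) killing the annihilator of `X₀`, Eichler–Shimura relation
`gal g + δ g • gal g⁻¹ = P g`, `δ c = -1`.  The target is a representation
`ρV : Γ →* Module.End T' V'` on a module with a `Fin 2`-basis, `tr ρV(g) = φ (P g)`, spanning image,
`det ρV(c) = -1`.  Conclusion: `RegEmbed.AnnIncl (gal) (ρV)`.  No witness hypothesis: it is produced by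
`Witness.exists_isUnit_beta_end`.
-/
import Mathlib
import Fermat.Agent.S32.Carayol.Abstract
import Fermat.Agent.S32.Carayol.Witness

set_option autoImplicit false
set_option linter.unusedSectionVars false

namespace Fermat.Agent.S32.Carayol.AbstractEnd

open Fermat.Agent.S32.Carayol Fermat.Agent.S32.Carayol.LocalFactor
  Fermat.Agent.S32.Carayol.Abstract

section Final

attribute [local instance] LocalFactor.moduleAX

variable {Γ : Type*} [Group Γ] {R₀ : Type*} [CommRing R₀] {X₀ : Type*} [AddCommGroup X₀]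
  [Module R₀ X₀] [Finite X₀] {T' : Type*} [CommRing T'] [IsLocalRing T'] {φ : R₀ →+* T'}
  {gal : Γ →* Module.End R₀ X₀} {P δ : Γ → R₀}
  {V' : Type*} [AddCommGroup V'] [Module T' V'] {ρV : Γ →* Module.End T' V'}

/-- The End-form annihilator inclusion with an explicit witness (any finite basis). -/
theorem annIncl_end_of_witness {n : Type*} [Fintype n] [DecidableEq n]
    (hker : ∀ r : R₀, (∀ x : X₀, r • x = 0) → φ r = 0)
    (hCH : ∀ g, gal g + δ g • gal g⁻¹ = P g • (1 : Module.End R₀ X₀))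
    (hδ1 : ∀ x : X₀, δ 1 • x = x) (hδmul : ∀ g h (x : X₀), δ (g * h) • x = δ g • δ h • x)
    {c : Γ} (hc : c * c = 1) (hδc : ∀ x : X₀, δ c • x = -x) (h2 : IsUnit (φ 2))
    (b : Module.Basis n T' V')
    (htr : ∀ g, LinearMap.trace T' V' (ρV g) = φ (P g))
    (hspan : Submodule.span T' (Set.range ρV) = ⊤)
    {g₀ h₀ : Γ} (hβ : IsUnit (CHCore.beta (fun g => φ (P g)) c g₀ h₀)) :
    RegEmbed.AnnIncl (fun (g : Γ) (x : X₀) => gal g x) (fun (g : Γ) (v : V') => ρV g v) := by
  -- from `X₀` to its quotient `X`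
  have hquot : RegEmbed.AnnIncl (fun (g : Γ) (x : X₀) => gal g x)
      (fun (g : Γ) (x : X X₀ φ) => actX (φ := φ) gal g x) :=
    annIncl_of_surjective ((nilSub X₀ φ).mkQ : X₀ →ₗ[R₀] X X₀ φ).toAddMonoidHom
      (fun σ z => rfl) (nilSub X₀ φ).mkQ_surjective
  refine annIncl_trans hquot ?_
  -- the Cayley–Hamilton core
  have hf : CHCore.IsFaithful (A X₀ φ) (X X₀ φ) := faithful X₀ φ
  have hdc : dA (φ := φ) hδ1 hδmul c = -1 := by
    apply Units.ext
    rw [coe_dA, Units.val_neg, Units.val_one,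
      ← map_one (Ideal.Quotient.mk (Module.annihilator R₀ (X X₀ φ))), ← map_neg]
    exact mk_eq_mk_of_smul_eq fun x => by rw [hδc, neg_smul, one_smul]
  have h2A : IsUnit (2 : A X₀ φ) := by
    have h3 : (2 : A X₀ φ) = Ideal.Quotient.mk (Module.annihilator R₀ (X X₀ φ)) 2 := by
      rw [map_ofNat]
    rw [h3]
    exact isUnit_mk_of_isUnit h2
  have hβA : IsUnit (CHCore.beta (tA (X₀ := X₀) (φ := φ) P) c g₀ h₀) := by
    rw [isUnit_iff_isUnit_Phi hker]
    have h3 : Phi hker (CHCore.beta (tA (X₀ := X₀) (φ := φ) P) c g₀ h₀)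
        = CHCore.beta (fun g => φ (P g)) c g₀ h₀ := by
      unfold CHCore.beta tA
      rw [map_add, map_sub, map_sub, Phi_mk, Phi_mk, Phi_mk, Phi_mk]
    rw [h3]
    exact hβ
  have htr' : ∀ g, LinearMap.trace T' V' (ρV g) = Phi hker (tA (X₀ := X₀) (φ := φ) P g) := by
    intro g
    rw [htr g]
    exact (Phi_mk hker (P g)).symm
  exact AnnBridge.annIncl_end hf (isCH hδ1 hδmul hCH) hc hdc h2A hβA b htr' hspan

/-- **The End-form annihilator inclusion**, rank `2`, witness produced from `det ρV(c) = -1`. -/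
theorem annIncl_end (hker : ∀ r : R₀, (∀ x : X₀, r • x = 0) → φ r = 0)
    (hCH : ∀ g, gal g + δ g • gal g⁻¹ = P g • (1 : Module.End R₀ X₀))
    (hδ1 : ∀ x : X₀, δ 1 • x = x) (hδmul : ∀ g h (x : X₀), δ (g * h) • x = δ g • δ h • x)
    {c : Γ} (hc : c * c = 1) (hδc : ∀ x : X₀, δ c • x = -x) (h2 : IsUnit (φ 2))
    (b : Module.Basis (Fin 2) T' V')
    (htr : ∀ g, LinearMap.trace T' V' (ρV g) = φ (P g))
    (hspan : Submodule.span T' (Set.range ρV) = ⊤)
    (hdet : LinearMap.det (ρV c) = -1) :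
    RegEmbed.AnnIncl (fun (g : Γ) (x : X₀) => gal g x) (fun (g : Γ) (v : V') => ρV g v) := by
  have h2' : IsUnit (2 : T') := by
    have : φ 2 = 2 := map_ofNat φ 2
    rwa [this] at h2
  obtain ⟨g₀, h₀, hβ⟩ := Witness.exists_isUnit_beta_end (A := T') h2' b hspan hdet
    (Φ := RingHom.id T') (fun _ h => h) (t := fun g => φ (P g)) (fun g => htr g)
  exact annIncl_end_of_witness hker hCH hδ1 hδmul hc hδc h2 b htr hspan hβ

end Final

end Fermat.Agent.S32.Carayol.AbstractEnd
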