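/-
S32 / Carayol bookkeeping (helper27): **the finite levels `V ⧸ I V` as representations over `T ⧸ I`.**

Generic part (`R` a commutative ring, `M` an `R`-module with a finite basis `b`, `I` an ideal):
* `redEnd I : Module.End R M →+* Module.End (R ⧸ I) (M ⧸ I • ⊤)` (reduction of endomorphisms);
* `basisQ I b : Module.Basis ι (R ⧸ I) (M ⧸ I • ⊤)`;
* `toMatrix_redEnd`, `trace_redEnd`, `det_redEnd` : matrix / trace / determinant of the reduction are the
  reductions of the matrix / trace / determinant;
* `span_redEnd_eq_top` : if the `ρ g` span `End_R M` then the `redEnd (ρ g)` span `End_{R/I} (M/IM)`.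

Specialisation to `ρ : GaloisRepAdic A`: `levelRep ρ I : GQ →* Module.End (A ⧸ I) (ρ.V ⧸ I • ⊤)` with
`levelRep_apply : levelRep ρ I σ y = ρ.levelAction I σ y` (by `rfl`).
-/
import Mathlib
import Fermat.Prelude.Def_GaloisRep_Adic
import Fermat.Prelude.Def_GaloisRep_Flat

set_option autoImplicit false
set_option linter.unusedSectionVars false

namespace Fermat.Agent.S32.Carayol.LevelRep

section Generic

variable {R : Type*} [CommRing R] {M : Type*} [AddCommGroup M] [Module R M] (I : Ideal R)

theorem smul_top_le_comap (f : Module.End R M) :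
    I • (⊤ : Submodule R M) ≤ (I • (⊤ : Submodule R M)).comap f := by
  rw [← Submodule.map_le_iff_le_comap, Submodule.map_smul'']
  exact Submodule.smul_mono le_rfl le_top

/-- Reduction of an endomorphism modulo `I`, as an `R ⧸ I`-linear map. -/
def redEndFun (f : Module.End R M) : Module.End (R ⧸ I) (M ⧸ (I • (⊤ : Submodule R M))) where
  toFun := Submodule.mapQ _ _ f (smul_top_le_comap I f)
  map_add' := map_add _
  map_smul' := by
    intro c x
    obtain ⟨r, rfl⟩ := Ideal.Quotient.mk_surjective c
    induction x using Submodule.Quotient.induction_on with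
    | _ m =>
      rw [RingHom.id_apply, Module.Quotient.mk_smul_mk, Submodule.mapQ_apply, Submodule.mapQ_apply,
        Module.Quotient.mk_smul_mk, map_smul]

theorem redEndFun_mk (f : Module.End R M) (m : M) :
    redEndFun I f (Submodule.Quotient.mk m) = Submodule.Quotient.mk (f m) := rfl

/-- Reduction of endomorphisms modulo `I` as a ring homomorphism. -/
def redEnd : Module.End R M →+* Module.End (R ⧸ I) (M ⧸ (I • (⊤ : Submodule R M))) where
  toFun := redEndFun I
  map_one' := by
    refine LinearMap.ext fun x => ?_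
    induction x using Submodule.Quotient.induction_on with
    | _ m => rfl
  map_mul' f g := by
    refine LinearMap.ext fun x => ?_
    induction x using Submodule.Quotient.induction_on with
    | _ m => rfl
  map_zero' := by
    refine LinearMap.ext fun x => ?_
    induction x using Submodule.Quotient.induction_on with
    | _ m => rfl
  map_add' f g := by
    refine LinearMap.ext fun x => ?_
    induction x using Submodule.Quotient.induction_on with
    | _ m => rfl

theorem redEnd_mk (f : Module.End R M) (m : M) :
    redEnd I f (Submodule.Quotient.mk m) = Submodule.Quotient.mk (f m) := rfl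

theorem redEnd_smul (r : R) (f : Module.End R M) :
    redEnd I (r • f) = Ideal.Quotient.mk I r • redEnd I f := by
  refine LinearMap.ext fun x => ?_
  induction x using Submodule.Quotient.induction_on with
  | _ m => rfl

variable {ι : Type*} [Fintype ι] [DecidableEq ι] (b : Module.Basis ι R M)

/-- Coordinates modulo `I`. -/
noncomputable def reprQ : (M ⧸ (I • (⊤ : Submodule R M))) →ₗ[R] (ι → R ⧸ I) :=
  Submodule.liftQ _
    ((LinearMap.pi fun i => (Ideal.Quotient.mkₐ R I).toLinearMap ∘ₗ LinearMap.proj i) ∘ₗ
      (b.equivFun : M →ₗ[R] (ι → R)))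
    (by
      rw [Submodule.smul_le]
      intro r hr m _
      rw [LinearMap.mem_ker]
      funext i
      simp only [LinearMap.coe_comp, LinearEquiv.coe_coe, Function.comp_apply, map_smul,
        LinearMap.pi_apply, LinearMap.proj_apply, Pi.smul_apply, AlgHom.toLinearMap_apply,
        Ideal.Quotient.mkₐ_eq_mk, Pi.zero_apply]
      rw [Algebra.smul_def, Ideal.Quotient.algebraMap_eq, Ideal.Quotient.eq_zero_iff_mem.mpr hr,
        zero_mul])

theorem reprQ_mk (m : M) (i : ι) :
    reprQ I b (Submodule.Quotient.mk m) i = Ideal.Quotient.mk I (b.repr m i) := rfl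

/-- The basis of `M ⧸ I • ⊤` over `R ⧸ I` induced by a basis of `M`. -/
noncomputable def basisQ : Module.Basis ι (R ⧸ I) (M ⧸ (I • (⊤ : Submodule R M))) :=
  Module.Basis.ofEquivFun
    { toFun := reprQ I b
      map_add' := map_add _
      map_smul' := by
        intro c x
        obtain ⟨r, rfl⟩ := Ideal.Quotient.mk_surjective c
        induction x using Submodule.Quotient.induction_on with
        | _ m =>
          funext i
          rw [RingHom.id_apply, Module.Quotient.mk_smul_mk, reprQ_mk, Pi.smul_apply, reprQ_mk,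
            map_smul, Finsupp.smul_apply, smul_eq_mul, map_mul, smul_eq_mul]
      invFun := fun c => ∑ i, c i • Submodule.Quotient.mk (b i)
      left_inv := by
        intro x
        induction x using Submodule.Quotient.induction_on with
        | _ m =>
          simp only [reprQ_mk, Module.Quotient.mk_smul_mk]
          change ∑ x, (I • ⊤ : Submodule R M).mkQ (b.repr m x • b x) =
            (I • ⊤ : Submodule R M).mkQ m
          rw [← map_sum, b.sum_repr]
      right_inv := by
        intro c
        funext j
        have hc : ∀ i, ∃ r : R, Ideal.Quotient.mk I r = c i := fun i =>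
          Ideal.Quotient.mk_surjective (c i)
        choose r hr using hc
        simp only [← hr, Module.Quotient.mk_smul_mk]
        rw [map_sum, Finset.sum_apply]
        simp only [reprQ_mk, map_smul, Module.Basis.repr_self, Finsupp.smul_apply,
          Finsupp.single_apply, smul_eq_mul, mul_ite, mul_one, mul_zero]
        rw [Finset.sum_eq_single j]
        · rw [if_pos rfl]
        · intro i _ hij
          rw [if_neg hij, map_zero]
        · intro h; exact absurd (Finset.mem_univ j) h }

theorem basisQ_repr_mk (m : M) (i : ι) :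
    (basisQ I b).repr (Submodule.Quotient.mk m) i = Ideal.Quotient.mk I (b.repr m i) := rfl

theorem basisQ_apply (i : ι) : basisQ I b i = Submodule.Quotient.mk (b i) := by
  apply (basisQ I b).repr.injective
  ext j
  rw [Module.Basis.repr_self, basisQ_repr_mk, Module.Basis.repr_self, Finsupp.single_apply,
    Finsupp.single_apply]
  split_ifs <;> simp

/-- The matrix of the reduction is the reduction of the matrix. -/
theorem toMatrix_redEnd (f : Module.End R M) :
    LinearMap.toMatrix (basisQ I b) (basisQ I b) (redEnd I f) =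
      (LinearMap.toMatrix b b f).map (Ideal.Quotient.mk I) := by
  ext i j
  rw [LinearMap.toMatrix_apply, basisQ_apply, redEnd_mk, basisQ_repr_mk, Matrix.map_apply,
    LinearMap.toMatrix_apply]

include b in
theorem trace_redEnd (f : Module.End R M) :
    LinearMap.trace (R ⧸ I) _ (redEnd I f) = Ideal.Quotient.mk I (LinearMap.trace R M f) := by
  rw [LinearMap.trace_eq_matrix_trace (R ⧸ I) (basisQ I b), toMatrix_redEnd,
    LinearMap.trace_eq_matrix_trace R b]
  simp only [Matrix.trace, Matrix.diag_apply, Matrix.map_apply, map_sum]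

include b in
theorem det_redEnd (f : Module.End R M) :
    LinearMap.det (redEnd I f) = Ideal.Quotient.mk I (LinearMap.det f) := by
  rw [← LinearMap.det_toMatrix (basisQ I b), toMatrix_redEnd, ← LinearMap.det_toMatrix b,
    ← RingHom.mapMatrix_apply, ← RingHom.map_det]

include b in
/-- Reductions of a spanning family of endomorphisms span. -/
theorem span_redEnd_eq_top {Γ : Type*} (ρ : Γ → Module.End R M)
    (hspan : Submodule.span R (Set.range ρ) = ⊤) :
    Submodule.span (R ⧸ I) (Set.range fun g => redEnd I (ρ g)) = ⊤ := by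
  have key : ∀ ψ ∈ Submodule.span R (Set.range ρ),
      redEnd I ψ ∈ Submodule.span (R ⧸ I) (Set.range fun g => redEnd I (ρ g)) := by
    intro ψ hψ
    induction hψ using Submodule.span_induction with
    | mem x hx =>
      obtain ⟨g, rfl⟩ := hx
      exact Submodule.subset_span ⟨g, rfl⟩
    | zero => rw [map_zero]; exact zero_mem _
    | add x y _ _ hx hy => rw [map_add]; exact add_mem hx hy
    | smul r x _ hx => rw [redEnd_smul]; exact Submodule.smul_mem _ _ hx
  rw [eq_top_iff]
  intro φ _
  -- lift the matrix of `φ`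
  have hlift : ∀ i j, ∃ r : R, Ideal.Quotient.mk I r =
      LinearMap.toMatrix (basisQ I b) (basisQ I b) φ i j := fun i j =>
    Ideal.Quotient.mk_surjective _
  choose Y hY using hlift
  let ψ : Module.End R M := (LinearMap.toMatrix b b).symm (Matrix.of Y)
  have hφ : φ = redEnd I ψ := by
    apply (LinearMap.toMatrix (basisQ I b) (basisQ I b)).injective
    rw [toMatrix_redEnd, LinearEquiv.apply_symm_apply]
    ext i j
    rw [Matrix.map_apply, Matrix.of_apply, hY]
  rw [hφ]
  exact key ψ (by rw [hspan]; trivial)

end Generic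

section Adic

variable {A : Type} [CommRing A] [IsLocalRing A]

/-- The level `V ⧸ I V` of an adic Galois representation as a representation over `A ⧸ I`. -/
noncomputable def levelRep (ρ : GaloisRepAdic A) (I : Ideal A) :
    (AlgebraicClosure ℚ ≃ₐ[ℚ] AlgebraicClosure ℚ) →*
      Module.End (A ⧸ I) (ρ.V ⧸ (I • (⊤ : Submodule A ρ.V))) :=
  ((redEnd I : Module.End A ρ.V →+* _) : Module.End A ρ.V →* _).comp ρ.ρ

theorem levelRep_apply (ρ : GaloisRepAdic A) (I : Ideal A)
    (σ : AlgebraicClosure ℚ ≃ₐ[ℚ] AlgebraicClosure ℚ) (y : ρ.V ⧸ (I • (⊤ : Submodule A ρ.V))) :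
    levelRep ρ I σ y = ρ.levelAction I σ y := rfl

theorem levelRep_eq (ρ : GaloisRepAdic A) (I : Ideal A)
    (σ : AlgebraicClosure ℚ ≃ₐ[ℚ] AlgebraicClosure ℚ) : levelRep ρ I σ = redEnd I (ρ.ρ σ) := rfl

/-- A `Fin 2`-basis of the underlying module. -/
noncomputable def basisV (ρ : GaloisRepAdic A) : Module.Basis (Fin 2) A ρ.V :=
  Module.finBasisOfFinrankEq A ρ.V ρ.finrank_eq

/-- The induced `Fin 2`-basis of the level `V ⧸ I V` over `A ⧸ I`. -/
noncomputable def levelBasis (ρ : GaloisRepAdic A) (I : Ideal A) :
    Module.Basis (Fin 2) (A ⧸ I) (ρ.V ⧸ (I • (⊤ : Submodule A ρ.V))) :=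
  basisQ I (basisV ρ)

theorem trace_levelRep (ρ : GaloisRepAdic A) (I : Ideal A)
    (σ : AlgebraicClosure ℚ ≃ₐ[ℚ] AlgebraicClosure ℚ) :
    LinearMap.trace (A ⧸ I) _ (levelRep ρ I σ) = Ideal.Quotient.mk I (ρ.trace σ) :=
  trace_redEnd I (basisV ρ) (ρ.ρ σ)

theorem det_levelRep (ρ : GaloisRepAdic A) (I : Ideal A)
    (σ : AlgebraicClosure ℚ ≃ₐ[ℚ] AlgebraicClosure ℚ) :
    LinearMap.det (levelRep ρ I σ) = Ideal.Quotient.mk I ((ρ.det σ : Aˣ) : A) := by
  rw [levelRep_eq, det_redEnd I (basisV ρ)]
  rfl

theorem span_levelRep (ρ : GaloisRepAdic A) (I : Ideal A)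
    (hspan : Submodule.span A (Set.range ρ.ρ) = ⊤) :
    Submodule.span (A ⧸ I) (Set.range (levelRep ρ I)) = ⊤ :=
  span_redEnd_eq_top I (basisV ρ) (fun σ => ρ.ρ σ) hspan

/-- `2` stays a unit in the quotient. -/
theorem levelRep_isUnit_two (I : Ideal A) (h2 : IsUnit (2 : A)) : IsUnit (2 : A ⧸ I) := by
  have := h2.map (Ideal.Quotient.mk I)
  rwa [map_ofNat] at this

end Adic

end Fermat.Agent.S32.Carayol.LevelRep
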