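/-
S32 / Carayol bookkeeping (helper29): **the finite level of the Tate module.**

For `D : TateData p N` and `M : ℕ` put `W_M := D.T ⧸ p^M D.T` (a finite abelian group).  The
polynomial ring `R₀ = ℤ[X_ℓ : ℓ ∉ S, ℓ ∤ N]` acts on `W_M` through the Hecke operators (which commute
on `D.T`: `T_ℓ = Frob_ℓ + ℓ Frob_ℓ⁻¹` by Eichler–Shimura, and Galois commutes with Hecke), and the
Galois group acts `R₀`-linearly.

* `WM D M`, `redEnd D M : End (D.T) →+* End (WM D M)`, `finite_WM`;
* `heckeI`, `heckeI_comm`, `actT : R₀ →ₐ[ℤ] End D.T`, `actM : R₀ →+* End (WM D M)`, the instance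
  `moduleR₀ : Module R₀ (WM D M)`;
* `galM : Γ →* End_{ℤ_p} (WM D M)`, `galR : Γ →* End_{R₀} (WM D M)`;
* `f_polyAct` : the comparison map `D.f` intertwines the two polynomial actions;
* `aeval_mem_of_smul_eq_zero` : the congruence — a polynomial killing `W_M` maps into `𝔪 ^ n`
  (`S31Assembly.exists_pow_forall_aeval_mem`).
-/
import Mathlib
import Fermat.Agent.N4F.Adic.S31Assembly
import Fermat.Agent.N4.FrobDensity.CycloConj
import Fermat.Agent.S32.Carayol.Abstract

set_option autoImplicit false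

open Polynomial PadicInt

noncomputable section

namespace Fermat.Agent.S32.Carayol.TateLevel

open Fermat.Agent.N4F.Adic Fermat.Agent.N4F.Adic.S31Lattice Fermat.Agent.N4F.Adic.S31Assembly
  Fermat.Agent.N4.FrobDensity Fermat.Agent.N4F.Tors.Occurrence CuspForm

local notation "Qbar" => AlgebraicClosure ℚ
local notation "Γ" => (AlgebraicClosure ℚ ≃ₐ[ℚ] AlgebraicClosure ℚ)

variable {p N : ℕ} [hp : Fact p.Prime] [NeZero N] (D : TateData p N)

/-! ### The Hecke operators commute on the Tate module -/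

/-- Eichler–Shimura solved for the Hecke operator: `T_ℓ = Frob_ℓ + ℓ Frob_ℓ⁻¹`. -/
theorem exists_hecke_eq {ℓ : ℕ} (hℓ : ℓ.Prime) (hℓN : ¬ ℓ ∣ N) (hℓp : ℓ ≠ p) :
    ∃ φ : Γ, D.hecke ℓ = D.gal φ + (ℓ : ℤ_[p]) • D.gal φ⁻¹ := by
  obtain ⟨A, φ, hA, hφ⟩ := Fermat.Agent.S54.exists_isFrobeniusAt ℓ hℓ
  refine ⟨φ, ?_⟩
  have h := D.frob ℓ hℓ hℓN hℓp A hA φ hφ
  have h1 : D.gal φ * D.gal φ⁻¹ = 1 := by rw [← map_mul, mul_inv_cancel, map_one]
  have h2 : (D.gal φ * D.gal φ - D.hecke ℓ * D.gal φ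
      + (ℓ : ℤ_[p]) • (1 : Module.End ℤ_[p] D.T)) * D.gal φ⁻¹ = 0 := by rw [h, zero_mul]
  rw [add_mul, sub_mul, mul_assoc, h1, mul_one, mul_assoc, h1, mul_one, smul_mul_assoc,
    one_mul] at h2
  rw [← sub_eq_zero, ← neg_eq_zero, ← h2]
  abel

theorem hecke_commute {ℓ : ℕ} (hℓ : ℓ.Prime) (hℓN : ¬ ℓ ∣ N) (hℓp : ℓ ≠ p) (ℓ' : ℕ) :
    Commute (D.hecke ℓ) (D.hecke ℓ') := by
  obtain ⟨φ, hφ⟩ := exists_hecke_eq D hℓ hℓN hℓp
  rw [hφ]
  exact (D.gal_hecke φ ℓ').add_left ((D.gal_hecke φ⁻¹ ℓ').smul_left _)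

variable (S : Set ℕ)

open Classical in
/-- The Hecke operators indexed by `HeckeIdx N S` (set to `0` at `p`, which does not occur when
`p ∈ S`). -/
def heckeI (i : HeckeIdx N S) : Module.End ℤ_[p] D.T :=
  if i.1 = p then 0 else D.hecke i.1

theorem heckeI_eq (hpS : p ∈ S) (i : HeckeIdx N S) : heckeI D S i = D.hecke i.1 := by
  have : i.1 ≠ p := fun h => i.2.2.2 (h ▸ hpS)
  rw [heckeI, if_neg this]

theorem heckeI_comm (i j : HeckeIdx N S) : Commute (heckeI D S i) (heckeI D S j) := by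
  unfold heckeI
  split_ifs with h1 h2 h2
  · exact Commute.zero_left _
  · exact Commute.zero_left _
  · exact Commute.zero_right _
  · exact hecke_commute D i.2.1 i.2.2.1 h1 j.1

theorem gal_heckeI_commute (σ : Γ) (i : HeckeIdx N S) : Commute (D.gal σ) (heckeI D S i) := by
  unfold heckeI
  split_ifs
  · exact Commute.zero_right _
  · exact D.gal_hecke σ i.1

/-- The polynomial ring of the Hecke operators. -/
abbrev R₀ (N : ℕ) (S : Set ℕ) : Type := MvPolynomial (HeckeIdx N S) ℤ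

/-- The action of the polynomial ring on the Tate module. -/
def actT : R₀ N S →ₐ[ℤ] Module.End ℤ_[p] D.T :=
  polyAct (R := ℤ) (heckeI D S) (heckeI_comm D S)

@[simp] theorem actT_X (i : HeckeIdx N S) : actT D S (MvPolynomial.X i) = heckeI D S i :=
  polyAct_X _ _ i

theorem gal_actT_commute (σ : Γ) (P : R₀ N S) : Commute (D.gal σ) (actT D S P) := by
  induction P using MvPolynomial.induction_on with
  | C a =>
    have h1 : (MvPolynomial.C a : R₀ N S) = (a : R₀ N S) := by simp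
    rw [h1, map_intCast]
    exact Int.commute_cast _ _
  | add P Q hP hQ => rw [map_add]; exact hP.add_right hQ
  | mul_X P i hP => rw [map_mul, actT_X]; exact hP.mul_right (gal_heckeI_commute D S σ i)

/-- The comparison map `D.f` intertwines the polynomial actions on the lattice and on the Tate
module. -/
theorem f_polyAct (hpS : p ∈ S) (P : R₀ N S) (z : D.Λ) :
    D.f (polyAct (R := ℤ) (tI D S) (tI_comm D S) P z) = actT D S P (D.f z) := by
  induction P using MvPolynomial.induction_on generalizing z with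
  | C a =>
    have h1 : (MvPolynomial.C a : R₀ N S) = (a : R₀ N S) := by simp
    rw [h1, map_intCast, map_intCast, Module.End.intCast_apply, Module.End.intCast_apply,
      map_zsmul]
  | add P Q hP hQ =>
    rw [map_add, map_add, LinearMap.add_apply, LinearMap.add_apply, map_add, hP, hQ]
  | mul_X P i hP =>
    rw [map_mul, map_mul, polyAct_X, actT_X, Module.End.mul_apply, Module.End.mul_apply, hP,
      heckeI_eq D S hpS]
    congr 1
    exact D.f_t i.1 z

/-! ### Reduction modulo `p ^ M` -/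

variable (M : ℕ)

/-- The ideal `(p ^ M)` of `ℤ_[p]`. -/
abbrev JM (p : ℕ) [Fact p.Prime] (M : ℕ) : Ideal ℤ_[p] := Ideal.span {(p : ℤ_[p]) ^ M}

/-- The Tate module modulo `p ^ M`. -/
abbrev WM : Type := D.T ⧸ (JM p M • (⊤ : Submodule ℤ_[p] D.T))

theorem finite_quotient_JM : Finite (ℤ_[p] ⧸ JM p M) := by
  refine Finite.of_surjective
    (fun k : Fin (p ^ M) => Ideal.Quotient.mk (JM p M) ((k : ℕ) : ℤ_[p])) ?_
  intro x
  obtain ⟨x', rfl⟩ := Ideal.Quotient.mk_surjective x
  refine ⟨⟨x'.appr M, appr_lt x' M⟩, ?_⟩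
  rw [Ideal.Quotient.eq, ← neg_sub]
  exact neg_mem (appr_spec M x')

instance finite_WM : Finite (WM D M) := by
  have := finite_quotient_JM (p := p) M
  exact Module.finite_of_finite (ℤ_[p] ⧸ JM p M)

/-- The class of `w` in `W_M`. -/
abbrev mkM (w : D.T) : WM D M := Submodule.Quotient.mk w

theorem mkM_surjective : Function.Surjective (mkM D M) := Submodule.Quotient.mk_surjective _

theorem mkM_eq_zero {w : D.T} : mkM D M w = 0 ↔ w ∈ JM p M • (⊤ : Submodule ℤ_[p] D.T) :=
  Submodule.Quotient.mk_eq_zero _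

theorem mem_JM_smul_top {w : D.T} :
    w ∈ JM p M • (⊤ : Submodule ℤ_[p] D.T) ↔ ∃ w' : D.T, w = (p : ℤ_[p]) ^ M • w' := by
  rw [Submodule.ideal_span_singleton_smul, Submodule.mem_smul_pointwise_iff_exists]
  constructor
  · rintro ⟨w', -, h⟩; exact ⟨w', h.symm⟩
  · rintro ⟨w', h⟩; exact ⟨w', Submodule.mem_top, h.symm⟩

/-- Scalars in `(p ^ M)` kill `W_M`. -/
theorem smul_eq_zero_of_mem {a : ℤ_[p]} (ha : a ∈ JM p M) (x : WM D M) : a • x = 0 := by
  obtain ⟨w, rfl⟩ := mkM_surjective D M x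
  rw [← Submodule.Quotient.mk_smul, mkM_eq_zero]
  exact Submodule.smul_mem_smul ha Submodule.mem_top

/-- A `p`-adic integer acts on `W_M` as its `M`-th approximation. -/
theorem smul_eq_appr_nsmul (a : ℤ_[p]) (x : WM D M) : a • x = a.appr M • x := by
  have h := smul_eq_zero_of_mem D M (appr_spec M a) x
  rw [sub_smul, sub_eq_zero] at h
  rw [h, Nat.cast_smul_eq_nsmul]

/-- Reduction of endomorphisms modulo `p ^ M`. -/
def redEnd : Module.End ℤ_[p] D.T →+* Module.End ℤ_[p] (WM D M) where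
  toFun f := Submodule.mapQ _ _ f (by
    rw [← Submodule.map_le_iff_le_comap, Submodule.map_smul'']
    exact Submodule.smul_mono le_rfl le_top)
  map_one' := by
    refine LinearMap.ext fun x => ?_
    obtain ⟨w, rfl⟩ := mkM_surjective D M x
    rfl
  map_mul' f g := by
    refine LinearMap.ext fun x => ?_
    obtain ⟨w, rfl⟩ := mkM_surjective D M x
    rfl
  map_zero' := by
    refine LinearMap.ext fun x => ?_
    obtain ⟨w, rfl⟩ := mkM_surjective D M x
    rfl
  map_add' f g := by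
    refine LinearMap.ext fun x => ?_
    obtain ⟨w, rfl⟩ := mkM_surjective D M x
    rfl

@[simp] theorem redEnd_mk (f : Module.End ℤ_[p] D.T) (w : D.T) :
    redEnd D M f (mkM D M w) = mkM D M (f w) := rfl

theorem redEnd_smul (a : ℤ_[p]) (f : Module.End ℤ_[p] D.T) :
    redEnd D M (a • f) = a • redEnd D M f := by
  refine LinearMap.ext fun x => ?_
  obtain ⟨w, rfl⟩ := mkM_surjective D M x
  rfl

theorem redEnd_eq_zero_iff (f : Module.End ℤ_[p] D.T) :
    redEnd D M f = 0 ↔ f ∈ smallEnd (V := D.T) (JM p M) := by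
  constructor
  · intro h w
    have h1 := LinearMap.congr_fun h (mkM D M w)
    rw [redEnd_mk, LinearMap.zero_apply, mkM_eq_zero] at h1
    exact h1
  · intro h
    refine LinearMap.ext fun x => ?_
    obtain ⟨w, rfl⟩ := mkM_surjective D M x
    rw [redEnd_mk, LinearMap.zero_apply, mkM_eq_zero]
    exact h w

/-- The action of the polynomial ring on `W_M`. -/
def actM : R₀ N S →+* Module.End ℤ_[p] (WM D M) :=
  (redEnd D M).comp (actT D S).toRingHom

theorem actM_apply (P : R₀ N S) : actM D S M P = redEnd D M (actT D S P) := rfl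

/-- `W_M` as a module over the polynomial ring. -/
instance moduleR₀ : Module (R₀ N S) (WM D M) :=
  Module.compHom (WM D M) (actM D S M)

theorem smul_def (P : R₀ N S) (x : WM D M) : P • x = actM D S M P x := rfl

theorem smul_mk (P : R₀ N S) (w : D.T) : P • mkM D M w = mkM D M (actT D S P w) := rfl

theorem natCast_smul (n : ℕ) (x : WM D M) : ((n : R₀ N S)) • x = n • x := by
  rw [smul_def, map_natCast, Module.End.natCast_apply]

/-! ### The Galois action on `W_M` -/

/-- The Galois action on `W_M`, `ℤ_[p]`-linear. -/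
def galM : Γ →* Module.End ℤ_[p] (WM D M) :=
  ((redEnd D M : Module.End ℤ_[p] D.T →* Module.End ℤ_[p] (WM D M))).comp D.gal

@[simp] theorem galM_mk (σ : Γ) (w : D.T) : galM D M σ (mkM D M w) = mkM D M (D.gal σ w) := rfl

theorem galM_actM_commute (σ : Γ) (P : R₀ N S) : Commute (galM D M σ) (actM D S M P) :=
  (gal_actT_commute D S σ P).map (redEnd D M)

/-- The Galois action on `W_M`, linear over the polynomial ring. -/
def galR : Γ →* Module.End (R₀ N S) (WM D M) where
  toFun σ :=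
    { toFun := galM D M σ
      map_add' := map_add _
      map_smul' := fun P x => by
        rw [RingHom.id_apply, smul_def, smul_def]
        exact LinearMap.congr_fun (galM_actM_commute D S M σ P).eq x }
  map_one' := by
    refine LinearMap.ext fun x => ?_
    change galM D M 1 x = x
    rw [map_one, Module.End.one_apply]
  map_mul' σ τ := by
    refine LinearMap.ext fun x => ?_
    change galM D M (σ * τ) x = galM D M σ (galM D M τ x)
    rw [map_mul, Module.End.mul_apply]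

@[simp] theorem galR_apply (σ : Γ) (x : WM D M) : galR D S M σ x = galM D M σ x := rfl

/-! ### The congruence -/

/-- A polynomial acting as `0` on `W_M` acts on the lattice with values in `p ^ M`. -/
theorem exists_f_polyAct_eq_of_smul_eq_zero (hpS : p ∈ S) (P : R₀ N S)
    (hP : ∀ x : WM D M, P • x = 0) (z : D.Λ) :
    ∃ w : D.T, D.f (polyAct (R := ℤ) (tI D S) (tI_comm D S) P z) = (p : ℤ_[p]) ^ M • w := by
  rw [f_polyAct D S hpS]
  have h1 := hP (mkM D M (D.f z))
  rw [smul_mk, mkM_eq_zero, mem_JM_smul_top] at h1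
  exact h1

/-! ### The cyclotomic character modulo `p ^ M` -/

/-- The integer approximating the cyclotomic character modulo `p ^ M`, in the polynomial ring. -/
def δM (p N : ℕ) [Fact p.Prime] (S : Set ℕ) (M : ℕ) (g : Γ) : R₀ N S :=
  ((((cycloCharAdic p g : ℤ_[p]ˣ) : ℤ_[p]).appr M : ℕ) : R₀ N S)

theorem δM_smul (g : Γ) (x : WM D M) :
    δM p N S M g • x = ((cycloCharAdic p g : ℤ_[p]ˣ) : ℤ_[p]) • x := by
  rw [δM, natCast_smul, smul_eq_appr_nsmul]

theorem δM_one_smul (x : WM D M) : δM p N S M 1 • x = x := by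
  rw [δM_smul, map_one, Units.val_one, one_smul]

theorem δM_mul_smul (g h : Γ) (x : WM D M) :
    δM p N S M (g * h) • x = δM p N S M g • δM p N S M h • x := by
  rw [δM_smul, δM_smul, δM_smul, map_mul, Units.val_mul, mul_smul]

theorem δM_conj_smul (x : WM D M) : δM p N S M complexConjugation • x = -x := by
  rw [δM_smul, cycloCharAdic_complexConjugation, Units.val_neg, Units.val_one, neg_smul, one_smul]

/-! ### Cayley–Hamilton on `W_M` -/

/-- If `gal g + χ(g) gal g⁻¹` is congruent to the Dickson polynomial `D_m(T_ℓ, ℓ)` modulo `p ^ M`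
on the Tate module, then the corresponding identity holds on `W_M`. -/
theorem galR_add_δM_smul (hpS : p ∈ S) (g : Γ) (i : HeckeIdx N S) (m : ℕ)
    (hW : opW D g - dseq (D.hecke i.1) i.1 m ∈ smallEnd (V := D.T) (JM p M)) :
    galR D S M g + δM p N S M g • galR D S M g⁻¹
      = (dseq (MvPolynomial.X i : R₀ N S) i.1 m) • (1 : Module.End (R₀ N S) (WM D M)) := by
  refine LinearMap.ext fun x => ?_
  obtain ⟨w, rfl⟩ := mkM_surjective D M x
  rw [LinearMap.add_apply, LinearMap.smul_apply, LinearMap.smul_apply, Module.End.one_apply,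
    galR_apply, galR_apply, galM_mk, galM_mk, δM_smul, smul_mk, map_dseq, actT_X,
    heckeI_eq D S hpS, ← Submodule.Quotient.mk_smul, ← Submodule.Quotient.mk_add,
    Submodule.Quotient.eq]
  have h := hW w
  rw [LinearMap.sub_apply] at h
  exact h

/-! ### `2` is a unit -/

/-- In a local ring of odd residue characteristic `2` is a unit. -/
theorem isUnit_two_of_mem_maximalIdeal {R : Type*} [CommRing R] [IsLocalRing R] (hp2 : p ≠ 2)
    (hpR : (p : R) ∈ IsLocalRing.maximalIdeal R) : IsUnit (2 : R) := by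
  by_contra h2
  have h2m : (2 : R) ∈ IsLocalRing.maximalIdeal R := (IsLocalRing.mem_maximalIdeal _).mpr h2
  obtain ⟨k, hk⟩ := (hp.out.eq_two_or_odd'.resolve_left hp2)
  have h1 : (1 : R) = (p : R) - 2 * (k : R) := by
    rw [hk]; push_cast; ring
  have h3 : (1 : R) ∈ IsLocalRing.maximalIdeal R := by
    rw [h1]
    exact Ideal.sub_mem _ hpR (Ideal.mul_mem_right _ _ h2m)
  exact (Ideal.ne_top_iff_one _).mp (IsLocalRing.maximalIdeal.isMaximal R).ne_top h3

/-! ### The annihilator inclusion -/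

section Main

local instance isAlgebraicQbar_TL : Algebra.IsAlgebraic ℚ (AlgebraicClosure ℚ) :=
  AlgebraicClosure.isAlgebraic ℚ
local instance isAlgClosureQbar_TL : IsAlgClosure ℚ (AlgebraicClosure ℚ) :=
  ⟨inferInstance, inferInstance⟩
local instance normalQbar_TL : Normal ℚ (AlgebraicClosure ℚ) :=
  IsAlgClosure.normal ℚ (AlgebraicClosure ℚ)

variable (S : Finset ℕ) {R : Type} [CommRing R] [IsLocalRing R]
  (hpS : p ∈ S) (hNS : ∀ q : ℕ, q.Prime → q ∣ N → q ∈ S)
  (π : heckeAlgebra N 2 (↑S : Set ℕ) →+* R) (ρ : GaloisRepAdic R)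
  (hfrob : ∀ (ℓ : ℕ) (hℓ : ℓ.Prime) (hℓN : ¬ ℓ ∣ N) (hℓS : ℓ ∉ (↑S : Set ℕ)),
    ∀ A : ValuationSubring Qbar, A.LiesOverPrime ℓ → ∀ σ : Γ, A.IsFrobeniusAt σ ℓ →
      LinearMap.charpoly (ρ.ρ σ) = X ^ 2 - C (π (heckeAlgebra.T hℓ hℓN hℓS)) * X + C ((ℓ : R)))

include hpS hNS hfrob in
/-- **The annihilator inclusion at a finite level.**  For every proper ideal `I` of finite colength
there is `M` such that every integral formal sum `∑ nᵢ gᵢ` killing `W_M = D.T / p ^ M` kills
`(R ⧸ I)²` through any matrix representation `ρ'` with the traces of `ρ` modulo `I`, spanning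
image and an irreducibility witness at complex conjugation. -/
theorem exists_annIncl_mulVec (hp2 : p ≠ 2) (hpR : (p : R) ∈ IsLocalRing.maximalIdeal R)
    (I : Ideal R) [Finite (R ⧸ I)] (hI : I ≠ ⊤)
    (ρ' : Γ →* Matrix (Fin 2) (Fin 2) (R ⧸ I))
    (htr : ∀ g, (ρ' g).trace = Ideal.Quotient.mk I (LinearMap.trace R ρ.V (ρ.ρ g)))
    (hspan : Submodule.span (R ⧸ I) (Set.range ρ') = ⊤)
    (hwit : ∃ g₀ h₀ : Γ,
      IsUnit (CHCore.beta (fun g => (ρ' g).trace) complexConjugation g₀ h₀)) :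
    ∃ M : ℕ, RegEmbed.AnnIncl (fun (g : Γ) (x : WM D M) => galM D M g x)
      (fun (g : Γ) (v : Fin 2 → R ⧸ I) => (ρ' g).mulVec v) := by
  classical
  have hnt : Nontrivial (R ⧸ I) := Ideal.Quotient.nontrivial_iff.mpr hI
  have hloc : IsLocalRing (R ⧸ I) :=
    IsLocalRing.of_surjective' (Ideal.Quotient.mk I) Ideal.Quotient.mk_surjective
  obtain ⟨n', hn'⟩ := IsLocalRing.exists_maximalIdeal_pow_le_of_isArtinianRing_quotient I
  obtain ⟨M, hM⟩ := exists_pow_forall_aeval_mem D (↑S : Set ℕ) (IsLocalRing.maximalIdeal R) hpR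
    π n'
  refine ⟨M, ?_⟩
  -- the level
  obtain ⟨L, hfd, hn, h₁, h₂, h₃⟩ := exists_normal_level_of_pred₃
    (fun σ => D.gal σ - 1 ∈ smallEnd (V := D.T) (JM p M))
    (fun σ => ((cycloCharAdic p σ : ℤ_[p]ˣ) : ℤ_[p]) - 1 ∈ JM p M)
    (fun σ => ρ.ρ σ - 1 ∈ smallEnd (V := ρ.V) (IsLocalRing.maximalIdeal R ^ n'))
    (by
      obtain ⟨L, hL, h⟩ := D.cont M
      refine ⟨L, hL, fun σ hσ v => ?_⟩
      obtain ⟨w, hw⟩ := h σ hσ v
      rw [LinearMap.sub_apply, Module.End.one_apply, hw]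
      exact Submodule.smul_mem_smul (Ideal.mem_span_singleton_self _) Submodule.mem_top)
    (cycloCharAdic_continuous p M)
    (by
      obtain ⟨L, hL, h⟩ := ρ.isAdicContinuous n'
      exact ⟨L, hL, fun σ hσ v => by
        rw [LinearMap.sub_apply, Module.End.one_apply]
        exact h σ hσ v⟩)
  -- approximation by Frobenius powers
  choose i m hW hR using fun g : Γ =>
    exists_approx D S hpS hNS π ρ hfrob L (JM p M) (IsLocalRing.maximalIdeal R ^ n') h₁ h₂ h₃ g
  -- the homomorphism to `R ⧸ I`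
  obtain ⟨φ₀, hφ₀⟩ : ∃ φ₀ : R₀ N (↑S : Set ℕ) →+* R ⧸ I,
      ∀ P, φ₀ P = Ideal.Quotient.mk I (π (MvPolynomial.aeval (TI (↑S : Set ℕ)) P)) :=
    ⟨(Ideal.Quotient.mk I).comp (π.comp (MvPolynomial.aeval (TI (↑S : Set ℕ))).toRingHom),
      fun P => rfl⟩
  have hker : ∀ r : R₀ N (↑S : Set ℕ), (∀ x : WM D M, r • x = 0) → φ₀ r = 0 := by
    intro r hr
    rw [hφ₀, Ideal.Quotient.eq_zero_iff_mem]
    exact hn' (hM r (exists_f_polyAct_eq_of_smul_eq_zero D (↑S : Set ℕ) M
      (Finset.mem_coe.mpr hpS) r hr))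
  -- the traces
  have htr' : ∀ g, (ρ' g).trace
      = φ₀ (dseq (MvPolynomial.X (i g) : R₀ N (↑S : Set ℕ)) (i g).1 (m g)) := by
    intro g
    rw [htr, hφ₀, map_dseq, MvPolynomial.aeval_X, map_dseq, dseq_eq_dicksonSeq, Ideal.Quotient.eq]
    exact hn' (hR g)
  obtain ⟨g₀, h₀, hβ⟩ := hwit
  have hβ' : IsUnit (CHCore.beta (fun g => φ₀ (dseq (MvPolynomial.X (i g) :
      R₀ N (↑S : Set ℕ)) (i g).1 (m g))) complexConjugation g₀ h₀) := by
    have h4 : (fun g => φ₀ (dseq (MvPolynomial.X (i g) : R₀ N (↑S : Set ℕ)) (i g).1 (m g)))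
        = fun g => (ρ' g).trace := funext fun g => (htr' g).symm
    rw [h4]
    exact hβ
  have h2 : IsUnit (φ₀ 2) := by
    rw [map_ofNat]
    exact (isUnit_two_of_mem_maximalIdeal hp2 hpR).map (Ideal.Quotient.mk I)
  exact Abstract.annIncl_mulVec (gal := galR D (↑S : Set ℕ) M)
    (P := fun g => dseq (MvPolynomial.X (i g) : R₀ N (↑S : Set ℕ)) (i g).1 (m g))
    (δ := δM p N (↑S : Set ℕ) M) (φ := φ₀) hker
    (fun g => galR_add_δM_smul D (↑S : Set ℕ) M (Finset.mem_coe.mpr hpS) g (i g) (m g) (hW g))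
    (δM_one_smul D (↑S : Set ℕ) M) (δM_mul_smul D (↑S : Set ℕ) M) complexConjugation_mul_self
    (δM_conj_smul D (↑S : Set ℕ) M) h2 htr' hspan hβ'

end Main

end Fermat.Agent.S32.Carayol.TateLevel
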