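/-
S32 / Carayol bookkeeping (helper29): **the annihilator inclusion `W_M → V ⧸ I V`.**

For `D : TateData p N`, a rank-two `ρ : GaloisRepAdic R` over a local ring with
`charpoly ρ(Frob_ℓ) = X² - π(T_ℓ) X + ℓ`, absolutely irreducible residual representation and
`det ρ(c) = -1`, and a proper ideal `I` of finite colength, there is `M` such that every integral
formal sum `∑ nᵢ gᵢ` killing `W_M = D.T ⧸ p^M` kills `V ⧸ I V` (`exists_annIncl_level`).

`exists_level_data` isolates the data fed to the abstract theorem `AbstractEnd.annIncl_end`: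
the level `M`, the homomorphism `φ₀ : ℤ[X_ℓ] → R ⧸ I`, the polynomials `P g`.
-/
import Mathlib
import Fermat.Agent.S32.Carayol.TateLevel
import Fermat.Agent.S32.Carayol.AbstractEnd
import Fermat.Agent.S32.Carayol.LevelRep
import Fermat.Agent.N4F.Adic.TraceRigidity

set_option autoImplicit false

open Polynomial PadicInt

noncomputable section

namespace Fermat.Agent.S32.Carayol.TateLevelEnd

open Fermat.Agent.N4F.Adic Fermat.Agent.N4F.Adic.S31Lattice Fermat.Agent.N4F.Adic.S31Assembly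
  Fermat.Agent.N4.FrobDensity Fermat.Agent.N4F.Tors.Occurrence CuspForm
  Fermat.Agent.S32.Carayol.TateLevel

local notation "Qbar" => AlgebraicClosure ℚ
local notation "Γ" => (AlgebraicClosure ℚ ≃ₐ[ℚ] AlgebraicClosure ℚ)

local instance isAlgebraicQbar_TLE : Algebra.IsAlgebraic ℚ (AlgebraicClosure ℚ) :=
  AlgebraicClosure.isAlgebraic ℚ
local instance isAlgClosureQbar_TLE : IsAlgClosure ℚ (AlgebraicClosure ℚ) :=
  ⟨inferInstance, inferInstance⟩
local instance normalQbar_TLE : Normal ℚ (AlgebraicClosure ℚ) :=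
  IsAlgClosure.normal ℚ (AlgebraicClosure ℚ)

variable {p N : ℕ} [hp : Fact p.Prime] [NeZero N] (D : TateData p N)
  (S : Finset ℕ) {R : Type} [CommRing R] [IsLocalRing R]
  (hpS : p ∈ S) (hNS : ∀ q : ℕ, q.Prime → q ∣ N → q ∈ S)
  (π : heckeAlgebra N 2 (↑S : Set ℕ) →+* R) (ρ : GaloisRepAdic R)
  (hfrob : ∀ (ℓ : ℕ) (hℓ : ℓ.Prime) (hℓN : ¬ ℓ ∣ N) (hℓS : ℓ ∉ (↑S : Set ℕ)),
    ∀ A : ValuationSubring Qbar, A.LiesOverPrime ℓ → ∀ σ : Γ, A.IsFrobeniusAt σ ℓ →
      LinearMap.charpoly (ρ.ρ σ) = X ^ 2 - C (π (heckeAlgebra.T hℓ hℓN hℓS)) * X + C ((ℓ : R)))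

include hpS hNS hfrob in
/-- **The level data.**  For a proper ideal `I` of finite colength: a level `M`, a homomorphism
`φ₀ : ℤ[X_ℓ] → R ⧸ I` killing the annihilator of `W_M`, and polynomials `P g` with
`gal g + χ(g) gal g⁻¹ = P g` on `W_M` and `φ₀ (P g) = tr ρ(g) mod I`. -/
theorem exists_level_data (hpR : (p : R) ∈ IsLocalRing.maximalIdeal R)
    (I : Ideal R) [Finite (R ⧸ I)] (hI : I ≠ ⊤) :
    ∃ (M : ℕ) (φ₀ : R₀ N (↑S : Set ℕ) →+* R ⧸ I) (P : Γ → R₀ N (↑S : Set ℕ)),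
      (∀ r : R₀ N (↑S : Set ℕ), (∀ x : WM D M, r • x = 0) → φ₀ r = 0) ∧
      (∀ g : Γ, galR D (↑S : Set ℕ) M g + δM p N (↑S : Set ℕ) M g • galR D (↑S : Set ℕ) M g⁻¹
        = P g • (1 : Module.End (R₀ N (↑S : Set ℕ)) (WM D M))) ∧
      (∀ g : Γ, φ₀ (P g) = Ideal.Quotient.mk I (LinearMap.trace R ρ.V (ρ.ρ g))) := by
  classical
  have hnt : Nontrivial (R ⧸ I) := Ideal.Quotient.nontrivial_iff.mpr hI
  obtain ⟨n', hn'⟩ := IsLocalRing.exists_maximalIdeal_pow_le_of_isArtinianRing_quotient I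
  obtain ⟨M, hM⟩ := exists_pow_forall_aeval_mem D (↑S : Set ℕ) (IsLocalRing.maximalIdeal R) hpR
    π n'
  -- the level
  obtain ⟨L, hfd, hn, h₁, h₂, h₃⟩ := exists_normal_level_of_pred₃
    (fun σ => D.gal σ - 1 ∈ smallEnd (V := D.T) (JM p M))
    (fun σ => ((cycloCharAdic p σ : ℤ_[p]ˣ) : ℤ_[p]) - 1 ∈ JM p M)
    (fun σ => ρ.ρ σ - 1 ∈ smallEnd (V := ρ.V) (IsLocalRing.maximalIdeal R ^ n'))
    (by
      obtain ⟨L, hL, h⟩ := D.cont M
      refine ⟨L, hL, fun σ hσ v => ?_⟩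
      obtain ⟨w, hw⟩ := h σ hσ v
      rw [LinearMap.sub_apply, Module.End.one_apply, hw]
      exact Submodule.smul_mem_smul (Ideal.mem_span_singleton_self _) Submodule.mem_top)
    (cycloCharAdic_continuous p M)
    (by
      obtain ⟨L, hL, h⟩ := ρ.isAdicContinuous n'
      exact ⟨L, hL, fun σ hσ v => by
        rw [LinearMap.sub_apply, Module.End.one_apply]
        exact h σ hσ v⟩)
  -- approximation by Frobenius powers
  choose i m hW hR using fun g : Γ =>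
    exists_approx D S hpS hNS π ρ hfrob L (JM p M) (IsLocalRing.maximalIdeal R ^ n') h₁ h₂ h₃ g
  -- the homomorphism to `R ⧸ I`
  obtain ⟨φ₀, hφ₀⟩ : ∃ φ₀ : R₀ N (↑S : Set ℕ) →+* R ⧸ I,
      ∀ P, φ₀ P = Ideal.Quotient.mk I (π (MvPolynomial.aeval (TI (↑S : Set ℕ)) P)) :=
    ⟨(Ideal.Quotient.mk I).comp (π.comp (MvPolynomial.aeval (TI (↑S : Set ℕ))).toRingHom),
      fun P => rfl⟩
  refine ⟨M, φ₀, fun g => dseq (MvPolynomial.X (i g) : R₀ N (↑S : Set ℕ)) (i g).1 (m g),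
    ?_, ?_, ?_⟩
  · intro r hr
    rw [hφ₀, Ideal.Quotient.eq_zero_iff_mem]
    exact hn' (hM r (exists_f_polyAct_eq_of_smul_eq_zero D (↑S : Set ℕ) M
      (Finset.mem_coe.mpr hpS) r hr))
  · exact fun g =>
      galR_add_δM_smul D (↑S : Set ℕ) M (Finset.mem_coe.mpr hpS) g (i g) (m g) (hW g)
  · intro g
    rw [hφ₀, map_dseq, MvPolynomial.aeval_X, map_dseq, dseq_eq_dicksonSeq, eq_comm,
      Ideal.Quotient.eq]
    exact hn' (hR g)

include hpS hNS hfrob in
/-- **The annihilator inclusion `W_M → V ⧸ I V`.** -/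
theorem exists_annIncl_level (hp2 : p ≠ 2) (hpR : (p : R) ∈ IsLocalRing.maximalIdeal R)
    (habs : ρ.residual.IsAbsolutelyIrreducible)
    (hdetc : LinearMap.det (ρ.ρ complexConjugation) = -1)
    (I : Ideal R) [Finite (R ⧸ I)] (hI : I ≠ ⊤) :
    ∃ M : ℕ, RegEmbed.AnnIncl (fun (g : Γ) (x : WM D M) => galM D M g x)
      (fun (g : Γ) (y : ρ.V ⧸ (I • (⊤ : Submodule R ρ.V))) => ρ.levelAction I g y) := by
  have hnt : Nontrivial (R ⧸ I) := Ideal.Quotient.nontrivial_iff.mpr hI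
  have hloc : IsLocalRing (R ⧸ I) :=
    IsLocalRing.of_surjective' (Ideal.Quotient.mk I) Ideal.Quotient.mk_surjective
  obtain ⟨M, φ₀, P, hker, hCH, hφP⟩ := exists_level_data D S hpS hNS π ρ hfrob hpR I hI
  refine ⟨M, ?_⟩
  have h2 : IsUnit (φ₀ 2) := by
    rw [map_ofNat]
    exact LevelRep.levelRep_isUnit_two I (isUnit_two_of_mem_maximalIdeal hp2 hpR)
  have htr : ∀ g, LinearMap.trace (R ⧸ I) _ (LevelRep.levelRep ρ I g) = φ₀ (P g) := by
    intro g
    rw [LevelRep.trace_levelRep, hφP]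
    rfl
  have hspan := LevelRep.span_levelRep ρ I (TraceRigidity.span_range_eq_top ρ habs)
  have hdet : LinearMap.det (LevelRep.levelRep ρ I complexConjugation) = -1 := by
    rw [LevelRep.det_levelRep]
    have h1 : ((ρ.det complexConjugation : Rˣ) : R) = -1 := hdetc
    rw [h1, map_neg, map_one]
  have key := AbstractEnd.annIncl_end (gal := galR D (↑S : Set ℕ) M) (P := P)
    (δ := δM p N (↑S : Set ℕ) M) (φ := φ₀) hker hCH
    (δM_one_smul D (↑S : Set ℕ) M) (δM_mul_smul D (↑S : Set ℕ) M) complexConjugation_mul_self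
    (δM_conj_smul D (↑S : Set ℕ) M) h2 (LevelRep.levelBasis ρ I) htr hspan hdet
  intro a ha v
  exact key a (fun x => ha x) v

end Fermat.Agent.S32.Carayol.TateLevelEnd
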