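/-
S32 / Carayol bookkeeping (helper29): **the assembly.**

`H.ρ.IsFlatAt p` for a Hecke–Galois datum `H` (statement S32), from Hopf orders on the torsion
groups `J₀(N)[p^k]` (the output of S19; hypothesis `hS19`).

* `tateD p N : TateData p N` : the concrete Tate data (`(tateD p N).T = TJ p N` definitionally);
* `annIncl_tors_level` : for `I` proper of finite colength there is `M` such that every integral
  formal sum killing `J₀(N)[p^M]` kills `V ⧸ I V`  (`TateLevelEnd.exists_annIncl_level` +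
  `TorsBridge`);
* `hasHopfOrder_level` : `V ⧸ I V` carries a Hopf order (`RegEmbed.transfer` + `Base.Stability`);
* `isFlatAt` : statement S32 modulo `hS19`.
-/
import Mathlib
import Fermat.Prelude.Def_CuspForm_HeckeGaloisRepDatum
import Fermat.Prelude.Def_GaloisRep_Flat
import Fermat.Agent.S19.Abs.FlatAt
import Fermat.Agent.S19.Abs.Torsion
import Fermat.Agent.S19.Base.Stability
import Fermat.Agent.S19.Base.Quotient
import Fermat.Agent.S32.Carayol.TateLevelEnd
import Fermat.Agent.S32.Carayol.TorsBridge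
import Fermat.Agent.S32.Carayol.DetConj
import Fermat.Agent.S32.Carayol.FiniteLevel
import Fermat.Agent.N4F.Adic.S30Cond
import Fermat.Agent.N4F.Res.BlocksFinal
import Fermat.Agent.N4F.E.AlphaSideFinal
import Fermat.Agent.N4F.Tors.KummerPlug

set_option autoImplicit false

open Polynomial PadicInt CuspForm

noncomputable section

namespace Fermat.Agent.S32.Carayol.Assembly

open Fermat.Agent.N4F.Adic Fermat.Agent.N4F.Adic.TateJ Fermat.Agent.N4F.Adic.TateModule
  Fermat.Agent.S19.Abs Fermat.Agent.S19.Base Fermat.Agent.S32.Carayol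
  Fermat.Agent.S32.Carayol.TateLevel

local notation "Qbar" => AlgebraicClosure ℚ
local notation "Γ" => (AlgebraicClosure ℚ ≃ₐ[ℚ] AlgebraicClosure ℚ)

/-! ### The concrete Tate data -/

section TateD

variable (p N : ℕ) [hp : Fact p.Prime] [NeZero N]

/-- The Tate data of `J₀(N)` at `p`, with carrier `TJ p N`. -/
def tateD : TateData p N :=
  TateDataInst.tateData p N
    (S30Cond.torsionFinite_of_all N
      (S30Cond.kummerPackageAll_of_bar N (Fermat.Agent.N4F.Tors.KummerPlug.kummerPackageAll N)))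
    ((Fermat.Agent.N4F.Res.BlocksFinal.blocks_of_charpolyForm
      Fermat.Agent.N4F.E.AlphaSideFinal.alphaCharpolyForm).inputs N).esOnTorsionAll
    (S30Cond.lambdaSystem N p
      (S30Cond.kummerPackageAll_of_bar N (Fermat.Agent.N4F.Tors.KummerPlug.kummerPackageAll N)))
    (S30Cond.heckeFaithful N)

theorem tateD_gal (σ : Γ) (w : TJ p N) : (tateD p N).gal σ w = gal p N σ w := rfl

/-- A formal sum mapping the Tate module into `p ^ M` kills `W_M`. -/
theorem fsum_galM_eq_zero (M : ℕ) (a : Γ →₀ ℤ)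
    (ha : ∀ w : TJ p N, ∃ w' : TJ p N,
      RegEmbed.fsum (TorsBridge.galAct p N) w a = (p : ℤ_[p]) ^ M • w')
    (x : WM (tateD p N) M) :
    RegEmbed.fsum (fun (g : Γ) (x : WM (tateD p N) M) => galM (tateD p N) M g x) x a = 0 := by
  obtain ⟨w, rfl⟩ := mkM_surjective (tateD p N) M x
  have h1 := Abstract.map_fsum (actZ := TorsBridge.galAct p N)
    (actM := fun (g : Γ) (x : WM (tateD p N) M) => galM (tateD p N) M g x)
    ((Submodule.mkQ (JM p M • (⊤ : Submodule ℤ_[p] (TJ p N)))).toAddMonoidHom)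
    (fun σ z => rfl) w a
  obtain ⟨w', hw'⟩ := ha w
  rw [hw'] at h1
  refine h1.symm.trans ?_
  exact (mkM_eq_zero (tateD p N) M).mpr ((mem_JM_smul_top (tateD p N) M).mpr ⟨w', rfl⟩)

end TateD

/-! ### The annihilator inclusion from the torsion to the levels -/

section Level

variable {p N : ℕ} [hp : Fact p.Prime] [NeZero N] (S : Finset ℕ)
  {R : Type} [CommRing R] [IsLocalRing R] [IsNoetherianRing R]
  (hpS : p ∈ S) (hNS : ∀ q : ℕ, q.Prime → q ∣ N → q ∈ S)
  (π : heckeAlgebra N 2 (↑S : Set ℕ) →+* R) (ρ : GaloisRepAdic R)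
  (hfrob : ∀ (ℓ : ℕ) (hℓ : ℓ.Prime) (hℓN : ¬ ℓ ∣ N) (hℓS : ℓ ∉ (↑S : Set ℕ)),
    ∀ A : ValuationSubring Qbar, A.LiesOverPrime ℓ → ∀ σ : Γ, A.IsFrobeniusAt σ ℓ →
      LinearMap.charpoly (ρ.ρ σ) = X ^ 2 - C (π (heckeAlgebra.T hℓ hℓN hℓS)) * X + C ((ℓ : R)))

include hpS hNS hfrob in
/-- For a proper ideal `I` of finite colength there is `M` such that every integral formal sum
killing `J₀(N)[p^M]` kills `V ⧸ I V`. -/
theorem annIncl_tors_level (hp2 : p ≠ 2) (hpR : (p : R) ∈ IsLocalRing.maximalIdeal R)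
    (habs : ρ.residual.IsAbsolutelyIrreducible) (I : Ideal R) [Finite (R ⧸ I)] (hI : I ≠ ⊤) :
    ∃ M : ℕ, RegEmbed.AnnIncl (torsAct N p M) (levelAct ρ I) := by
  have hdetc := DetConj.det_complexConjugation S hpS hNS π ρ hfrob hpR
  obtain ⟨M, hM⟩ := TateLevelEnd.exists_annIncl_level (tateD p N) S hpS hNS π ρ hfrob hp2 hpR
    habs hdetc I hI
  refine ⟨M, TorsBridge.annIncl_tors_of_tate p N (levelAct ρ I) M fun a ha v => ?_⟩
  exact hM a (fsum_galM_eq_zero p N M a ha) v

include hpS hNS hfrob in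
/-- Every finite level `V ⧸ I V` carries a Hopf order, given Hopf orders on the `J₀(N)[p^k]`. -/
theorem hasHopfOrder_level (hS19 : ∀ k : ℕ, HasHopfOrder p (torsAct N p k))
    (hp2 : p ≠ 2) (hpR : (p : R) ∈ IsLocalRing.maximalIdeal R)
    (habs : ρ.residual.IsAbsolutelyIrreducible) (I : Ideal R) [Finite (R ⧸ I)] :
    HasHopfOrder p (levelAct ρ I) := by
  by_cases hI : I = ⊤
  · have := FiniteLevel.subsingleton_level (M := ρ.V) I hI
    exact hasHopfOrder_of_subsingleton _
  obtain ⟨M, hann⟩ := annIncl_tors_level S hpS hNS π ρ hfrob hp2 hpR habs I hI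
  have hfinZ : Finite (Tors N p M) := finite_tors N p M hp.out.pos
  have hfinM : Finite (ρ.V ⧸ (I • (⊤ : Submodule R ρ.V))) := finite_level ρ I
  have hZ : RegEmbed.IsAddAct (torsAct N p M) :=
    ⟨(isGalAction_torsAct N p M).one, (isGalAction_torsAct N p M).mul,
      (isGalAction_torsAct N p M).add⟩
  have hM : RegEmbed.IsAddAct (levelAct ρ I) :=
    ⟨(isGalAction_levelAct ρ I).one, (isGalAction_levelAct ρ I).mul,
      (isGalAction_levelAct ρ I).add⟩
  exact RegEmbed.transfer hZ hM hann (fun X _ act => HasHopfOrder p act)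
    (fun r h => h.pi r)
    (fun X _ _ act _ N hN h => h.subgroup N hN)
    (fun X _ _ act hact K hK actQ hQ h =>
      h.quotient ⟨hact.one, hact.mul, hact.add⟩ K hK actQ hQ)
    (fun X Y _ _ act act' e he h => h.of_equiv e he) (hS19 M)

end Level

/-! ### Statement S32 modulo the Hopf orders on the torsion of `J₀(N)` -/

section Statement

variable {p : ℕ} {N : ℕ} [NeZero N] {S : Finset ℕ}
  {𝒪 : Type} [CommRing 𝒪] [IsDomain 𝒪] [IsDiscreteValuationRing 𝒪]
  [IsAdicComplete (IsLocalRing.maximalIdeal 𝒪) 𝒪]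
  {θ : CuspForm.heckeAlgebra N 2 (↑S : Set ℕ) →+* IsLocalRing.ResidueField 𝒪}
  {T : Type} [CommRing T] [IsLocalRing T] [IsNoetherianRing T]
  [IsAdicComplete (IsLocalRing.maximalIdeal T) T] [Algebra 𝒪 T] [IsLocalHom (algebraMap 𝒪 T)]
  [Module.Finite 𝒪 T] [Module.Free 𝒪 T]

/-- The residue field of `T` is finite. -/
theorem finite_residueField [Finite (IsLocalRing.ResidueField 𝒪)]
    (H : CuspForm.HeckeGaloisRepDatum N (↑S : Set ℕ) 𝒪 θ T) :
    Finite (IsLocalRing.ResidueField T) := by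
  refine Finite.of_surjective (IsLocalRing.ResidueField.map (algebraMap 𝒪 T)) ?_
  intro y
  obtain ⟨x, hx⟩ := H.residue_surjective y
  exact ⟨IsLocalRing.residue 𝒪 x, hx⟩

/-- **Statement S32**, given Hopf orders on the torsion groups `J₀(N)[p^k]`. -/
theorem isFlatAt (hp : p.Prime)
    (hS19 : ∀ k : ℕ, HasHopfOrder p (torsAct N p k))
    [Finite (IsLocalRing.ResidueField 𝒪)]
    (hp2 : p ≠ 2) (hp𝒪 : (p : 𝒪) ∈ IsLocalRing.maximalIdeal 𝒪)
    (hpS : p ∈ S) (hNS : ∀ q : ℕ, q.Prime → q ∣ N → q ∈ S)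
    (H : CuspForm.HeckeGaloisRepDatum N (↑S : Set ℕ) 𝒪 θ T) :
    H.ρ.IsFlatAt p := by
  have : Fact p.Prime := ⟨hp⟩
  have hpT : (p : T) ∈ IsLocalRing.maximalIdeal T :=
    FiniteLevel.natCast_mem_maximalIdeal_of_isLocalHom hp𝒪
  refine isFlatAt_of_isHopfOrder H.ρ p (finite_residueField H) fun I hI => ?_
  exact hasHopfOrder_level S hpS hNS H.π H.ρ H.charpoly_frob hS19 hp2 hpT H.residual_absIrr I

end Statement

end Fermat.Agent.S32.Carayol.Assembly
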