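/-
S32 / Carayol (helper25): **statement S32 from the frozen statement S19.**

`Assembly.isFlatAt` (helper29) proves S32 from Hopf orders on the torsion groups `J₀(N)[p^k]`;
`Base.hasHopfOrder_tors_of_s19` (helper17) produces these orders from the frozen conclusion of
S19.  Here the two are composed, with binders exactly as in the frozen statement S32, so that
`Fermat/Agent/S32.lean` is one line once `Fermat.Agent.S19.result` exists:

  `Final.isFlatAt_of_s19 (fun p _ ℓ _ h k => Fermat.Agent.S19.result p ℓ h k) hp hp2 hp𝒪 hpN hpS hNS H`.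
-/
import Mathlib
import Fermat.Prelude.Def_CuspForm_HeckeGaloisRepDatum
import Fermat.Prelude.Def_GaloisRep_Flat
import Fermat.Agent.S19.Base.OfS19
import Fermat.Agent.S32.Carayol.Assembly

set_option autoImplicit false

namespace Fermat.Agent.S32.Carayol.Final

open ModularCurve Fermat.Agent.S19.Abs Fermat.Agent.S19.Base

/-- The frozen statement S19, for all levels, primes and exponents, as a proposition. -/
def S19Statement : Prop :=
  ∀ (p : ℕ) [NeZero p] (ℓ : ℕ) [Fact ℓ.Prime] (_ : ¬ ℓ ∣ p) (k : ℕ),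
    ∃ (H : Type) (_ : CommRing H) (_ : HopfAlgebra (GaloisRep.ratLocalizedAt ℓ) H),
      Module.Finite (GaloisRep.ratLocalizedAt ℓ) H ∧ Module.Flat (GaloisRep.ratLocalizedAt ℓ) H ∧
      Coalgebra.IsCocomm (GaloisRep.ratLocalizedAt ℓ) H ∧
      ∃ e : WithConv (H →ₐ[GaloisRep.ratLocalizedAt ℓ] AlgebraicClosure ℚ) ≃
          ↥(Submodule.torsionBy ℤ (JZero p) ((ℓ : ℤ) ^ k)),
        (∀ f g, e (f * g) = e f + e g) ∧
        ∀ (σ : AlgebraicClosure ℚ ≃ₐ[ℚ] AlgebraicClosure ℚ)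
          (f g : WithConv (H →ₐ[GaloisRep.ratLocalizedAt ℓ] AlgebraicClosure ℚ)),
          (∀ h : H, g h = σ (f h)) → ((e g : JZero p)) = σ • (e f : JZero p)

/-- Hopf orders on all `J₀(N)[p^k]`, `p ∤ N`, from the frozen statement S19. -/
theorem hasHopfOrder_tors (h : S19Statement) (N : ℕ) [NeZero N] (p : ℕ) [Fact p.Prime]
    (hpN : ¬ p ∣ N) (k : ℕ) : HasHopfOrder p (torsAct N p k) :=
  hasHopfOrder_tors_of_s19 N p k (h N p hpN k)

section Statement

variable {p : ℕ} {N : ℕ} [NeZero N] {S : Finset ℕ}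
  {𝒪 : Type} [CommRing 𝒪] [IsDomain 𝒪] [IsDiscreteValuationRing 𝒪]
  [IsAdicComplete (IsLocalRing.maximalIdeal 𝒪) 𝒪]
  {θ : CuspForm.heckeAlgebra N 2 (↑S : Set ℕ) →+* IsLocalRing.ResidueField 𝒪}
  {T : Type} [CommRing T] [IsLocalRing T] [IsNoetherianRing T]
  [IsAdicComplete (IsLocalRing.maximalIdeal T) T] [Algebra 𝒪 T] [IsLocalHom (algebraMap 𝒪 T)]
  [Module.Finite 𝒪 T] [Module.Free 𝒪 T]

/-- **Statement S32 from the frozen statement S19** (binders of the frozen S32). -/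
theorem isFlatAt_of_s19 (h : S19Statement)
    [Finite (IsLocalRing.ResidueField 𝒪)] [CharZero 𝒪]
    (hp : p.Prime) (hp2 : p ≠ 2) (hp𝒪 : (p : 𝒪) ∈ IsLocalRing.maximalIdeal 𝒪) (hpN : ¬ p ∣ N)
    (hpS : p ∈ S) (hNS : ∀ q : ℕ, q.Prime → q ∣ N → q ∈ S)
    (H : CuspForm.HeckeGaloisRepDatum N (↑S : Set ℕ) 𝒪 θ T) :
    H.ρ.IsFlatAt p :=
  haveI : Fact p.Prime := ⟨hp⟩
  Assembly.isFlatAt hp (fun k => hasHopfOrder_tors h N p hpN k) hp2 hp𝒪 hpS hNS H

end Statement

end Fermat.Agent.S32.Carayol.Final
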