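/-
S32 / Carayol bookkeeping (helper25, on request of helper29 #2223): **the matrices of `ρ` modulo an
ideal `I`, and coordinates on `V ⧸ I • V`**, in the basis `TraceRigidity.basis ρ`.

* `redMat ρ I : Γ →* M₂(A ⧸ I)`, `redMat_apply`, `trace_redMat`, `det_redMat`, `span_redMat`;
* `coordMod ρ I : V ⧸ I • V →+ (Fin 2 → A ⧸ I)`, `coordMod_mk`, `coordMod_injective`,
  `coordMod_levelAction` (`levelAction` becomes `mulVec` by `redMat`).
-/
import Mathlib
import Fermat.Prelude.Def_GaloisRep_Flat
import Fermat.Agent.N4F.Adic.TraceRigidity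

set_option autoImplicit false
set_option linter.unusedSectionVars false

open Module

namespace Fermat.Agent.S32.Carayol.LevelMatrix

open Fermat.Agent.N4F.Adic.TraceRigidity

local notation "Γ" => AlgebraicClosure ℚ ≃ₐ[ℚ] AlgebraicClosure ℚ

variable {A : Type} [CommRing A] [IsLocalRing A] (ρ : GaloisRepAdic A) (I : Ideal A)

theorem mat_one' : mat ρ 1 = 1 := by
  unfold mat
  rw [map_one]
  exact LinearMap.toMatrix_one (basis ρ)

/-- The matrices of `ρ` as a monoid homomorphism. -/
noncomputable def matHom : Γ →* Matrix (Fin 2) (Fin 2) A where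
  toFun := mat ρ
  map_one' := mat_one' ρ
  map_mul' := mat_mul ρ

@[simp] theorem matHom_apply (g : Γ) : matHom ρ g = mat ρ g := rfl

/-- The matrices of `ρ` modulo `I`. -/
noncomputable def redMat : Γ →* Matrix (Fin 2) (Fin 2) (A ⧸ I) :=
  ((Ideal.Quotient.mk I).mapMatrix : Matrix (Fin 2) (Fin 2) A →+* _).toMonoidHom.comp (matHom ρ)

theorem redMat_apply (g : Γ) : redMat ρ I g = (mat ρ g).map (Ideal.Quotient.mk I) := rfl

theorem trace_redMat (g : Γ) :
    (redMat ρ I g).trace = Ideal.Quotient.mk I (LinearMap.trace A ρ.V (ρ.ρ g)) := by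
  rw [trace_eq_mat, redMat_apply]
  simp only [Matrix.trace, Matrix.diag_apply, Matrix.map_apply, map_sum]

theorem det_redMat (g : Γ) :
    (redMat ρ I g).det = Ideal.Quotient.mk I (LinearMap.det (ρ.ρ g)) := by
  rw [redMat_apply, ← LinearMap.det_toMatrix (basis ρ) (ρ.ρ g), RingHom.map_det]
  rfl

theorem span_redMat (habs : ρ.residual.IsAbsolutelyIrreducible) :
    Submodule.span (A ⧸ I) (Set.range (redMat ρ I)) = ⊤ := by
  rw [eq_top_iff]
  intro Y _
  -- lift the entries
  have hsurj : ∀ y : A ⧸ I, ∃ a : A, Ideal.Quotient.mk I a = y := Ideal.Quotient.mk_surjective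
  choose lift hlift using hsurj
  set X : Matrix (Fin 2) (Fin 2) A := fun i j => lift (Y i j) with hX
  have hXY : X.map (Ideal.Quotient.mk I) = Y := by
    ext i j
    rw [Matrix.map_apply, hX, hlift]
  have hXmem : X ∈ Submodule.span A (Set.range (mat ρ)) := by
    rw [span_mat_eq_top ρ habs]; trivial
  have key : ∀ Z ∈ Submodule.span A (Set.range (mat ρ)),
      Z.map (Ideal.Quotient.mk I) ∈ Submodule.span (A ⧸ I) (Set.range (redMat ρ I)) := by
    intro Z hZ
    induction hZ using Submodule.span_induction with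
    | mem Z hZ =>
      obtain ⟨g, rfl⟩ := hZ
      exact Submodule.subset_span ⟨g, rfl⟩
    | zero =>
      have : (0 : Matrix (Fin 2) (Fin 2) A).map (Ideal.Quotient.mk I) = 0 := by
        ext i j; simp
      rw [this]; exact Submodule.zero_mem _
    | add Z W _ _ hZ hW =>
      have : (Z + W).map (Ideal.Quotient.mk I)
          = Z.map (Ideal.Quotient.mk I) + W.map (Ideal.Quotient.mk I) := by
        ext i j; simp
      rw [this]; exact Submodule.add_mem _ hZ hW
    | smul c Z _ hZ =>
      have : (c • Z).map (Ideal.Quotient.mk I)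
          = Ideal.Quotient.mk I c • Z.map (Ideal.Quotient.mk I) := by
        ext i j; simp
      rw [this]; exact Submodule.smul_mem _ _ hZ
  rw [← hXY]
  exact key X hXmem

/-- The `A`-linear coordinate map `V → (Fin 2 → A ⧸ I)`. -/
noncomputable def coordLin : ρ.V →ₗ[A] (Fin 2 → A ⧸ I) :=
  LinearMap.pi fun i => (Submodule.mkQ I : A →ₗ[A] A ⧸ I).comp ((basis ρ).coord i)

theorem coordLin_apply (v : ρ.V) (i : Fin 2) :
    coordLin ρ I v i = Ideal.Quotient.mk I ((basis ρ).repr v i) := rfl

theorem smul_top_le_ker_coordLin :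
    I • (⊤ : Submodule A ρ.V) ≤ LinearMap.ker (coordLin ρ I) := by
  rw [Submodule.smul_le]
  intro r hr v _
  rw [LinearMap.mem_ker]
  funext i
  rw [coordLin_apply, map_smul, Finsupp.smul_apply, smul_eq_mul, Pi.zero_apply,
    Ideal.Quotient.eq_zero_iff_mem]
  exact I.mul_mem_right _ hr

theorem ker_coordLin_le : LinearMap.ker (coordLin ρ I) ≤ I • (⊤ : Submodule A ρ.V) := by
  intro v hv
  rw [LinearMap.mem_ker] at hv
  have hmem : ∀ i, (basis ρ).repr v i ∈ I := by
    intro i
    have := congrFun hv i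
    rwa [coordLin_apply, Pi.zero_apply, Ideal.Quotient.eq_zero_iff_mem] at this
  rw [← (basis ρ).sum_repr v]
  exact Submodule.sum_mem _ fun i _ => Submodule.smul_mem_smul (hmem i) Submodule.mem_top

/-- Coordinates modulo `I`. -/
noncomputable def coordMod : (ρ.V ⧸ (I • (⊤ : Submodule A ρ.V))) →+ (Fin 2 → A ⧸ I) :=
  ((I • (⊤ : Submodule A ρ.V)).liftQ (coordLin ρ I)
    (smul_top_le_ker_coordLin ρ I)).toAddMonoidHom

theorem coordMod_mk (v : ρ.V) (i : Fin 2) :
    coordMod ρ I (Submodule.Quotient.mk v) i = Ideal.Quotient.mk I ((basis ρ).repr v i) := rfl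

theorem coordMod_injective : Function.Injective (coordMod ρ I) := by
  have h := Submodule.ker_liftQ_eq_bot (I • (⊤ : Submodule A ρ.V)) (coordLin ρ I)
    (smul_top_le_ker_coordLin ρ I) (ker_coordLin_le ρ I)
  exact LinearMap.ker_eq_bot.mp h

theorem coordMod_levelAction (σ : Γ) (y : ρ.V ⧸ (I • (⊤ : Submodule A ρ.V))) :
    coordMod ρ I (ρ.levelAction I σ y) = (redMat ρ I σ).mulVec (coordMod ρ I y) := by
  induction y using Submodule.Quotient.induction_on with
  | _ v =>
    funext i
    have h1 : ρ.levelAction I σ (Submodule.Quotient.mk v) = Submodule.Quotient.mk (ρ.ρ σ v) := rfl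
    rw [h1, coordMod_mk]
    have h2 : (basis ρ).repr (ρ.ρ σ v) i = (mat ρ σ).mulVec ((basis ρ).repr v) i := by
      unfold mat
      rw [LinearMap.toMatrix_mulVec_repr]
    rw [h2, Matrix.mulVec, dotProduct, map_sum, Matrix.mulVec, dotProduct]
    refine Finset.sum_congr rfl fun j _ => ?_
    rw [map_mul, redMat_apply, Matrix.map_apply, coordMod_mk]

end Fermat.Agent.S32.Carayol.LevelMatrix
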