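/-
S32 / Carayol bookkeeping (helper25): **the bridge between the Tate module and the torsion**.

`TJ p N = Tate p (JZero N)` is the Tate module used by `N4F/Adic` (`tateDataAll.T = TJ p N` and
`tateDataAll.gal = TateJ.gal p N` definitionally); `Tors N p M` is the carrier of the frozen S19.
The projection `Tate.proj M : TJ p N → J₀(N)[p^M]` is `Γ`-equivariant with kernel `p^M • TJ`, hence:

* `fsum_gal_eq_smul_of_tors` : a formal sum `a ∈ ℤ[Γ]` killing `Tors N p M` maps `TJ` into `p^M • TJ`;
* `annIncl_tors_of_tate` : if every `a` mapping `TJ` into `p^M • TJ` kills `X`, then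
  `RegEmbed.AnnIncl (torsAct N p M) actX`.
-/
import Mathlib
import Fermat.Agent.N4F.Adic.TateJ
import Fermat.Agent.S19.Abs.Torsion
import Fermat.Agent.S32.Carayol.RegEmbed

set_option autoImplicit false
set_option linter.unusedSectionVars false

open ModularCurve

namespace Fermat.Agent.S32.Carayol.TorsBridge

open Fermat.Agent.N4F.Adic Fermat.Agent.N4F.Adic.TateModule Fermat.Agent.N4F.Adic.TateJ
  Fermat.Agent.S19.Abs Fermat.Agent.S32.Carayol.RegEmbed

local notation "Γ" => (AlgebraicClosure ℚ ≃ₐ[ℚ] AlgebraicClosure ℚ)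

variable (p : ℕ) [hp : Fact p.Prime] (N : ℕ) [NeZero N]

/-- The Galois action on the Tate module as a plain function (the shape of `RegEmbed`). -/
noncomputable def galAct : Γ → TJ p N → TJ p N := fun σ w => gal p N σ w

@[simp] theorem galAct_apply (σ : Γ) (w : TJ p N) : galAct p N σ w = gal p N σ w := rfl

theorem isAddAct_galAct : IsAddAct (galAct p N) where
  one w := by rw [galAct_apply, map_one]; rfl
  mul σ τ w := by rw [galAct_apply, map_mul]; rfl
  add σ w w' := map_add (gal p N σ) w w'

/-- The `M`-th projection of a Tate vector lies in the `p^M`-torsion. -/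
theorem proj_mem_tors (M : ℕ) (w : TJ p N) :
    Tate.proj M w ∈ Submodule.torsionBy ℤ (JZero N) ((p : ℤ) ^ M) := by
  rw [Submodule.mem_torsionBy_iff]
  have h := Tate.pow_smul_proj (p := p) M w
  rw [← natCast_zsmul] at h
  push_cast at h
  exact h

/-- The `M`-th projection as a map to `Tors N p M`. -/
noncomputable def projTors (M : ℕ) (w : TJ p N) : Tors N p M := ⟨Tate.proj M w, proj_mem_tors p N M w⟩

@[simp] theorem coe_projTors (M : ℕ) (w : TJ p N) :
    ((projTors p N M w : Tors N p M) : JZero N) = Tate.proj M w := rfl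

theorem projTors_galAct (M : ℕ) (σ : Γ) (w : TJ p N) :
    projTors p N M (galAct p N σ w) = torsAct N p M σ (projTors p N M w) := rfl

/-- `proj M` intertwines the two actions of formal sums. -/
theorem proj_fsum (M : ℕ) (w : TJ p N) (a : Γ →₀ ℤ) :
    Tate.proj M (fsum (galAct p N) w a) =
      ((fsum (torsAct N p M) (projTors p N M w) a : Tors N p M) : JZero N) := by
  have h : (Tate.proj (p := p) (J := JZero N) M).comp (fsum (galAct p N) w) =
      ((Submodule.torsionBy ℤ (JZero N) ((p : ℤ) ^ M)).subtype.toAddMonoidHom).comp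
        (fsum (torsAct N p M) (projTors p N M w)) := by
    refine Finsupp.addHom_ext fun g n => ?_
    rw [AddMonoidHom.comp_apply, AddMonoidHom.comp_apply, fsum_single, fsum_single, map_zsmul,
      map_zsmul]
    rfl
  exact DFunLike.congr_fun h a

/-- A formal sum killing `J₀(N)[p^M]` maps the Tate module into `p^M • TJ`. -/
theorem fsum_gal_eq_smul_of_tors (M : ℕ) (a : Γ →₀ ℤ)
    (ha : ∀ y : Tors N p M, fsum (torsAct N p M) y a = 0) (w : TJ p N) :
    ∃ w' : TJ p N, fsum (galAct p N) w a = (p : ℤ_[p]) ^ M • w' := by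
  have h0 : Tate.proj M (fsum (galAct p N) w a) = 0 := by
    rw [proj_fsum, ha]; rfl
  obtain ⟨y, hy⟩ := (Tate.proj_eq_zero_iff M _).1 h0
  exact ⟨y, hy.symm⟩

/-- The formal-sum action in `Finsupp.sum` form. -/
theorem fsum_eq_sum {Z : Type*} [AddCommGroup Z] (act : Γ → Z → Z) (z : Z) (a : Γ →₀ ℤ) :
    fsum act z a = a.sum fun g n => n • act g z := by
  rw [fsum, Finsupp.liftAddHom_apply]
  rfl

/-- **The bridge**: an annihilator statement on the Tate module modulo `p^M` gives the annihilator
inclusion from the torsion `J₀(N)[p^M]`. -/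
theorem annIncl_tors_of_tate {X : Type*} [AddCommGroup X] (actX : Γ → X → X) (M : ℕ)
    (h : ∀ a : Γ →₀ ℤ,
      (∀ w : TJ p N, ∃ w' : TJ p N, fsum (galAct p N) w a = (p : ℤ_[p]) ^ M • w') →
        ∀ v : X, fsum actX v a = 0) :
    AnnIncl (torsAct N p M) actX :=
  fun a ha v => h a (fsum_gal_eq_smul_of_tors p N M a ha) v

end Fermat.Agent.S32.Carayol.TorsBridge
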