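/-
S32 / Carayol bookkeeping (helper27): **the top wiring of S32.**

* `hasHopfOrder_of_annIncl` : `RegEmbed.transfer` instantiated with `P := HasHopfOrder ℓ` and the four
  stability lemmas of `S19/Base/{Stability,Quotient}`: if every integral formal sum killing the finite
  Galois module `Z` kills the finite Galois module `M`, a Hopf order on `Z` gives a Hopf order on `M`.
* `isFlatAt_of_annIncl` : for a Hecke–Galois datum `H`, `H.ρ.IsFlatAt p` follows from
  (S19) Hopf orders on all `J₀(N)[p^M]` and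
  (Carayol) for every proper ideal `I` of finite index an `M` with
  `AnnIncl (torsAct N p M) (levelAct H.ρ I)`.
-/
import Mathlib
import Fermat.Agent.S19.Base.Stability
import Fermat.Agent.S19.Base.Quotient
import Fermat.Agent.S19.Abs.S32Top
import Fermat.Agent.S19.Abs.Torsion
import Fermat.Agent.S32.Carayol.RegEmbed
import Fermat.Agent.S32.Carayol.FiniteLevel

set_option autoImplicit false

namespace Fermat.Agent.S32.Carayol.Wiring

open Fermat.Agent.S19.Abs Fermat.Agent.S19.Base Fermat.Agent.S32.Carayol GaloisRep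

/-- **Transfer of Hopf orders along an annihilator inclusion.** -/
theorem hasHopfOrder_of_annIncl (ℓ : ℕ) [Fact ℓ.Prime] {Z M : Type} [AddCommGroup Z]
    [AddCommGroup M] [Finite Z] [Finite M] {actZ : GQ → Z → Z} {actM : GQ → M → M}
    (hZ : IsGalAction actZ) (hM : IsGalAction actM) (hann : RegEmbed.AnnIncl actZ actM)
    (h : HasHopfOrder ℓ actZ) : HasHopfOrder ℓ actM :=
  RegEmbed.transfer (G := GQ) ⟨hZ.one, hZ.mul, hZ.add⟩ ⟨hM.one, hM.mul, hM.add⟩ hann
    (fun _ _ act => HasHopfOrder ℓ act)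
    (fun r h => h.pi r)
    (fun _ _ _ _ _ N hN h => h.subgroup N hN)
    (fun _ _ _ _ hact K hK actQ hQ h =>
      h.quotient ⟨hact.one, hact.mul, hact.add⟩ K hK actQ hQ)
    (fun _ _ _ _ _ _ e he h => h.of_equiv e he)
    h

section Top

variable {N : ℕ} [NeZero N] {S : Set ℕ}
  {𝒪 : Type} [CommRing 𝒪] [IsDomain 𝒪] [IsDiscreteValuationRing 𝒪]
  [IsAdicComplete (IsLocalRing.maximalIdeal 𝒪) 𝒪]
  {θ : CuspForm.heckeAlgebra N 2 S →+* IsLocalRing.ResidueField 𝒪}
  {T : Type} [CommRing T] [IsLocalRing T] [IsNoetherianRing T]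
  [IsAdicComplete (IsLocalRing.maximalIdeal T) T] [Algebra 𝒪 T] [IsLocalHom (algebraMap 𝒪 T)]
  [Module.Finite 𝒪 T] [Module.Free 𝒪 T]

/-- **S32 from S19 and the annihilator inclusions.** -/
theorem isFlatAt_of_annIncl [Finite (IsLocalRing.ResidueField 𝒪)] {p : ℕ} (hp : p.Prime)
    (H : CuspForm.HeckeGaloisRepDatum N S 𝒪 θ T)
    (hS19 : ∀ M : ℕ, HasHopfOrder p (torsAct N p M))
    (hann : ∀ I : Ideal T, Finite (T ⧸ I) → I ≠ ⊤ →
      ∃ M : ℕ, RegEmbed.AnnIncl (torsAct N p M) (levelAct H.ρ I)) :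
    H.ρ.IsFlatAt p := by
  have : Fact p.Prime := ⟨hp⟩
  refine s32_of_levels hp H fun I hI => ?_
  by_cases hI' : I = ⊤
  · have := FiniteLevel.subsingleton_level (M := H.ρ.V) I hI'
    exact hasHopfOrder_of_subsingleton (levelAct H.ρ I)
  · obtain ⟨M, hM⟩ := hann I hI hI'
    have := finite_tors N p M hp.pos
    have := finite_level H.ρ I
    exact hasHopfOrder_of_annIncl p (isGalAction_torsAct N p M) (isGalAction_levelAct H.ρ I) hM
      (hS19 M)

end Top

end Fermat.Agent.S32.Carayol.Wiring
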